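/-
S26lib / Para / Model  (helper2)  --  Project K (S26), step (Q2'): the abstract interface.

"Weil models with closed points" of smooth varieties over an algebraically closed field, and of
the two kinds of morphisms between them that the proof of the parallelogram/cube relation uses:

* `VarModel K F P` : a `DivModel K F` (prime divisors + orders, helper7's `Iface`) together with the
  set `P` of closed points, the incidence `thr Y ⊆ P`, the evaluation `ev a : F → K` at a closed
  point (meaningful on the local ring `Reg a`, which is DEFINED by the Krull property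
  `O_a = ⋂_{Y ∋ a} O_Y`), and the ideals of "thin" subsets (contained in a proper closed subset)
  of the whole variety and of every prime divisor.
* `MapModel X Y φ pt` : the comorphism `φ : F_Y → F_X` and the map on closed points `pt` of a
  smooth surjective morphism `X → Y` with irreducible fibres: prime divisors of `Y` pull back to
  prime divisors of `X` (`pull`), with the same orders, and every other prime divisor of `X`
  dominates `Y`.
* `SecModel X Y pt` : an arbitrary morphism `X → Y` (a fibre inclusion or a section), as a partial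
  comorphism `ρ : dom → F_X` defined on the local ring `dom ⊆ F_Y` of the image of the generic
  point, local at closed points.
* `AutModel X α pt` : an automorphism.

All these are to be produced by GENERIC constructors from smooth varieties over `K` (bridge (P5)).
-/
import Fermat.Agent.S26lib.Iface

set_option autoImplicit false

noncomputable section

namespace Fermat.Agent.S26lib.Para

open Fermat.Agent.S26lib

universe u

section defs

variable {K F : Type u} [Field K] [Field F] [Algebra K F] {P : Type u}

/-- `f` lies in the local ring of the closed point `a` (Krull: all prime divisors through `a`). -/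
def RegAt (M : DivModel K F) (thr : M.ι → Set P) (a : P) (f : F) : Prop :=
  f = 0 ∨ ∀ Y, a ∈ thr Y → 0 ≤ M.ord Y f

/-- `f` is a unit of the local ring of the closed point `a`. -/
def UnitAt (M : DivModel K F) (thr : M.ι → Set P) (a : P) (f : F) : Prop :=
  f ≠ 0 ∧ ∀ Y, a ∈ thr Y → M.ord Y f = 0

end defs

/-- **Weil model with closed points** of a smooth (normal, locally factorial) variety. -/
structure VarModel (K F : Type u) [Field K] [Field F] [Algebra K F] (P : Type u) where
  /-- prime divisors and orders -/
  M : DivModel K F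
  /-- the closed points of a prime divisor -/
  thr : M.ι → Set P
  /-- evaluation at a closed point (junk outside the local ring) -/
  ev : P → F → K
  /-- subsets of the variety contained in a proper closed subset -/
  thin : Set P → Prop
  /-- subsets of a prime divisor `Y` contained in a proper closed subset of `Y` -/
  thinIn : M.ι → Set P → Prop
  ev_add : ∀ a f g, RegAt M thr a f → RegAt M thr a g → ev a (f + g) = ev a f + ev a g
  ev_mul : ∀ a f g, RegAt M thr a f → RegAt M thr a g → ev a (f * g) = ev a f * ev a g
  ev_const : ∀ a (c : K), ev a (algebraMap K F c) = c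
  ev_ne_zero_iff : ∀ a f, RegAt M thr a f → (ev a f ≠ 0 ↔ UnitAt M thr a f)
  thin_mono : ∀ {S T : Set P}, S ⊆ T → thin T → thin S
  thin_union : ∀ {S T : Set P}, thin S → thin T → thin (S ∪ T)
  thin_empty : thin ∅
  not_thin_univ : ¬ thin Set.univ
  thin_thr : ∀ Y, thin (thr Y)
  thinIn_mono : ∀ Y {S T : Set P}, S ⊆ T → thinIn Y T → thinIn Y S
  thinIn_union : ∀ Y {S T : Set P}, thinIn Y S → thinIn Y T → thinIn Y (S ∪ T)
  thinIn_empty : ∀ Y, thinIn Y ∅
  not_thinIn_thr : ∀ Y, ¬ thinIn Y (thr Y)
  thinIn_inter : ∀ Y Y', Y' ≠ Y → thinIn Y (thr Y ∩ thr Y')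
  /-- local factoriality: a prime divisor has a local equation at each of its closed points -/
  exists_localEq : ∀ Y a, a ∈ thr Y → ∃ π : F, π ≠ 0 ∧ M.ord Y π = 1 ∧
    ∀ Y', Y' ≠ Y → a ∈ thr Y' → M.ord Y' π = 0

namespace VarModel

variable {K F : Type u} [Field K] [Field F] [Algebra K F] {P : Type u} (X : VarModel K F P)

/-- the local ring at a closed point -/
def Reg (a : P) (f : F) : Prop := RegAt X.M X.thr a f

/-- the units of the local ring at a closed point -/
def IsUnitAt (a : P) (f : F) : Prop := UnitAt X.M X.thr a f

/-- completeness: the everywhere regular functions are the constants -/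
def Complete : Prop :=
  ∀ f : F, f ≠ 0 → (∀ Y, 0 ≤ X.M.ord Y f) → ∃ c : K, f = algebraMap K F c

end VarModel

/-- **Model of a smooth surjective morphism `X → Y` with irreducible fibres** (a projection of a
product, an addition map of a group variety, ...). -/
structure MapModel {K FX FY : Type u} [Field K] [Field FX] [Field FY] [Algebra K FX]
    [Algebra K FY] {PX PY : Type u} (X : VarModel K FX PX) (Y : VarModel K FY PY)
    (φ : FY →ₐ[K] FX) (pt : PX → PY) where
  /-- the prime divisor `φ⁻¹(Z)` -/
  pull : Y.M.ι → X.M.ι
  pull_injective : Function.Injective pull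
  ord_pull : ∀ Z f, X.M.ord (pull Z) (φ f) = Y.M.ord Z f
  ord_other : ∀ W, W ∉ Set.range pull → ∀ f, f ≠ 0 → X.M.ord W (φ f) = 0
  thr_pull : ∀ Z q, q ∈ X.thr (pull Z) ↔ pt q ∈ Y.thr Z
  ev_map : ∀ q f, Y.Reg (pt q) f → X.ev q (φ f) = Y.ev (pt q) f
  thin_preimage : ∀ T, Y.thin T → X.thin (pt ⁻¹' T)
  /-- a prime divisor which is not a pull-back dominates `Y` -/
  thinIn_preimage : ∀ W, W ∉ Set.range pull → ∀ T, Y.thin T → X.thinIn W (X.thr W ∩ pt ⁻¹' T)
  thin_compl_image : ∀ W, W ∉ Set.range pull → Y.thin {y | ∀ q ∈ X.thr W, pt q ≠ y}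

/-- **Model of an arbitrary morphism `X → Y`** (fibre inclusion, section): a partial comorphism. -/
structure SecModel {K FX FY : Type u} [Field K] [Field FX] [Field FY] [Algebra K FX]
    [Algebra K FY] {PX PY : Type u} (X : VarModel K FX PX) (Y : VarModel K FY PY)
    (pt : PX → PY) where
  /-- the local ring of `Y` at the image of the generic point of `X` -/
  dom : Subalgebra K FY
  /-- the comorphism -/
  ρ : dom →ₐ[K] FX
  reg_dom : ∀ a f, Y.Reg (pt a) f → f ∈ dom
  reg_ρ : ∀ a f (h : Y.Reg (pt a) f), X.Reg a (ρ ⟨f, reg_dom a f h⟩)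
  ev_ρ : ∀ a f (h : Y.Reg (pt a) f), X.ev a (ρ ⟨f, reg_dom a f h⟩) = Y.ev (pt a) f

/-- **Model of an automorphism** of `X`. -/
structure AutModel {K F : Type u} [Field K] [Field F] [Algebra K F] {P : Type u}
    (X : VarModel K F P) (α : F ≃ₐ[K] F) (pt : P ≃ P) where
  /-- the action on prime divisors: `perm Y = α⁻¹(Y)` as a set -/
  perm : Equiv.Perm X.M.ι
  ord_perm : ∀ Y f, X.M.ord (perm Y) (α f) = X.M.ord Y f
  thr_perm : ∀ Y a, a ∈ X.thr (perm Y) ↔ pt a ∈ X.thr Y
  ev_aut : ∀ a f, X.Reg (pt a) f → X.ev a (α f) = X.ev (pt a) f
  thin_preimage : ∀ T, X.thin T → X.thin (pt ⁻¹' T)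

end Fermat.Agent.S26lib.Para
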