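/-
S26lib / Para / ModelLemmas  (helper2)  --  basic consequences of the `VarModel` axioms.
-/
import Fermat.Agent.S26lib.Para.Model

set_option autoImplicit false

noncomputable section

namespace Fermat.Agent.S26lib.Para

open Fermat.Agent.S26lib

universe u

namespace DivModelAux

variable {K F : Type u} [Field K] [Field F] [Algebra K F] (M : DivModel K F)

theorem ord_pow (P : M.ι) {x : F} (hx : x ≠ 0) (n : ℕ) : M.ord P (x ^ n) = n * M.ord P x := by
  induction n with
  | zero => simp [DivModel.ord_one]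
  | succ n ih =>
    rw [pow_succ, M.ord_mul P (pow_ne_zero n hx) hx, ih]
    push_cast
    ring

theorem ord_div (P : M.ι) {x y : F} (hx : x ≠ 0) (hy : y ≠ 0) :
    M.ord P (x / y) = M.ord P x - M.ord P y := by
  rw [div_eq_mul_inv, M.ord_mul P hx (inv_ne_zero hy), M.ord_inv P hy]
  ring

theorem ord_sub (P : M.ι) {x y : F} (hx : x ≠ 0) (hy : y ≠ 0) (hxy : x - y ≠ 0) :
    min (M.ord P x) (M.ord P y) ≤ M.ord P (x - y) := by
  have := M.ord_add P hx (neg_ne_zero.2 hy) (by rwa [← sub_eq_add_neg])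
  rwa [M.ord_neg, ← sub_eq_add_neg] at this

/-- a finite sum of elements of order `≥ n` has order `≥ n` (if it is non-zero) -/
theorem le_ord_sum (P : M.ι) {ι' : Type*} (s : Finset ι') (f : ι' → F) (n : ℤ)
    (h : ∀ i ∈ s, f i ≠ 0 → n ≤ M.ord P (f i)) (hs : ∑ i ∈ s, f i ≠ 0) :
    n ≤ M.ord P (∑ i ∈ s, f i) := by
  classical
  induction s using Finset.induction_on with
  | empty => simp at hs
  | insert a s ha ih =>
    rw [Finset.sum_insert ha] at hs ⊢
    by_cases h1 : f a = 0
    · rw [h1, zero_add] at hs ⊢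
      exact ih (fun i hi => h i (Finset.mem_insert_of_mem hi)) hs
    by_cases h2 : ∑ i ∈ s, f i = 0
    · rw [h2, add_zero]
      exact h a (Finset.mem_insert_self _ _) h1
    refine le_trans (le_min (h a (Finset.mem_insert_self _ _) h1) ?_) (M.ord_add P h1 h2 hs)
    exact ih (fun i hi => h i (Finset.mem_insert_of_mem hi)) h2

theorem ord_prod (P : M.ι) {ι' : Type*} (s : Finset ι') (f : ι' → F) (h : ∀ i ∈ s, f i ≠ 0) :
    M.ord P (∏ i ∈ s, f i) = ∑ i ∈ s, M.ord P (f i) := by
  classical
  induction s using Finset.induction_on with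
  | empty => simp [DivModel.ord_one]
  | insert a s ha ih =>
    rw [Finset.prod_insert ha, Finset.sum_insert ha,
      M.ord_mul P (h a (Finset.mem_insert_self _ _))
        (Finset.prod_ne_zero_iff.2 fun i hi => h i (Finset.mem_insert_of_mem hi)),
      ih fun i hi => h i (Finset.mem_insert_of_mem hi)]

end DivModelAux

namespace VarModel

variable {K F : Type u} [Field K] [Field F] [Algebra K F] {P : Type u} (X : VarModel K F P)

theorem reg_zero (a : P) : X.Reg a 0 := Or.inl rfl

theorem reg_iff {a : P} {f : F} (hf : f ≠ 0) : X.Reg a f ↔ ∀ Y, a ∈ X.thr Y → 0 ≤ X.M.ord Y f :=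
  ⟨fun h => h.resolve_left hf, Or.inr⟩

theorem reg_const (a : P) (c : K) : X.Reg a (algebraMap K F c) :=
  Or.inr fun Y _ => (X.M.ord_const Y c).ge

theorem reg_one (a : P) : X.Reg a 1 := by
  simpa using X.reg_const a 1

theorem reg_add {a : P} {f g : F} (hf : X.Reg a f) (hg : X.Reg a g) : X.Reg a (f + g) := by
  rcases eq_or_ne f 0 with rfl | hf0
  · rwa [zero_add]
  rcases eq_or_ne g 0 with rfl | hg0
  · rwa [add_zero]
  rcases eq_or_ne (f + g) 0 with h0 | h0
  · exact Or.inl h0
  refine Or.inr fun Y hY => ?_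
  exact le_trans (le_min ((X.reg_iff hf0).1 hf Y hY) ((X.reg_iff hg0).1 hg Y hY))
    (X.M.ord_add Y hf0 hg0 h0)

theorem reg_mul {a : P} {f g : F} (hf : X.Reg a f) (hg : X.Reg a g) : X.Reg a (f * g) := by
  rcases eq_or_ne f 0 with rfl | hf0
  · rw [zero_mul]; exact X.reg_zero a
  rcases eq_or_ne g 0 with rfl | hg0
  · rw [mul_zero]; exact X.reg_zero a
  refine Or.inr fun Y hY => ?_
  rw [X.M.ord_mul Y hf0 hg0]
  exact add_nonneg ((X.reg_iff hf0).1 hf Y hY) ((X.reg_iff hg0).1 hg Y hY)

theorem reg_neg {a : P} {f : F} (hf : X.Reg a f) : X.Reg a (-f) := by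
  rcases hf with rfl | hf
  · rw [neg_zero]; exact X.reg_zero a
  · exact Or.inr fun Y hY => by rw [X.M.ord_neg]; exact hf Y hY

theorem reg_sub {a : P} {f g : F} (hf : X.Reg a f) (hg : X.Reg a g) : X.Reg a (f - g) := by
  rw [sub_eq_add_neg]; exact X.reg_add hf (X.reg_neg hg)

theorem reg_pow {a : P} {f : F} (hf : X.Reg a f) (n : ℕ) : X.Reg a (f ^ n) := by
  induction n with
  | zero => rw [pow_zero]; exact X.reg_one a
  | succ n ih => rw [pow_succ]; exact X.reg_mul ih hf

theorem reg_sum {a : P} {ι' : Type*} (s : Finset ι') (f : ι' → F) (h : ∀ i ∈ s, X.Reg a (f i)) :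
    X.Reg a (∑ i ∈ s, f i) := by
  classical
  induction s using Finset.induction_on with
  | empty => rw [Finset.sum_empty]; exact X.reg_zero a
  | insert b s hb ih =>
    rw [Finset.sum_insert hb]
    exact X.reg_add (h b (Finset.mem_insert_self _ _)) (ih fun i hi => h i (Finset.mem_insert_of_mem hi))

/-- the local ring at a closed point, as a subring -/
def regSubring (a : P) : Subring F where
  carrier := {f | X.Reg a f}
  mul_mem' := X.reg_mul
  one_mem' := X.reg_one a
  add_mem' := X.reg_add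
  zero_mem' := X.reg_zero a
  neg_mem' := X.reg_neg

@[simp] theorem mem_regSubring {a : P} {f : F} : f ∈ X.regSubring a ↔ X.Reg a f := Iff.rfl

theorem ev_zero (a : P) : X.ev a 0 = 0 := by
  have := X.ev_const a 0
  simpa using this

theorem ev_one (a : P) : X.ev a 1 = 1 := by
  have := X.ev_const a 1
  simpa using this

/-- evaluation at a closed point as a ring homomorphism on the local ring -/
def evHom (a : P) : X.regSubring a →+* K where
  toFun f := X.ev a f.1
  map_one' := X.ev_one a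
  map_mul' f g := X.ev_mul a f.1 g.1 f.2 g.2
  map_zero' := X.ev_zero a
  map_add' f g := X.ev_add a f.1 g.1 f.2 g.2

@[simp] theorem evHom_apply (a : P) (f : X.regSubring a) : X.evHom a f = X.ev a f.1 := rfl

theorem ev_sum {a : P} {ι' : Type*} (s : Finset ι') (f : ι' → F) (h : ∀ i ∈ s, X.Reg a (f i)) :
    X.ev a (∑ i ∈ s, f i) = ∑ i ∈ s, X.ev a (f i) := by
  classical
  induction s using Finset.induction_on with
  | empty => simp [X.ev_zero]
  | insert b s hb ih =>
    rw [Finset.sum_insert hb, Finset.sum_insert hb,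
      X.ev_add a _ _ (h b (Finset.mem_insert_self _ _))
        (X.reg_sum s f fun i hi => h i (Finset.mem_insert_of_mem hi)),
      ih fun i hi => h i (Finset.mem_insert_of_mem hi)]

theorem ev_smul (a : P) (c : K) {f : F} (hf : X.Reg a f) : X.ev a (c • f) = c * X.ev a f := by
  rw [Algebra.smul_def, X.ev_mul a _ _ (X.reg_const a c) hf, X.ev_const]

theorem isUnitAt.reg {a : P} {f : F} (h : X.IsUnitAt a f) : X.Reg a f :=
  Or.inr fun Y hY => (h.2 Y hY).ge

theorem isUnitAt_inv {a : P} {f : F} (h : X.IsUnitAt a f) : X.IsUnitAt a f⁻¹ :=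
  ⟨inv_ne_zero h.1, fun Y hY => by rw [X.M.ord_inv Y h.1, h.2 Y hY, neg_zero]⟩

theorem isUnitAt_mul {a : P} {f g : F} (hf : X.IsUnitAt a f) (hg : X.IsUnitAt a g) :
    X.IsUnitAt a (f * g) :=
  ⟨mul_ne_zero hf.1 hg.1, fun Y hY => by
    rw [X.M.ord_mul Y hf.1 hg.1, hf.2 Y hY, hg.2 Y hY, add_zero]⟩

theorem isUnitAt_const (a : P) {c : K} (hc : c ≠ 0) : X.IsUnitAt a (algebraMap K F c) :=
  ⟨by simpa using hc, fun Y _ => X.M.ord_const Y c⟩

theorem ev_ne_zero_of_isUnitAt {a : P} {f : F} (h : X.IsUnitAt a f) : X.ev a f ≠ 0 :=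
  (X.ev_ne_zero_iff a f (isUnitAt.reg X h)).2 h

theorem isUnitAt_of_ev_ne_zero {a : P} {f : F} (hf : X.Reg a f) (h : X.ev a f ≠ 0) :
    X.IsUnitAt a f :=
  (X.ev_ne_zero_iff a f hf).1 h

/-- a regular function of positive order along a prime divisor through `a` vanishes at `a` -/
theorem ev_eq_zero_of_ord_pos {a : P} {f : F} (hf : X.Reg a f) {Y : X.M.ι} (hY : a ∈ X.thr Y)
    (h : 0 < X.M.ord Y f) : X.ev a f = 0 := by
  by_contra h0
  have := (X.isUnitAt_of_ev_ne_zero hf h0).2 Y hY
  omega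

/-! ### thin sets -/

theorem thin_biUnion {ι' : Type*} (s : Finset ι') (T : ι' → Set P) (h : ∀ i ∈ s, X.thin (T i)) :
    X.thin (⋃ i ∈ s, T i) := by
  classical
  induction s using Finset.induction_on with
  | empty => simpa using X.thin_empty
  | insert b s hb ih =>
    rw [Finset.set_biUnion_insert]
    exact X.thin_union (h b (Finset.mem_insert_self _ _))
      (ih fun i hi => h i (Finset.mem_insert_of_mem hi))

theorem thin_of_finite_union (I : Set X.M.ι) (hI : I.Finite) : X.thin (⋃ Y ∈ I, X.thr Y) := by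
  classical
  have := X.thin_biUnion hI.toFinset (fun Y => X.thr Y) (fun Y _ => X.thin_thr Y)
  simpa using this

theorem thinIn_biUnion (Y : X.M.ι) {ι' : Type*} (s : Finset ι') (T : ι' → Set P)
    (h : ∀ i ∈ s, X.thinIn Y (T i)) : X.thinIn Y (⋃ i ∈ s, T i) := by
  classical
  induction s using Finset.induction_on with
  | empty => simpa using X.thinIn_empty Y
  | insert b s hb ih =>
    rw [Finset.set_biUnion_insert]
    exact X.thinIn_union Y (h b (Finset.mem_insert_self _ _))
      (ih fun i hi => h i (Finset.mem_insert_of_mem hi))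

/-- a set which is not thin has a point outside any given thin set -/
theorem exists_mem_not_mem_of_not_thin {S T : Set P} (hS : ¬ X.thin S) (hT : X.thin T) :
    ∃ a ∈ S, a ∉ T := by
  by_contra h
  push Not at h
  exact hS (X.thin_mono (fun a ha => h a ha) hT)

/-- the set where a non-zero function is not a unit of the local ring is thin -/
theorem thin_not_isUnitAt {f : F} (hf : f ≠ 0) : X.thin {a | ¬ X.IsUnitAt a f} := by
  refine X.thin_mono ?_ (X.thin_of_finite_union _ (X.M.finite_supp f hf))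
  intro a ha
  simp only [Set.mem_ofPred_eq, IsUnitAt, UnitAt, not_and, not_forall] at ha
  obtain ⟨Y, hY, hne⟩ := ha hf
  exact Set.mem_biUnion (show Y ∈ {P | X.M.ord P f ≠ 0} from hne) hY

/-- the set where a function is not regular is thin -/
theorem thin_not_reg (f : F) : X.thin {a | ¬ X.Reg a f} := by
  rcases eq_or_ne f 0 with rfl | hf
  · refine X.thin_mono ?_ X.thin_empty
    intro a ha
    exact (ha (X.reg_zero a)).elim
  · refine X.thin_mono ?_ (X.thin_not_isUnitAt hf)
    intro a ha hu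
    exact ha (isUnitAt.reg X hu)

/-- **vanishing lemma**: a function of order `0` along `Y` is a unit at the closed points of `Y`
outside a thin subset of `Y`. -/
theorem thinIn_not_isUnitAt {f : F} (hf : f ≠ 0) {Y : X.M.ι} (hY : X.M.ord Y f = 0) :
    X.thinIn Y {a | a ∈ X.thr Y ∧ ¬ X.IsUnitAt a f} := by
  classical
  have hfin := X.M.finite_supp f hf
  have h1 : X.thinIn Y (⋃ Y' ∈ hfin.toFinset, X.thr Y ∩ X.thr Y') := by
    refine X.thinIn_biUnion Y _ _ fun Y' hY' => X.thinIn_inter Y Y' ?_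
    rintro rfl
    simp only [Set.Finite.mem_toFinset, Set.mem_ofPred_eq] at hY'
    exact hY' hY
  refine X.thinIn_mono Y ?_ h1
  rintro a ⟨haY, hnu⟩
  simp only [IsUnitAt, UnitAt, not_and, not_forall] at hnu
  obtain ⟨Y', hY', hne⟩ := hnu hf
  have hmem : Y' ∈ hfin.toFinset := by simpa using hne
  exact Set.mem_biUnion (s := (↑hfin.toFinset : Set X.M.ι)) (t := fun Y' => X.thr Y ∩ X.thr Y')
    (x := Y') hmem ⟨haY, hY'⟩

/-- a function regular along `Y` which vanishes (or is not regular) at a non-thin set of closed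
points of `Y` has positive order along `Y` -/
theorem ord_pos_of_vanishing {f : F} (hf : f ≠ 0) {Y : X.M.ι} (h0 : 0 ≤ X.M.ord Y f)
    {S : Set P} (hS : ¬ X.thinIn Y S) (hSY : S ⊆ X.thr Y)
    (hvan : ∀ a ∈ S, ¬ X.IsUnitAt a f) : 0 < X.M.ord Y f := by
  by_contra h
  have h00 : X.M.ord Y f = 0 := by omega
  have hsub : S ⊆ {a | a ∈ X.thr Y ∧ ¬ X.IsUnitAt a f} := fun a ha => ⟨hSY ha, hvan a ha⟩
  exact hS (X.thinIn_mono Y hsub (X.thinIn_not_isUnitAt hf h00))

theorem thr_nonempty (Y : X.M.ι) : (X.thr Y).Nonempty := by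
  by_contra h
  rw [Set.not_nonempty_iff_eq_empty] at h
  exact X.not_thinIn_thr Y (h ▸ X.thinIn_empty Y)

theorem exists_not_mem_thr (Y : X.M.ι) : ∃ a, a ∉ X.thr Y := by
  by_contra h
  push Not at h
  refine X.not_thin_univ (X.thin_mono ?_ (X.thin_thr Y))
  intro a _
  exact h a

end VarModel

end Fermat.Agent.S26lib.Para
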