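/-
S26lib / Para / Data  (helper2)  --  Project K (S26), step (Q2'): the concrete list of models.

`ParaData` collects the Weil models with closed points of `A`, `A × A`, `A × A × A` (`A` an abelian
variety over an algebraically closed field, `P = A(K)`), and of the morphisms between them which
the proof of the three-translate relation uses.  Coordinates on `A³` are `(x, z, y)`:
`x, z` are the two parameters, `y` is the variable of the fibre `{(x,z)} × A`.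

`DivData` is the divisor `D` (reduced, effective, symmetric, `0 ∉ Supp D`, `L(3D)` finite
dimensional) together with the pointwise input (Q1'):
for `(x,z)` in a non-thin set there is `h` with `div h = D_x + D_z + D_{-x-z} - 3 D`.
-/
import Fermat.Agent.S26lib.Para.ModelLemmas

set_option autoImplicit false

noncomputable section

namespace Fermat.Agent.S26lib.Para

open Fermat.Agent.S26lib

universe u

theorem algHom_ne_zero {K A B : Type u} [Field K] [Field A] [Field B] [Algebra K A] [Algebra K B]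
    (φ : A →ₐ[K] B) {f : A} (hf : f ≠ 0) : φ f ≠ 0 :=
  (map_ne_zero_iff φ φ.toRingHom.injective).2 hf

theorem algEquiv_ne_zero {K A : Type u} [Field K] [Field A] [Algebra K A]
    (α : A ≃ₐ[K] A) {f : A} (hf : f ≠ 0) : α f ≠ 0 :=
  (map_ne_zero_iff α α.injective).2 hf

/-! ### Generic lemmas on `MapModel` -/

namespace MapModel

variable {K FX FY : Type u} [Field K] [Field FX] [Field FY] [Algebra K FX] [Algebra K FY]
  {PX PY : Type u} {X : VarModel K FX PX} {Y : VarModel K FY PY} {φ : FY →ₐ[K] FX}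
  {pt : PX → PY} (m : MapModel X Y φ pt)

include m

open Classical in
/-- pull-back of a divisor -/
def pullDiv (D : Y.M.ι → ℤ) : X.M.ι → ℤ := fun W =>
  if h : ∃ Z, m.pull Z = W then D h.choose else 0

theorem pullDiv_pull (D : Y.M.ι → ℤ) (Z : Y.M.ι) : m.pullDiv D (m.pull Z) = D Z := by
  classical
  have h : ∃ Z', m.pull Z' = m.pull Z := ⟨Z, rfl⟩
  unfold pullDiv
  rw [dif_pos h]
  exact congrArg D (m.pull_injective h.choose_spec)

theorem pullDiv_of_not_mem (D : Y.M.ι → ℤ) {W : X.M.ι} (hW : W ∉ Set.range m.pull) :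
    m.pullDiv D W = 0 := by
  classical
  unfold pullDiv
  rw [dif_neg]
  rintro ⟨Z, hZ⟩
  exact hW ⟨Z, hZ⟩

/-- order of a pulled-back function along any prime divisor -/
theorem ord_map (W : X.M.ι) {f : FY} (hf : f ≠ 0) :
    X.M.ord W (φ f) = m.pullDiv (fun Z => Y.M.ord Z f) W := by
  by_cases hW : W ∈ Set.range m.pull
  · obtain ⟨Z, rfl⟩ := hW
    rw [m.ord_pull, m.pullDiv_pull]
  · rw [m.ord_other W hW f hf, m.pullDiv_of_not_mem _ hW]

theorem reg_map {q : PX} {f : FY} (h : Y.Reg (pt q) f) : X.Reg q (φ f) := by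
  rcases eq_or_ne f 0 with rfl | hf
  · rw [map_zero]; exact X.reg_zero q
  rw [X.reg_iff (algHom_ne_zero φ hf)]
  intro W hW
  by_cases hr : W ∈ Set.range m.pull
  · obtain ⟨Z, rfl⟩ := hr
    rw [m.ord_pull]
    exact (Y.reg_iff hf).1 h Z ((m.thr_pull Z q).1 hW)
  · rw [m.ord_other W hr f hf]

theorem isUnitAt_map {q : PX} {f : FY} (h : Y.IsUnitAt (pt q) f) : X.IsUnitAt q (φ f) := by
  refine ⟨algHom_ne_zero φ h.1, fun W hW => ?_⟩
  by_cases hr : W ∈ Set.range m.pull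
  · obtain ⟨Z, rfl⟩ := hr
    rw [m.ord_pull]
    exact h.2 Z ((m.thr_pull Z q).1 hW)
  · rw [m.ord_other W hr f h.1]

/-- a local equation of `D` at `pt q` pulls back to a local equation of `pullDiv D` at `q` -/
theorem ord_map_localEq {D : Y.M.ι → ℤ} {q : PX} {t : FY} (ht : t ≠ 0)
    (hloc : ∀ Z, pt q ∈ Y.thr Z → Y.M.ord Z t = D Z) (W : X.M.ι) (hW : q ∈ X.thr W) :
    X.M.ord W (φ t) = m.pullDiv D W := by
  by_cases hr : W ∈ Set.range m.pull
  · obtain ⟨Z, rfl⟩ := hr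
    rw [m.ord_pull, m.pullDiv_pull]
    exact hloc Z ((m.thr_pull Z q).1 hW)
  · rw [m.ord_other W hr t ht, m.pullDiv_of_not_mem _ hr]

end MapModel

/-! ### Generic lemmas on `AutModel` -/

namespace AutModel

variable {K F : Type u} [Field K] [Field F] [Algebra K F] {P : Type u} {X : VarModel K F P}
  {α : F ≃ₐ[K] F} {pt : P ≃ P} (m : AutModel X α pt)

include m

/-- the translate of a divisor: `(α^* D)(perm Y) = D Y` -/
def pullDiv (D : X.M.ι → ℤ) : X.M.ι → ℤ := fun Z => D (m.perm.symm Z)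

theorem pullDiv_perm (D : X.M.ι → ℤ) (Y : X.M.ι) : m.pullDiv D (m.perm Y) = D Y := by
  unfold pullDiv
  rw [Equiv.symm_apply_apply]

theorem ord_aut (Z : X.M.ι) (f : F) : X.M.ord Z (α f) = X.M.ord (m.perm.symm Z) f := by
  have h := m.ord_perm (m.perm.symm Z) f
  rwa [Equiv.apply_symm_apply] at h

theorem mem_thr_symm (Z : X.M.ι) (a : P) : pt a ∈ X.thr (m.perm.symm Z) ↔ a ∈ X.thr Z := by
  have h := m.thr_perm (m.perm.symm Z) a
  rw [Equiv.apply_symm_apply] at h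
  exact h.symm

theorem reg_aut {a : P} {f : F} (h : X.Reg (pt a) f) : X.Reg a (α f) := by
  rcases eq_or_ne f 0 with rfl | hf
  · rw [map_zero]; exact X.reg_zero a
  rw [X.reg_iff (algEquiv_ne_zero α hf)]
  intro Z hZ
  rw [m.ord_aut]
  exact (X.reg_iff hf).1 h _ ((m.mem_thr_symm Z a).2 hZ)

theorem isUnitAt_aut {a : P} {f : F} (h : X.IsUnitAt (pt a) f) : X.IsUnitAt a (α f) := by
  refine ⟨algEquiv_ne_zero α h.1, fun Z hZ => ?_⟩
  rw [m.ord_aut]
  exact h.2 _ ((m.mem_thr_symm Z a).2 hZ)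

/-- a local equation of `D` at `pt a` is carried to a local equation of the translate at `a` -/
theorem ord_aut_localEq {D : X.M.ι → ℤ} {a : P} {t : F}
    (hloc : ∀ Y, pt a ∈ X.thr Y → X.M.ord Y t = D Y) (Z : X.M.ι) (hZ : a ∈ X.thr Z) :
    X.M.ord Z (α t) = m.pullDiv D Z := by
  rw [m.ord_aut]
  exact hloc _ ((m.mem_thr_symm Z a).2 hZ)

end AutModel

/-! ### Generic lemmas on `SecModel` -/

namespace SecModel

variable {K FX FY : Type u} [Field K] [Field FX] [Field FY] [Algebra K FX] [Algebra K FY]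
  {PX PY : Type u} {X : VarModel K FX PX} {Y : VarModel K FY PY} {pt : PX → PY}
  (s : SecModel X Y pt)

/-- the restriction of a unit at `pt a` is a unit at `a` -/
theorem isUnitAt_ρ {a : PX} {f : FY} (h : Y.IsUnitAt (pt a) f) :
    X.IsUnitAt a (s.ρ ⟨f, s.reg_dom a f (VarModel.isUnitAt.reg Y h)⟩) := by
  have hreg := VarModel.isUnitAt.reg Y h
  refine X.isUnitAt_of_ev_ne_zero (s.reg_ρ a f hreg) ?_
  rw [s.ev_ρ a f hreg]
  exact Y.ev_ne_zero_of_isUnitAt h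

end SecModel

/-! ### The data -/

/-- **The models of `A`, `A²`, `A³` and of the maps between them** used in step (Q2').
Coordinates on `A³`: `(x, z, y)`. -/
structure ParaData (K F1 F2 F3 : Type u) [Field K] [Field F1] [Field F2] [Field F3]
    [Algebra K F1] [Algebra K F2] [Algebra K F3] (P : Type u) [AddCommGroup P] where
  X1 : VarModel K F1 P
  X2 : VarModel K F2 (P × P)
  X3 : VarModel K F3 (P × P × P)
  complete1 : X1.Complete
  /-- translations: `(τ a f)(y) = f (y + a)` -/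
  τ : P → (F1 ≃ₐ[K] F1)
  τm : ∀ a : P, AutModel X1 (τ a) (Equiv.addRight a)
  /-- inversion: `(ν f)(y) = f (-y)` -/
  ν : F1 ≃ₐ[K] F1
  νm : AutModel X1 ν (Equiv.neg P)
  /-- comorphisms of the maps `A² → A`: `x`, `z`, `x + z`, `x - z`, `2x + z`, `x + 2z` -/
  Q1 : F1 →ₐ[K] F2
  Q2 : F1 →ₐ[K] F2
  Qs : F1 →ₐ[K] F2
  Qd : F1 →ₐ[K] F2
  Qa : F1 →ₐ[K] F2
  Qb : F1 →ₐ[K] F2
  q1m : MapModel X2 X1 Q1 (fun p => p.1)
  q2m : MapModel X2 X1 Q2 (fun p => p.2)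
  qsm : MapModel X2 X1 Qs (fun p => p.1 + p.2)
  qdm : MapModel X2 X1 Qd (fun p => p.1 - p.2)
  qam : MapModel X2 X1 Qa (fun p => p.1 + p.1 + p.2)
  qbm : MapModel X2 X1 Qb (fun p => p.1 + p.2 + p.2)
  /-- comorphisms of the maps `A³ → A`: `y`, `x + y`, `z + y`, `y - x - z` -/
  P3 : F1 →ₐ[K] F3
  A13 : F1 →ₐ[K] F3
  A23 : F1 →ₐ[K] F3
  Am : F1 →ₐ[K] F3
  p3m : MapModel X3 X1 P3 (fun q => q.2.2)
  a13m : MapModel X3 X1 A13 (fun q => q.1 + q.2.2)
  a23m : MapModel X3 X1 A23 (fun q => q.2.1 + q.2.2)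
  amm : MapModel X3 X1 Am (fun q => q.2.2 - q.1 - q.2.1)
  /-- comorphism of the projection `A³ → A²`, `(x,z,y) ↦ (x,z)` -/
  P12 : F2 →ₐ[K] F3
  p12m : MapModel X3 X2 P12 (fun q => (q.1, q.2.1))
  /-- `K(A²)` and `K(A)` are linearly disjoint in `K(A³)` -/
  lindisj : ∀ {N : ℕ} (h : Fin N → F1), LinearIndependent K h → ∀ c : Fin N → F2,
    ∑ i, P12 (c i) * P3 (h i) = 0 → c = 0
  /-- Fubini for thin sets -/
  thin_prod : ∀ T : Set (P × P), X2.thin T → X1.thin {x | ¬ X1.thin {z | (x, z) ∈ T}}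
  /-- the fibre `{(x,z)} × A ⊆ A³` -/
  J : ∀ x z : P, SecModel X1 X3 (fun y => (x, z, y))
  J_p3 : ∀ (x z : P) (h : F1), ∃ hm : P3 h ∈ (J x z).dom, (J x z).ρ ⟨P3 h, hm⟩ = h
  J_a13 : ∀ (x z : P) (h : F1), ∃ hm : A13 h ∈ (J x z).dom, (J x z).ρ ⟨A13 h, hm⟩ = τ x h
  J_a23 : ∀ (x z : P) (h : F1), ∃ hm : A23 h ∈ (J x z).dom, (J x z).ρ ⟨A23 h, hm⟩ = τ z h
  J_am : ∀ (x z : P) (h : F1), ∃ hm : Am h ∈ (J x z).dom,
    (J x z).ρ ⟨Am h, hm⟩ = τ (-x - z) h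
  J_p12 : ∀ (x z : P) (c : F2), X2.Reg (x, z) c → ∃ hm : P12 c ∈ (J x z).dom,
    (J x z).ρ ⟨P12 c, hm⟩ = algebraMap K F1 (X2.ev (x, z) c)
  /-- the zero section `A² × {0} ⊆ A³` -/
  S0 : SecModel X2 X3 (fun p => (p.1, p.2, 0))
  S0_p12 : ∀ c : F2, ∃ hm : P12 c ∈ S0.dom, S0.ρ ⟨P12 c, hm⟩ = c
  S0_p3 : ∀ h : F1, X1.Reg 0 h → ∃ hm : P3 h ∈ S0.dom,
    S0.ρ ⟨P3 h, hm⟩ = algebraMap K F2 (X1.ev 0 h)
  S0_a13 : ∀ h : F1, ∃ hm : A13 h ∈ S0.dom, S0.ρ ⟨A13 h, hm⟩ = Q1 h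
  S0_a23 : ∀ h : F1, ∃ hm : A23 h ∈ S0.dom, S0.ρ ⟨A23 h, hm⟩ = Q2 h
  S0_am : ∀ h : F1, ∃ hm : Am h ∈ S0.dom, S0.ρ ⟨Am h, hm⟩ = Qs (ν h)

namespace ParaData

variable {K F1 F2 F3 : Type u} [Field K] [Field F1] [Field F2] [Field F3]
  [Algebra K F1] [Algebra K F2] [Algebra K F3] {P : Type u} [AddCommGroup P]
  (Dt : ParaData K F1 F2 F3 P)

/-- the translate `D_a = τ_a^* D = D - a` of a divisor on `A` -/
def trD (D : Dt.X1.M.ι → ℤ) (a : P) : Dt.X1.M.ι → ℤ := (Dt.τm a).pullDiv D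

/-- the divisor `x^*D + z^*D + (x+z)^*D` on `A²` -/
def vertDiv (D : Dt.X1.M.ι → ℤ) : Dt.X2.M.ι → ℤ := fun Z =>
  Dt.q1m.pullDiv D Z + Dt.q2m.pullDiv D Z + Dt.qsm.pullDiv D Z

/-- the divisor `(x+y)^*D + (z+y)^*D + (y-x-z)^*D - 3 y^*D` on `A³` -/
def horDiv (D : Dt.X1.M.ι → ℤ) : Dt.X3.M.ι → ℤ := fun W =>
  Dt.a13m.pullDiv D W + Dt.a23m.pullDiv D W + Dt.amm.pullDiv D W - 3 * Dt.p3m.pullDiv D W

/-- the divisor of the function `H` of (Q2') -/
def paraDiv (D : Dt.X1.M.ι → ℤ) : Dt.X3.M.ι → ℤ := fun W =>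
  Dt.horDiv D W - Dt.p12m.pullDiv (Dt.vertDiv D) W

end ParaData

/-- **The divisor and the pointwise input (Q1')**. -/
structure DivData {K F1 F2 F3 : Type u} [Field K] [Field F1] [Field F2] [Field F3]
    [Algebra K F1] [Algebra K F2] [Algebra K F3] {P : Type u} [AddCommGroup P]
    (Dt : ParaData K F1 F2 F3 P) where
  /-- the divisor, reduced and effective -/
  D : Dt.X1.M.ι → ℤ
  D_nonneg : ∀ Y, 0 ≤ D Y
  D_le_one : ∀ Y, D Y ≤ 1
  D_finite : {Y | D Y ≠ 0}.Finite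
  /-- `D` is symmetric -/
  D_symm : ∀ Y, D (Dt.νm.perm Y) = D Y
  /-- `0 ∉ Supp D` -/
  D_zero : ∀ Y, D Y ≠ 0 → (0 : P) ∉ Dt.X1.thr Y
  /-- `L(3D)` is finite dimensional -/
  finL : Module.Finite K (Dt.X1.M.L (fun Y => 3 * D Y))
  /-- the set of good parameters -/
  S : Set (P × P)
  S_not_thin : ¬ Dt.X2.thin S
  /-- (Q1') -/
  exists_h : ∀ p ∈ S, ∃ h : F1, h ≠ 0 ∧ ∀ Y, Dt.X1.M.ord Y h =
    Dt.trD D p.1 Y + Dt.trD D p.2 Y + Dt.trD D (-p.1 - p.2) Y - 3 * D Y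

end Fermat.Agent.S26lib.Para
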