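/-
S26lib / Para / SchemePts  (helper2)  --  Project K (S26): the point calculus of the assembly
`ParaData.ofScheme`.

* `Pts L hc` : the rational points of the commutative group scheme `(A, L)`, written additively;
* `mk2 x z`, `mk3 x z y` : the rational points of `A²`, `A³` with given coordinates, and the
  bijections `e2 : A²(K) ≃ A(K) × A(K)`, `e3 : A³(K) ≃ A(K) × A(K) × A(K)`;
* the images of `mk2 x z`, `mk3 x z y` under the eleven maps of the parallelogram argument;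
* the sections `jHom L x z : A ⟶ A³` (`y ↦ (x, z, y)`), helper6's `iota0 L : A² ⟶ A³`
  (`(x, z) ↦ (x, z, 0)`) and their composites with the maps;
* dominance of the eleven maps.
-/
import Fermat.Agent.S26lib.Prod.Maps
import Fermat.Agent.S26lib.VarSch.Push

set_option autoImplicit false
set_option linter.style.haveILetI false

noncomputable section

namespace Fermat.Agent.S26lib.Para

open CategoryTheory CategoryTheory.Limits AlgebraicGeometry NeronModelInfra GoodReductionJacobian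
open Fermat.Agent.S26lib

universe u

variable {K : Type u} [Field K] {A : Scheme.{u}} {f : A ⟶ Spec (CommRingCat.of K)}

/-! ### the group of rational points, additively -/

/-- the group of rational points of a commutative group scheme, written additively -/
def Pts (L : RelativeGroupLaw K f) (_hc : L.IsCommutative) : Type u := VarSch.KPt f

namespace Pts

variable {L : RelativeGroupLaw K f} {hc : L.IsCommutative}

/-- a rational point, as an element of the additive group -/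
def mk (a : VarSch.KPt f) : Pts L hc := a

/-- the rational point underlying an element of the additive group -/
def kpt (p : Pts L hc) : VarSch.KPt f := p

/-- the identification `A(K) ≃ Pts` -/
def equiv (L : RelativeGroupLaw K f) (hc : L.IsCommutative) : VarSch.KPt f ≃ Pts L hc :=
  Equiv.refl _

instance : Add (Pts L hc) := ⟨fun x y => L.mul (𝟙 _) x y⟩

instance : Zero (Pts L hc) := ⟨L.one (𝟙 _)⟩

instance : Neg (Pts L hc) := ⟨fun x => L.inv (𝟙 _) x⟩

instance : AddCommGroup (Pts L hc) :=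
  { AddGroup.ofLeftAxioms (G := Pts L hc) (L.mul_assoc (𝟙 _)) (L.one_mul (𝟙 _))
      (L.inv_mul_cancel (𝟙 _)) with
    add_comm := hc (𝟙 _) }

theorem add_def (x y : Pts L hc) : x + y = mk (L.mul (𝟙 _) x.kpt y.kpt) := rfl

theorem zero_def : (0 : Pts L hc) = mk (L.one (𝟙 _)) := rfl

theorem neg_def (x : Pts L hc) : -x = mk (L.inv (𝟙 _) x.kpt) := rfl

theorem sub_def (x y : Pts L hc) : x - y = mk (L.mul (𝟙 _) x.kpt (L.inv (𝟙 _) y.kpt)) := rfl

@[simp] theorem equiv_apply (a : VarSch.KPt f) : equiv L hc a = mk a := rfl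

@[simp] theorem equiv_symm_apply (p : Pts L hc) : (equiv L hc).symm p = p.kpt := rfl

@[simp] theorem kpt_mk (a : VarSch.KPt f) : (mk a : Pts L hc).kpt = a := rfl

@[simp] theorem mk_kpt (p : Pts L hc) : (mk p.kpt : Pts L hc) = p := rfl

end Pts

/-! ### rational points of the products -/

/-- the rational point `(x, z)` of `A²` -/
def mk2 (x z : VarSch.KPt f) : VarSch.KPt (Prod.f2 f) := ⟨Prod.pair x z, Prod.pair_f2 x z⟩

/-- the rational point `(x, z, y)` of `A³` -/
def mk3 (x z y : VarSch.KPt f) : VarSch.KPt (Prod.f3 f) :=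
  ⟨Prod.triple x z y, Prod.triple_f3 x z y⟩

theorem fst_f : pullback.fst f f ≫ f = Prod.f2 f := rfl

theorem snd_f : pullback.snd f f ≫ f = Prod.f2 f := pullback.condition.symm

theorem push_eq_pullP {X : Scheme.{u}} {fX : X ⟶ Spec (CommRingCat.of K)} (σ : X ⟶ A)
    (hσ : σ ≫ f = fX) (a : VarSch.KPt fX) :
    a.push σ hσ = Prod.pullP a.1 a.2 (⟨σ, hσ⟩ : SchemeHomOver fX f) := rfl

@[simp] theorem push_fst_mk2 (x z : VarSch.KPt f) :
    (mk2 x z).push (pullback.fst f f) fst_f = x :=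
  Subtype.ext (Prod.pair_fst x z)

@[simp] theorem push_snd_mk2 (x z : VarSch.KPt f) :
    (mk2 x z).push (pullback.snd f f) snd_f = z :=
  Subtype.ext (Prod.pair_snd x z)

theorem mk2_eta (a : VarSch.KPt (Prod.f2 f)) :
    mk2 (a.push (pullback.fst f f) fst_f) (a.push (pullback.snd f f) snd_f) = a :=
  Subtype.ext (Prod.pair_eta a.1 a.2)

/-- `A²(K) ≃ A(K) × A(K)` -/
def e2 (f : A ⟶ Spec (CommRingCat.of K)) :
    VarSch.KPt (Prod.f2 f) ≃ VarSch.KPt f × VarSch.KPt f where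
  toFun a := (a.push (pullback.fst f f) fst_f, a.push (pullback.snd f f) snd_f)
  invFun p := mk2 p.1 p.2
  left_inv a := mk2_eta a
  right_inv p := _root_.Prod.ext (push_fst_mk2 p.1 p.2) (push_snd_mk2 p.1 p.2)

@[simp] theorem e2_symm_apply (p : VarSch.KPt f × VarSch.KPt f) :
    (e2 f).symm p = mk2 p.1 p.2 := rfl

@[simp] theorem e2_mk2 (x z : VarSch.KPt f) : e2 f (mk2 x z) = (x, z) :=
  (e2 f).right_inv (x, z)

theorem p12_f2' : Prod.p12 f ≫ Prod.f2 f = Prod.f3 f := rfl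

theorem pr1_f : (Prod.pr1 : Prod.A3 f ⟶ A) ≫ f = Prod.f3 f := (Prod.q1 f).2

theorem pr2_f : (Prod.pr2 : Prod.A3 f ⟶ A) ≫ f = Prod.f3 f := (Prod.q2 f).2

theorem pr3_f : (Prod.pr3 : Prod.A3 f ⟶ A) ≫ f = Prod.f3 f := (Prod.q3 f).2

@[simp] theorem push_pr1_mk3 (x z y : VarSch.KPt f) : (mk3 x z y).push Prod.pr1 pr1_f = x :=
  Subtype.ext (Prod.triple_pr1 x z y)

@[simp] theorem push_pr2_mk3 (x z y : VarSch.KPt f) : (mk3 x z y).push Prod.pr2 pr2_f = z :=
  Subtype.ext (Prod.triple_pr2 x z y)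

@[simp] theorem push_pr3_mk3 (x z y : VarSch.KPt f) : (mk3 x z y).push Prod.pr3 pr3_f = y :=
  Subtype.ext (Prod.triple_pr3 x z y)

@[simp] theorem push_p12_mk3 (x z y : VarSch.KPt f) :
    (mk3 x z y).push (Prod.p12 f) p12_f2' = mk2 x z :=
  Subtype.ext (Prod.triple_p12 x z y)

theorem mk3_eta (a : VarSch.KPt (Prod.f3 f)) :
    mk3 (a.push Prod.pr1 pr1_f) (a.push Prod.pr2 pr2_f) (a.push Prod.pr3 pr3_f) = a :=
  Subtype.ext (Prod.triple_eta a.1 a.2)

/-- `A³(K) ≃ A(K) × A(K) × A(K)`, coordinates `(x, z, y)` -/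
def e3 (f : A ⟶ Spec (CommRingCat.of K)) :
    VarSch.KPt (Prod.f3 f) ≃ VarSch.KPt f × VarSch.KPt f × VarSch.KPt f where
  toFun a := (a.push Prod.pr1 pr1_f, a.push Prod.pr2 pr2_f, a.push Prod.pr3 pr3_f)
  invFun p := mk3 p.1 p.2.1 p.2.2
  left_inv a := mk3_eta a
  right_inv _ := _root_.Prod.ext (push_pr1_mk3 _ _ _)
    (_root_.Prod.ext (push_pr2_mk3 _ _ _) (push_pr3_mk3 _ _ _))

@[simp] theorem e3_symm_apply (p : VarSch.KPt f × VarSch.KPt f × VarSch.KPt f) :
    (e3 f).symm p = mk3 p.1 p.2.1 p.2.2 := rfl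

@[simp] theorem e3_mk3 (x z y : VarSch.KPt f) : e3 f (mk3 x z y) = (x, z, y) :=
  (e3 f).right_inv (x, z, y)

/-! ### the maps `A² → A` -/

section Maps

variable (L : RelativeGroupLaw K f)

/-- `(x, z) ↦ 2x + z` -/
def sigA : Prod.A2 f ⟶ A :=
  (L.mul (Prod.f2 f) (L.mul (Prod.f2 f) (Prod.pt1 f) (Prod.pt1 f)) (Prod.pt2 f)).1

/-- `(x, z) ↦ x + 2z` -/
def sigB : Prod.A2 f ⟶ A :=
  (L.mul (Prod.f2 f) (L.mul (Prod.f2 f) (Prod.pt1 f) (Prod.pt2 f)) (Prod.pt2 f)).1

theorem sigA_f : sigA L ≫ f = Prod.f2 f :=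
  (L.mul (Prod.f2 f) (L.mul (Prod.f2 f) (Prod.pt1 f) (Prod.pt1 f)) (Prod.pt2 f)).2

theorem sigB_f : sigB L ≫ f = Prod.f2 f :=
  (L.mul (Prod.f2 f) (L.mul (Prod.f2 f) (Prod.pt1 f) (Prod.pt2 f)) (Prod.pt2 f)).2

section TPoints

variable {T : Scheme.{u}} {t : T ⟶ Spec (CommRingCat.of K)}

theorem pair_sigA (x y : SchemeHomOver t f) :
    Prod.pair x y ≫ sigA L = (L.mul t (L.mul t x x) y).1 := by
  rw [sigA, Prod.comp_coe (Prod.pair x y) (Prod.pair_f2 x y), Prod.pull_mul, Prod.pull_mul,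
    Prod.pull_pair_pt1, Prod.pull_pair_pt2]

theorem pair_sigB (x y : SchemeHomOver t f) :
    Prod.pair x y ≫ sigB L = (L.mul t (L.mul t x y) y).1 := by
  rw [sigB, Prod.comp_coe (Prod.pair x y) (Prod.pair_f2 x y), Prod.pull_mul, Prod.pull_mul,
    Prod.pull_pair_pt1, Prod.pull_pair_pt2]

end TPoints

theorem sig13_f : Prod.sig13 L ≫ f = Prod.f3 f := (L.mul (Prod.f3 f) (Prod.q1 f) (Prod.q3 f)).2

theorem sig23_f : Prod.sig23 L ≫ f = Prod.f3 f := (L.mul (Prod.f3 f) (Prod.q2 f) (Prod.q3 f)).2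

theorem sigM_f : Prod.sigM L ≫ f = Prod.f3 f :=
  (L.mul (Prod.f3 f) (Prod.q3 f) (L.inv (Prod.f3 f) (L.mul (Prod.f3 f) (Prod.q1 f)
    (Prod.q2 f)))).2

/-! ### the images of the rational points -/

theorem push_addHom_mk2 (x z : VarSch.KPt f) :
    (mk2 x z).push (Prod.addHom L) (Prod.addHom_comp L) = L.mul (𝟙 _) x z :=
  Subtype.ext (Prod.pair_addHom L x z)

theorem push_subHom_mk2 (x z : VarSch.KPt f) :
    (mk2 x z).push (Prod.subHom L) (Prod.subHom_comp L) = L.mul (𝟙 _) x (L.inv (𝟙 _) z) :=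
  Subtype.ext (Prod.pair_subHom L x z)

theorem push_sigA_mk2 (x z : VarSch.KPt f) :
    (mk2 x z).push (sigA L) (sigA_f L) = L.mul (𝟙 _) (L.mul (𝟙 _) x x) z :=
  Subtype.ext (pair_sigA L x z)

theorem push_sigB_mk2 (x z : VarSch.KPt f) :
    (mk2 x z).push (sigB L) (sigB_f L) = L.mul (𝟙 _) (L.mul (𝟙 _) x z) z :=
  Subtype.ext (pair_sigB L x z)

theorem push_sig13_mk3 (x z y : VarSch.KPt f) :
    (mk3 x z y).push (Prod.sig13 L) (sig13_f L) = L.mul (𝟙 _) x y :=
  Subtype.ext (Prod.triple_sig13 L x z y)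

theorem push_sig23_mk3 (x z y : VarSch.KPt f) :
    (mk3 x z y).push (Prod.sig23 L) (sig23_f L) = L.mul (𝟙 _) z y :=
  Subtype.ext (Prod.triple_sig23 L x z y)

theorem push_sigM_mk3 (x z y : VarSch.KPt f) :
    (mk3 x z y).push (Prod.sigM L) (sigM_f L) = L.mul (𝟙 _) y (L.inv (𝟙 _) (L.mul (𝟙 _) x z)) :=
  Subtype.ext (Prod.triple_sigM L x z y)

/-! ### the fibres `{(x, z)} × A` -/

/-- the inclusion of the fibre `y ↦ (x, z, y)` -/
def jHom (x z : VarSch.KPt f) : A ⟶ Prod.A3 f :=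
  Prod.triple (NMul.basePt f x) (NMul.basePt f z) (NMul.idPt f)

theorem jHom_f3 (x z : VarSch.KPt f) : jHom x z ≫ Prod.f3 f = f := Prod.triple_f3 _ _ _

theorem push_jHom (x z y : VarSch.KPt f) : y.push (jHom x z) (jHom_f3 x z) = mk3 x z y := by
  apply Subtype.ext
  show y.1 ≫ Prod.triple (NMul.basePt f x) (NMul.basePt f z) (NMul.idPt f) = Prod.triple x z y
  rw [Prod.comp_triple y.1 y.2, Prod.pull_basePt, Prod.pull_basePt, NMul.basePt_id,
    NMul.basePt_id, Prod.pull_idPt]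

theorem jHom_pr3 (x z : VarSch.KPt f) : jHom x z ≫ Prod.pr3 = 𝟙 A := Prod.triple_pr3 _ _ _

theorem jHom_p12 (x z : VarSch.KPt f) : jHom x z ≫ Prod.p12 f = f ≫ (mk2 x z).1 := by
  rw [jHom, Prod.triple_p12]
  show _ = f ≫ Prod.pair x z
  rw [Prod.comp_pair f (Category.comp_id f)]
  rfl

variable {L} in
theorem jHom_sig13 (hc : L.IsCommutative) (x z : VarSch.KPt f) :
    jHom x z ≫ Prod.sig13 L = NMul.transHom L x := by
  rw [jHom, Prod.triple_sig13, hc f]
  rfl

variable {L} in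
theorem jHom_sig23 (hc : L.IsCommutative) (x z : VarSch.KPt f) :
    jHom x z ≫ Prod.sig23 L = NMul.transHom L z := by
  rw [jHom, Prod.triple_sig23, hc f]
  rfl

theorem jHom_sigM (x z : VarSch.KPt f) :
    jHom x z ≫ Prod.sigM L = NMul.transHom L (L.inv (𝟙 _) (L.mul (𝟙 _) x z)) := by
  rw [jHom, Prod.triple_sigM, NMul.transHom, NMul.basePt_inv, NMul.basePt_mul]

/-! ### the zero section `A² × {0}` -/

theorem push_iota0 (x z : VarSch.KPt f) :
    (mk2 x z).push (Prod.iota0 L) (Prod.iota0_f3 L) = mk3 x z (L.one (𝟙 _)) := by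
  apply Subtype.ext
  show Prod.pair x z ≫ Prod.triple (Prod.pt1 f) (Prod.pt2 f) (L.one (Prod.f2 f)) =
    Prod.triple x z (L.one (𝟙 _))
  rw [Prod.comp_triple (Prod.pair x z) (Prod.pair_f2 x z), Prod.pull_pair_pt1,
    Prod.pull_pair_pt2, Prod.pull_one]

theorem iota0_sig13 : Prod.iota0 L ≫ Prod.sig13 L = pullback.fst f f := by
  rw [Prod.iota0, Prod.triple_sig13, L.mul_one]
  rfl

theorem iota0_sig23 : Prod.iota0 L ≫ Prod.sig23 L = pullback.snd f f := by
  rw [Prod.iota0, Prod.triple_sig23, L.mul_one]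
  rfl

theorem iota0_sigM : Prod.iota0 L ≫ Prod.sigM L = Prod.addHom L ≫ NMul.invHom L := by
  rw [Prod.iota0, Prod.triple_sigM, L.one_mul]
  have h := NMul.comp_invHom L (L.mul (Prod.f2 f) (Prod.pt1 f) (Prod.pt2 f))
  exact h.symm

/-! ### dominance -/

theorem isDominant_of_section {X Y : Scheme.{u}} (s : Y ⟶ X) (σ : X ⟶ Y) (h : s ≫ σ = 𝟙 Y) :
    IsDominant σ := by
  have hs : Function.Surjective σ := by
    intro y
    refine ⟨s y, ?_⟩
    rw [← Scheme.Hom.comp_apply, h]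
    rfl
  exact ⟨hs.denseRange⟩

/-- the diagonal of `A²` -/
def diagHom (f : A ⟶ Spec (CommRingCat.of K)) : A ⟶ Prod.A2 f :=
  Prod.pair (NMul.idPt f) (NMul.idPt f)

instance isDominant_fst : IsDominant (pullback.fst f f) :=
  isDominant_of_section (diagHom f) _ (Prod.pair_fst _ _)

instance isDominant_snd : IsDominant (pullback.snd f f) :=
  isDominant_of_section (diagHom f) _ (Prod.pair_snd _ _)

instance isDominant_addHom : IsDominant (Prod.addHom L) :=
  isDominant_of_section (Prod.pair (NMul.idPt f) (L.one f)) _ (by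
    rw [Prod.pair_addHom, L.mul_one]; rfl)

instance isDominant_subHom : IsDominant (Prod.subHom L) :=
  isDominant_of_section (Prod.pair (NMul.idPt f) (L.one f)) _ (by
    letI := L.pointGroup f
    rw [Prod.pair_subHom]
    show ((NMul.idPt f) * (1 : SchemeHomOver f f)⁻¹).1 = 𝟙 A
    rw [inv_one, mul_one]
    rfl)

instance isDominant_sigA : IsDominant (sigA L) :=
  isDominant_of_section (Prod.pair (L.one f) (NMul.idPt f)) _ (by
    rw [pair_sigA, L.one_mul, L.one_mul]; rfl)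

instance isDominant_sigB : IsDominant (sigB L) :=
  isDominant_of_section (Prod.pair (NMul.idPt f) (L.one f)) _ (by
    rw [pair_sigB, L.mul_one, L.mul_one]; rfl)

instance isDominant_pr3 : IsDominant (Prod.pr3 : Prod.A3 f ⟶ A) :=
  isDominant_of_section (Prod.triple (NMul.idPt f) (NMul.idPt f) (NMul.idPt f)) _
    (Prod.triple_pr3 _ _ _)

instance isDominant_sig13 : IsDominant (Prod.sig13 L) :=
  isDominant_of_section (Prod.triple (L.one f) (L.one f) (NMul.idPt f)) _ (by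
    rw [Prod.triple_sig13, L.one_mul]; rfl)

instance isDominant_sig23 : IsDominant (Prod.sig23 L) :=
  isDominant_of_section (Prod.triple (L.one f) (L.one f) (NMul.idPt f)) _ (by
    rw [Prod.triple_sig23, L.one_mul]; rfl)

instance isDominant_sigM : IsDominant (Prod.sigM L) :=
  isDominant_of_section (Prod.triple (L.one f) (L.one f) (NMul.idPt f)) _ (by
    letI := L.pointGroup f
    rw [Prod.triple_sigM, L.one_mul]
    show ((NMul.idPt f) * (1 : SchemeHomOver f f)⁻¹).1 = 𝟙 A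
    rw [inv_one, mul_one]
    rfl)

include L in
theorem isDominant_p12 : IsDominant (Prod.p12 f) :=
  isDominant_of_section (Prod.iota0 L) _ (Prod.iota0_p12 L)

end Maps

end Fermat.Agent.S26lib.Para
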