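/-
S26lib / Para / Transport  (helper2)  --  Project K (S26): transport of the models along
bijections of the sets of closed points (e.g. `(X × Y)(K) ≃ X(K) × Y(K)`, `P ≃ Additive P`), and
change of the point map by a propositional equality.
-/
import Fermat.Agent.S26lib.Para.Data

set_option autoImplicit false

noncomputable section

namespace Fermat.Agent.S26lib.Para

open Fermat.Agent.S26lib

universe u

namespace VarModel

variable {K F : Type u} [Field K] [Field F] [Algebra K F] {P P' : Type u}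

/-- transport of a model along a bijection of the sets of closed points -/
def congrPts (X : VarModel K F P) (e : P ≃ P') : VarModel K F P' where
  M := X.M
  thr Y := {a' | e.symm a' ∈ X.thr Y}
  ev a' := X.ev (e.symm a')
  thin S := X.thin (e ⁻¹' S)
  thinIn Y S := X.thinIn Y (e ⁻¹' S)
  ev_add a' f g hf hg := X.ev_add (e.symm a') f g hf hg
  ev_mul a' f g hf hg := X.ev_mul (e.symm a') f g hf hg
  ev_const a' c := X.ev_const (e.symm a') c
  ev_ne_zero_iff a' f hf := X.ev_ne_zero_iff (e.symm a') f hf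
  thin_mono h hT := X.thin_mono (Set.preimage_mono h) hT
  thin_union hS hT := X.thin_union hS hT
  thin_empty := X.thin_empty
  not_thin_univ := X.not_thin_univ
  thin_thr Y := by
    have h : e ⁻¹' {a' | e.symm a' ∈ X.thr Y} = X.thr Y := by
      ext a; simp
    rw [h]
    exact X.thin_thr Y
  thinIn_mono Y _ _ h hT := X.thinIn_mono Y (Set.preimage_mono h) hT
  thinIn_union Y _ _ hS hT := X.thinIn_union Y hS hT
  thinIn_empty Y := X.thinIn_empty Y
  not_thinIn_thr Y := by
    have h : e ⁻¹' {a' | e.symm a' ∈ X.thr Y} = X.thr Y := by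
      ext a; simp
    rw [h]
    exact X.not_thinIn_thr Y
  thinIn_inter Y Y' hne := by
    have h : e ⁻¹' ({a' | e.symm a' ∈ X.thr Y} ∩ {a' | e.symm a' ∈ X.thr Y'}) =
        X.thr Y ∩ X.thr Y' := by
      ext a; simp
    rw [h]
    exact X.thinIn_inter Y Y' hne
  exists_localEq Y a' ha' := X.exists_localEq Y (e.symm a') ha'

@[simp] theorem congrPts_M (X : VarModel K F P) (e : P ≃ P') : (X.congrPts e).M = X.M := rfl

theorem mem_congrPts_thr (X : VarModel K F P) (e : P ≃ P') (Y : X.M.ι) (a' : P') :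
    a' ∈ (X.congrPts e).thr Y ↔ e.symm a' ∈ X.thr Y := Iff.rfl

theorem congrPts_ev (X : VarModel K F P) (e : P ≃ P') (a' : P') (f : F) :
    (X.congrPts e).ev a' f = X.ev (e.symm a') f := rfl

theorem congrPts_thin (X : VarModel K F P) (e : P ≃ P') (S : Set P') :
    (X.congrPts e).thin S ↔ X.thin (e ⁻¹' S) := Iff.rfl

theorem congrPts_thinIn (X : VarModel K F P) (e : P ≃ P') (Y : X.M.ι) (S : Set P') :
    (X.congrPts e).thinIn Y S ↔ X.thinIn Y (e ⁻¹' S) := Iff.rfl

theorem congrPts_reg (X : VarModel K F P) (e : P ≃ P') (a' : P') (f : F) :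
    (X.congrPts e).Reg a' f ↔ X.Reg (e.symm a') f := Iff.rfl

theorem congrPts_reg_apply (X : VarModel K F P) (e : P ≃ P') (a : P) (f : F) :
    (X.congrPts e).Reg (e a) f ↔ X.Reg a f := by
  rw [congrPts_reg, Equiv.symm_apply_apply]

theorem congrPts_ev_apply (X : VarModel K F P) (e : P ≃ P') (a : P) (f : F) :
    (X.congrPts e).ev (e a) f = X.ev a f := by
  rw [congrPts_ev, Equiv.symm_apply_apply]

theorem mem_congrPts_thr_apply (X : VarModel K F P) (e : P ≃ P') (Y : X.M.ι) (a : P) :
    e a ∈ (X.congrPts e).thr Y ↔ a ∈ X.thr Y := by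
  rw [mem_congrPts_thr, Equiv.symm_apply_apply]

theorem congrPts_isUnitAt (X : VarModel K F P) (e : P ≃ P') (a' : P') (f : F) :
    (X.congrPts e).IsUnitAt a' f ↔ X.IsUnitAt (e.symm a') f := Iff.rfl

theorem congrPts_complete (X : VarModel K F P) (e : P ≃ P') (h : X.Complete) :
    (X.congrPts e).Complete := h

end VarModel

namespace MapModel

variable {K FX FY : Type u} [Field K] [Field FX] [Field FY] [Algebra K FX] [Algebra K FY]
  {PX PY PX' PY' : Type u} {X : VarModel K FX PX} {Y : VarModel K FY PY} {φ : FY →ₐ[K] FX}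
  {pt : PX → PY}

/-- change of the point map by an equality -/
def copy (m : MapModel X Y φ pt) (pt' : PX → PY) (h : pt' = pt) : MapModel X Y φ pt' :=
  h ▸ m

/-- change of the comorphism by an equality -/
def copyHom (m : MapModel X Y φ pt) (φ' : FY →ₐ[K] FX) (h : φ' = φ) : MapModel X Y φ' pt :=
  h ▸ m

@[simp] theorem copyHom_pull (m : MapModel X Y φ pt) (φ' : FY →ₐ[K] FX) (h : φ' = φ) :
    (m.copyHom φ' h).pull = m.pull := by
  subst h; rfl

/-- transport along bijections of the sets of closed points -/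
def congrPts (m : MapModel X Y φ pt) (eX : PX ≃ PX') (eY : PY ≃ PY') :
    MapModel (X.congrPts eX) (Y.congrPts eY) φ (fun q' => eY (pt (eX.symm q'))) where
  pull := m.pull
  pull_injective := m.pull_injective
  ord_pull := m.ord_pull
  ord_other := m.ord_other
  thr_pull Z q' := by
    show eX.symm q' ∈ X.thr (m.pull Z) ↔ eY.symm (eY (pt (eX.symm q'))) ∈ Y.thr Z
    rw [Equiv.symm_apply_apply]
    exact m.thr_pull Z (eX.symm q')
  ev_map q' f hf := by
    show X.ev (eX.symm q') (φ f) = Y.ev (eY.symm (eY (pt (eX.symm q')))) f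
    have hf' : Y.Reg (eY.symm (eY (pt (eX.symm q')))) f := hf
    rw [Equiv.symm_apply_apply] at hf' ⊢
    exact m.ev_map (eX.symm q') f hf'
  thin_preimage T hT := by
    show X.thin (eX ⁻¹' ((fun q' => eY (pt (eX.symm q'))) ⁻¹' T))
    have h : eX ⁻¹' ((fun q' => eY (pt (eX.symm q'))) ⁻¹' T) = pt ⁻¹' (eY ⁻¹' T) := by
      ext q; simp
    rw [h]
    exact m.thin_preimage _ hT
  thinIn_preimage W hW T hT := by
    show X.thinIn W (eX ⁻¹' ({a' | eX.symm a' ∈ X.thr W} ∩
      (fun q' => eY (pt (eX.symm q'))) ⁻¹' T))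
    have h : eX ⁻¹' ({a' | eX.symm a' ∈ X.thr W} ∩
        (fun q' => eY (pt (eX.symm q'))) ⁻¹' T) = X.thr W ∩ pt ⁻¹' (eY ⁻¹' T) := by
      ext q; simp
    rw [h]
    exact m.thinIn_preimage W hW _ hT
  thin_compl_image W hW := by
    show Y.thin (eY ⁻¹' {y' | ∀ q' ∈ {a' | eX.symm a' ∈ X.thr W},
      eY (pt (eX.symm q')) ≠ y'})
    refine Y.thin_mono ?_ (m.thin_compl_image W hW)
    intro y hy q hq hqy
    apply hy (eX q) (by simpa using hq)
    simp [hqy]

@[simp] theorem copy_pull (m : MapModel X Y φ pt) (pt' : PX → PY) (h : pt' = pt) :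
    (m.copy pt' h).pull = m.pull := by
  subst h; rfl

@[simp] theorem congrPts_pull (m : MapModel X Y φ pt) (eX : PX ≃ PX') (eY : PY ≃ PY') :
    (m.congrPts eX eY).pull = m.pull := rfl

theorem copyHom_pullDiv (m : MapModel X Y φ pt) (φ' : FY →ₐ[K] FX) (h : φ' = φ)
    (D : Y.M.ι → ℤ) : (m.copyHom φ' h).pullDiv D = m.pullDiv D := by
  subst h; rfl

theorem copy_pullDiv (m : MapModel X Y φ pt) (pt' : PX → PY) (h : pt' = pt) (D : Y.M.ι → ℤ) :
    (m.copy pt' h).pullDiv D = m.pullDiv D := by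
  subst h; rfl

theorem congrPts_pullDiv (m : MapModel X Y φ pt) (eX : PX ≃ PX') (eY : PY ≃ PY')
    (D : Y.M.ι → ℤ) : (m.congrPts eX eY).pullDiv D = m.pullDiv D := rfl

end MapModel

namespace SecModel

variable {K FX FY : Type u} [Field K] [Field FX] [Field FY] [Algebra K FX] [Algebra K FY]
  {PX PY PX' PY' : Type u} {X : VarModel K FX PX} {Y : VarModel K FY PY} {pt : PX → PY}

/-- change of the point map by an equality -/
def copy (s : SecModel X Y pt) (pt' : PX → PY) (h : pt' = pt) : SecModel X Y pt' :=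
  h ▸ s

theorem copy_dom (s : SecModel X Y pt) (pt' : PX → PY) (h : pt' = pt) :
    (s.copy pt' h).dom = s.dom := by
  subst h; rfl

/-- transport along bijections of the sets of closed points -/
def congrPts (s : SecModel X Y pt) (eX : PX ≃ PX') (eY : PY ≃ PY') :
    SecModel (X.congrPts eX) (Y.congrPts eY) (fun q' => eY (pt (eX.symm q'))) where
  dom := s.dom
  ρ := s.ρ
  reg_dom a' f hf :=
    s.reg_dom (eX.symm a') f ((Y.congrPts_reg_apply eY _ f).1 hf)
  reg_ρ a' f hf :=
    s.reg_ρ (eX.symm a') f ((Y.congrPts_reg_apply eY _ f).1 hf)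
  ev_ρ a' f hf := by
    have hf' : Y.Reg (pt (eX.symm a')) f := (Y.congrPts_reg_apply eY _ f).1 hf
    have h := s.ev_ρ (eX.symm a') f hf'
    show X.ev (eX.symm a') _ = (Y.congrPts eY).ev (eY (pt (eX.symm a'))) f
    rw [VarModel.congrPts_ev_apply]
    exact h

/-- a value of the partial comorphism is unchanged by `copy` -/
theorem copy_spec (s : SecModel X Y pt) (pt' : PX → PY) (h : pt' = pt) {c : FY} {v : FX}
    (H : ∃ hm : c ∈ s.dom, s.ρ ⟨c, hm⟩ = v) :
    ∃ hm : c ∈ (s.copy pt' h).dom, (s.copy pt' h).ρ ⟨c, hm⟩ = v := by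
  subst h
  exact H

@[simp] theorem congrPts_dom (s : SecModel X Y pt) (eX : PX ≃ PX') (eY : PY ≃ PY') :
    (s.congrPts eX eY).dom = s.dom := rfl

@[simp] theorem congrPts_ρ (s : SecModel X Y pt) (eX : PX ≃ PX') (eY : PY ≃ PY') :
    (s.congrPts eX eY).ρ = s.ρ := rfl

end SecModel

namespace AutModel

variable {K F : Type u} [Field K] [Field F] [Algebra K F] {P P' : Type u} {X : VarModel K F P}
  {α : F ≃ₐ[K] F} {pt : P ≃ P}

/-- change of the point map by an equality -/
def copy (m : AutModel X α pt) (pt' : P ≃ P) (h : pt' = pt) : AutModel X α pt' :=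
  h ▸ m

theorem copy_perm (m : AutModel X α pt) (pt' : P ≃ P) (h : pt' = pt) :
    (m.copy pt' h).perm = m.perm := by
  subst h; rfl

/-- transport along a bijection of the sets of closed points -/
def congrPts (m : AutModel X α pt) (e : P ≃ P') :
    AutModel (X.congrPts e) α ((e.symm.trans pt).trans e) where
  perm := m.perm
  ord_perm := m.ord_perm
  thr_perm Y a' := by
    show e.symm a' ∈ X.thr (m.perm Y) ↔ e.symm (e (pt (e.symm a'))) ∈ X.thr Y
    rw [Equiv.symm_apply_apply]
    exact m.thr_perm Y (e.symm a')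
  ev_aut a' f hf := by
    have hf' : X.Reg (e.symm (e (pt (e.symm a')))) f := hf
    show X.ev (e.symm a') (α f) = X.ev (e.symm (e (pt (e.symm a')))) f
    rw [Equiv.symm_apply_apply] at hf' ⊢
    exact m.ev_aut (e.symm a') f hf'
  thin_preimage T hT := by
    show X.thin (e ⁻¹' (((e.symm.trans pt).trans e) ⁻¹' T))
    have h : e ⁻¹' (((e.symm.trans pt).trans e) ⁻¹' T) = pt ⁻¹' (e ⁻¹' T) := by
      ext q; simp
    rw [h]
    exact m.thin_preimage _ hT

@[simp] theorem congrPts_perm (m : AutModel X α pt) (e : P ≃ P') :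
    (m.congrPts e).perm = m.perm := rfl

theorem copy_pullDiv (m : AutModel X α pt) (pt' : P ≃ P) (h : pt' = pt) (D : X.M.ι → ℤ) :
    (m.copy pt' h).pullDiv D = m.pullDiv D := by
  subst h; rfl

theorem congrPts_pullDiv (m : AutModel X α pt) (e : P ≃ P') (D : X.M.ι → ℤ) :
    (m.congrPts e).pullDiv D = m.pullDiv D := rfl

end AutModel

end Fermat.Agent.S26lib.Para
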