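/-
S26lib / Para / OfScheme  (helper2)  --  Project K (S26): the assembly `ParaData.ofScheme`.

From the scheme-side producers (helper4: `VarSch.ofSmooth`, `secModelOfHom`, `autModelOfIso`;
helper6: the `MapModel`s of the eleven maps, linear disjointness, Fubini for thin sets) to the
abstract `ParaData` of `Para/Data.lean`, on the additive group `Pts L hc` of rational points.
-/
import Fermat.Agent.S26lib.Para.SchemePts
import Fermat.Agent.S26lib.Para.Transport
import Fermat.Agent.S26lib.Para.LinDisj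
import Fermat.Agent.S26lib.VarSch.Sec
import Fermat.Agent.S26lib.VarSch.Aut
import Fermat.Agent.S26lib.VarSch.Smooth
import Fermat.Agent.S26lib.Prod.Basic
import Fermat.Agent.S26lib.Weil.Defs

set_option autoImplicit false
set_option linter.style.haveILetI false
set_option linter.unusedSectionVars false

noncomputable section

namespace Fermat.Agent.S26lib.Para

open CategoryTheory CategoryTheory.Limits AlgebraicGeometry NeronModelInfra GoodReductionJacobian
open Fermat.Agent.S26lib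

universe u

variable {K : Type u} [Field K] [IsAlgClosed K] {A : Scheme.{u}}
  {f : A ⟶ Spec (CommRingCat.of K)}
  [IsIntegral A] [IsNoetherian A] [IsIntegral (Prod.A2 f)] [IsNoetherian (Prod.A2 f)]
  [IsIntegral (Prod.A3 f)] [IsNoetherian (Prod.A3 f)] [Smooth f]

/-! ### the point bijections -/

section Equivs

variable (L : RelativeGroupLaw K f) (hc : L.IsCommutative)

/-- `A²(K) ≃ Pts × Pts` -/
def pe2 : VarSch.KPt (Prod.f2 f) ≃ Pts L hc × Pts L hc :=
  (e2 f).trans (Equiv.prodCongr (Pts.equiv L hc) (Pts.equiv L hc))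

/-- `A³(K) ≃ Pts × Pts × Pts` -/
def pe3 : VarSch.KPt (Prod.f3 f) ≃ Pts L hc × Pts L hc × Pts L hc :=
  (e3 f).trans (Equiv.prodCongr (Pts.equiv L hc)
    (Equiv.prodCongr (Pts.equiv L hc) (Pts.equiv L hc)))

@[simp] theorem pe2_symm_apply (p : Pts L hc × Pts L hc) :
    (pe2 L hc).symm p = mk2 p.1.kpt p.2.kpt := rfl

@[simp] theorem pe3_symm_apply (p : Pts L hc × Pts L hc × Pts L hc) :
    (pe3 L hc).symm p = mk3 p.1.kpt p.2.1.kpt p.2.2.kpt := rfl

@[simp] theorem pe2_mk2 (x z : VarSch.KPt f) :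
    pe2 L hc (mk2 x z) = (Pts.mk x, Pts.mk z) := by
  show (Equiv.prodCongr (Pts.equiv L hc) (Pts.equiv L hc)) (e2 f (mk2 x z)) = _
  rw [e2_mk2]
  rfl

@[simp] theorem pe3_mk3 (x z y : VarSch.KPt f) :
    pe3 L hc (mk3 x z y) = (Pts.mk x, Pts.mk z, Pts.mk y) := by
  show (Equiv.prodCongr (Pts.equiv L hc)
    (Equiv.prodCongr (Pts.equiv L hc) (Pts.equiv L hc))) (e3 f (mk3 x z y)) = _
  rw [e3_mk3]
  rfl

end Equivs

/-! ### the three models -/

section Models

variable (L : RelativeGroupLaw K f) (hc : L.IsCommutative)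

/-- the model of `A` on `Pts` -/
def model1 :
    letI := kAlgebraFF f
    VarModel K A.functionField (Pts L hc) :=
  letI := kAlgebraFF f
  (VarSch.ofSmooth f).congrPts (Pts.equiv L hc)

/-- the model of `A²` on `Pts × Pts` -/
def model2 :
    letI := kAlgebraFF (Prod.f2 f)
    VarModel K (Prod.A2 f).functionField (Pts L hc × Pts L hc) :=
  letI := kAlgebraFF (Prod.f2 f)
  (VarSch.ofSmooth (Prod.f2 f)).congrPts (pe2 L hc)

/-- the model of `A³` on `Pts × Pts × Pts` -/
def model3 :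
    letI := kAlgebraFF (Prod.f3 f)
    VarModel K (Prod.A3 f).functionField (Pts L hc × Pts L hc × Pts L hc) :=
  letI := kAlgebraFF (Prod.f3 f)
  (VarSch.ofSmooth (Prod.f3 f)).congrPts (pe3 L hc)

end Models

/-! ### translations and inversion -/

section Auts

variable (L : RelativeGroupLaw K f) (hc : L.IsCommutative)

theorem transIso_f (a : VarSch.KPt f) : (NMul.transIso L a).hom ≫ f = f :=
  NMul.transHom_comp L a

theorem negIso_f : (Weil.negIso L).hom ≫ f = f := Weil.neg_comp L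

theorem push_transHom (a y : VarSch.KPt f) :
    y.push (NMul.transIso L a).hom (transIso_f L a) = L.mul (𝟙 _) y a := by
  apply Subtype.ext
  show y.1 ≫ NMul.transHom L a = _
  rw [NMul.comp_transHom, NMul.basePt_id]

theorem push_neg (y : VarSch.KPt f) :
    y.push (Weil.negIso L).hom (negIso_f L) = L.inv (𝟙 _) y := by
  apply Subtype.ext
  show y.1 ≫ NMul.invHom L = _
  rw [NMul.comp_invHom]

/-- the comorphism of the translation by `a`: `(τ a h)(y) = h (y + a)` -/
def tau (a : Pts L hc) :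
    letI := kAlgebraFF f
    A.functionField ≃ₐ[K] A.functionField :=
  letI := kAlgebraFF f
  VarSch.ffAlgEquiv (NMul.transIso L a.kpt) (transIso_f L a.kpt)

/-- the comorphism of the inversion: `(ν h)(y) = h (-y)` -/
def nu :
    letI := kAlgebraFF f
    A.functionField ≃ₐ[K] A.functionField :=
  letI := kAlgebraFF f
  VarSch.ffAlgEquiv (Weil.negIso L) (negIso_f L)

theorem pushEquiv_trans (a : Pts L hc) :
    ((Pts.equiv L hc).symm.trans (VarSch.KPt.pushEquiv (NMul.transIso L a.kpt)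
      (transIso_f L a.kpt))).trans (Pts.equiv L hc) = Equiv.addRight a := by
  apply Equiv.ext
  intro y
  show Pts.mk (y.kpt.push (NMul.transIso L a.kpt).hom (transIso_f L a.kpt)) = y + a
  rw [push_transHom]
  rfl

theorem pushEquiv_neg :
    ((Pts.equiv L hc).symm.trans (VarSch.KPt.pushEquiv (Weil.negIso L)
      (negIso_f L))).trans (Pts.equiv L hc) = Equiv.neg (Pts L hc) := by
  apply Equiv.ext
  intro y
  show Pts.mk (y.kpt.push (Weil.negIso L).hom (negIso_f L)) = -y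
  rw [push_neg]
  rfl

/-- the model of the translation by `a` -/
def tauM (a : Pts L hc) :
    letI := kAlgebraFF f
    AutModel (model1 L hc) (tau L hc a) (Equiv.addRight a) :=
  letI := kAlgebraFF f
  ((VarSch.autModelOfIso (fun x => UFD.ufm_stalk_of_smooth f x) (NMul.transIso L a.kpt)
    (transIso_f L a.kpt)).congrPts (Pts.equiv L hc)).copy _ (pushEquiv_trans L hc a).symm

/-- the model of the inversion -/
def nuM :
    letI := kAlgebraFF f
    AutModel (model1 L hc) (nu L) (Equiv.neg (Pts L hc)) :=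
  letI := kAlgebraFF f
  ((VarSch.autModelOfIso (fun x => UFD.ufm_stalk_of_smooth f x) (Weil.negIso L)
    (negIso_f L)).congrPts (Pts.equiv L hc)).copy _ (pushEquiv_neg L hc).symm

end Auts

/-! ### the inputs from the scheme side -/

/-- **the inputs of the assembly from the scheme side** (bridge (P5c)): the models of the eleven
maps and Fubini for thin sets. -/
structure MapInputs (L : RelativeGroupLaw K f) where
  fstm :
    letI := kAlgebraFF f
    letI := kAlgebraFF (Prod.f2 f)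
    MapModel (VarSch.ofSmooth (Prod.f2 f)) (VarSch.ofSmooth f)
      (VarSch.ffAlgHom (pullback.fst f f) fst_f) (VarSch.KPt.push (pullback.fst f f) fst_f)
  sndm :
    letI := kAlgebraFF f
    letI := kAlgebraFF (Prod.f2 f)
    MapModel (VarSch.ofSmooth (Prod.f2 f)) (VarSch.ofSmooth f)
      (VarSch.ffAlgHom (pullback.snd f f) snd_f) (VarSch.KPt.push (pullback.snd f f) snd_f)
  addm :
    letI := kAlgebraFF f
    letI := kAlgebraFF (Prod.f2 f)
    MapModel (VarSch.ofSmooth (Prod.f2 f)) (VarSch.ofSmooth f)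
      (VarSch.ffAlgHom (Prod.addHom L) (Prod.addHom_comp L))
      (VarSch.KPt.push (Prod.addHom L) (Prod.addHom_comp L))
  subm :
    letI := kAlgebraFF f
    letI := kAlgebraFF (Prod.f2 f)
    MapModel (VarSch.ofSmooth (Prod.f2 f)) (VarSch.ofSmooth f)
      (VarSch.ffAlgHom (Prod.subHom L) (Prod.subHom_comp L))
      (VarSch.KPt.push (Prod.subHom L) (Prod.subHom_comp L))
  sigAm :
    letI := kAlgebraFF f
    letI := kAlgebraFF (Prod.f2 f)
    MapModel (VarSch.ofSmooth (Prod.f2 f)) (VarSch.ofSmooth f)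
      (VarSch.ffAlgHom (sigA L) (sigA_f L)) (VarSch.KPt.push (sigA L) (sigA_f L))
  sigBm :
    letI := kAlgebraFF f
    letI := kAlgebraFF (Prod.f2 f)
    MapModel (VarSch.ofSmooth (Prod.f2 f)) (VarSch.ofSmooth f)
      (VarSch.ffAlgHom (sigB L) (sigB_f L)) (VarSch.KPt.push (sigB L) (sigB_f L))
  pr3m :
    letI := kAlgebraFF f
    letI := kAlgebraFF (Prod.f3 f)
    MapModel (VarSch.ofSmooth (Prod.f3 f)) (VarSch.ofSmooth f)
      (VarSch.ffAlgHom (Prod.pr3 : Prod.A3 f ⟶ A) pr3_f)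
      (VarSch.KPt.push (Prod.pr3 : Prod.A3 f ⟶ A) pr3_f)
  sig13m :
    letI := kAlgebraFF f
    letI := kAlgebraFF (Prod.f3 f)
    MapModel (VarSch.ofSmooth (Prod.f3 f)) (VarSch.ofSmooth f)
      (VarSch.ffAlgHom (Prod.sig13 L) (sig13_f L)) (VarSch.KPt.push (Prod.sig13 L) (sig13_f L))
  sig23m :
    letI := kAlgebraFF f
    letI := kAlgebraFF (Prod.f3 f)
    MapModel (VarSch.ofSmooth (Prod.f3 f)) (VarSch.ofSmooth f)
      (VarSch.ffAlgHom (Prod.sig23 L) (sig23_f L)) (VarSch.KPt.push (Prod.sig23 L) (sig23_f L))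
  sigMm :
    letI := kAlgebraFF f
    letI := kAlgebraFF (Prod.f3 f)
    MapModel (VarSch.ofSmooth (Prod.f3 f)) (VarSch.ofSmooth f)
      (VarSch.ffAlgHom (Prod.sigM L) (sigM_f L)) (VarSch.KPt.push (Prod.sigM L) (sigM_f L))
  p12m :
    letI := kAlgebraFF (Prod.f2 f)
    letI := kAlgebraFF (Prod.f3 f)
    haveI := isDominant_p12 L
    MapModel (VarSch.ofSmooth (Prod.f3 f)) (VarSch.ofSmooth (Prod.f2 f))
      (VarSch.ffAlgHom (Prod.p12 f) p12_f2') (VarSch.KPt.push (Prod.p12 f) p12_f2')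
  /-- Fubini for thin sets -/
  thin_prod :
    letI := kAlgebraFF f
    letI := kAlgebraFF (Prod.f2 f)
    ∀ T : Set (VarSch.KPt (Prod.f2 f)), (VarSch.ofSmooth (Prod.f2 f)).thin T →
      (VarSch.ofSmooth f).thin {x | ¬ (VarSch.ofSmooth f).thin {z | mk2 x z ∈ T}}

section Transport

variable (L : RelativeGroupLaw K f) (hc : L.IsCommutative)

/-- transport of the model of a map `A² → A` -/
def mapModel2 {σ : Prod.A2 f ⟶ A} [IsDominant σ] (hσ : σ ≫ f = Prod.f2 f)
    (m : letI := kAlgebraFF f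
      letI := kAlgebraFF (Prod.f2 f)
      MapModel (VarSch.ofSmooth (Prod.f2 f)) (VarSch.ofSmooth f) (VarSch.ffAlgHom σ hσ)
        (VarSch.KPt.push σ hσ))
    (pt : Pts L hc × Pts L hc → Pts L hc)
    (h : ∀ x z : VarSch.KPt f, Pts.mk ((mk2 x z).push σ hσ) = pt (Pts.mk x, Pts.mk z)) :
    letI := kAlgebraFF f
    letI := kAlgebraFF (Prod.f2 f)
    MapModel (model2 L hc) (model1 L hc) (VarSch.ffAlgHom σ hσ) pt :=
  letI := kAlgebraFF f
  letI := kAlgebraFF (Prod.f2 f)
  (m.congrPts (pe2 L hc) (Pts.equiv L hc)).copy pt (by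
    funext p
    exact (h p.1.kpt p.2.kpt).symm)

/-- transport of the model of a map `A³ → A` -/
def mapModel3 {σ : Prod.A3 f ⟶ A} [IsDominant σ] (hσ : σ ≫ f = Prod.f3 f)
    (m : letI := kAlgebraFF f
      letI := kAlgebraFF (Prod.f3 f)
      MapModel (VarSch.ofSmooth (Prod.f3 f)) (VarSch.ofSmooth f) (VarSch.ffAlgHom σ hσ)
        (VarSch.KPt.push σ hσ))
    (pt : Pts L hc × Pts L hc × Pts L hc → Pts L hc)
    (h : ∀ x z y : VarSch.KPt f,
      Pts.mk ((mk3 x z y).push σ hσ) = pt (Pts.mk x, Pts.mk z, Pts.mk y)) :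
    letI := kAlgebraFF f
    letI := kAlgebraFF (Prod.f3 f)
    MapModel (model3 L hc) (model1 L hc) (VarSch.ffAlgHom σ hσ) pt :=
  letI := kAlgebraFF f
  letI := kAlgebraFF (Prod.f3 f)
  (m.congrPts (pe3 L hc) (Pts.equiv L hc)).copy pt (by
    funext p
    exact (h p.1.kpt p.2.1.kpt p.2.2.kpt).symm)

theorem mapModel2_pullDiv {σ : Prod.A2 f ⟶ A} [IsDominant σ] (hσ : σ ≫ f = Prod.f2 f)
    (m : letI := kAlgebraFF f
      letI := kAlgebraFF (Prod.f2 f)
      MapModel (VarSch.ofSmooth (Prod.f2 f)) (VarSch.ofSmooth f) (VarSch.ffAlgHom σ hσ)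
        (VarSch.KPt.push σ hσ))
    (pt : Pts L hc × Pts L hc → Pts L hc)
    (h : ∀ x z : VarSch.KPt f, Pts.mk ((mk2 x z).push σ hσ) = pt (Pts.mk x, Pts.mk z))
    (D : Weil.PrimeDiv A → ℤ) :
    letI := kAlgebraFF f
    letI := kAlgebraFF (Prod.f2 f)
    (mapModel2 L hc hσ m pt h).pullDiv D = m.pullDiv D := by
  letI := kAlgebraFF f
  letI := kAlgebraFF (Prod.f2 f)
  exact (MapModel.copy_pullDiv (m.congrPts (pe2 L hc) (Pts.equiv L hc)) pt _ D).trans
    (MapModel.congrPts_pullDiv m _ _ D)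

theorem mapModel3_pullDiv {σ : Prod.A3 f ⟶ A} [IsDominant σ] (hσ : σ ≫ f = Prod.f3 f)
    (m : letI := kAlgebraFF f
      letI := kAlgebraFF (Prod.f3 f)
      MapModel (VarSch.ofSmooth (Prod.f3 f)) (VarSch.ofSmooth f) (VarSch.ffAlgHom σ hσ)
        (VarSch.KPt.push σ hσ))
    (pt : Pts L hc × Pts L hc × Pts L hc → Pts L hc)
    (h : ∀ x z y : VarSch.KPt f,
      Pts.mk ((mk3 x z y).push σ hσ) = pt (Pts.mk x, Pts.mk z, Pts.mk y))
    (D : Weil.PrimeDiv A → ℤ) :
    letI := kAlgebraFF f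
    letI := kAlgebraFF (Prod.f3 f)
    (mapModel3 L hc hσ m pt h).pullDiv D = m.pullDiv D := by
  letI := kAlgebraFF f
  letI := kAlgebraFF (Prod.f3 f)
  exact (MapModel.copy_pullDiv (m.congrPts (pe3 L hc) (Pts.equiv L hc)) pt _ D).trans
    (MapModel.congrPts_pullDiv m _ _ D)

end Transport

/-! ### values of the partial comorphism of a morphism -/

section SecGeneric

variable {X Y Z : Scheme.{u}} [IsIntegral X] [IsIntegral Y] [IsIntegral Z]
  {fX : X ⟶ Spec (CommRingCat.of K)} {fY : Y ⟶ Spec (CommRingCat.of K)}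
  {fZ : Z ⟶ Spec (CommRingCat.of K)}
  [IsNoetherian X] [IsNoetherian Y] [LocallyOfFiniteType fX] [LocallyOfFiniteType fY]
  (hUX : ∀ x : X, UniqueFactorizationMonoid (X.presheaf.stalk x))
  (hUY : ∀ y : Y, UniqueFactorizationMonoid (Y.presheaf.stalk y))

/-- `ρ_s (p^* c) = ψ^* c` when `s ≫ p = ψ` is dominant -/
theorem secModelOfHom_spec_dominant (s : X ⟶ Y) (hs : s ≫ fY = fX) (p : Y ⟶ Z) [IsDominant p]
    (hp : p ≫ fZ = fY) (ψ : X ⟶ Z) [IsDominant ψ] (hψ : s ≫ p = ψ) (c : Z.functionField) :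
    letI := kAlgebraFF fX
    letI := kAlgebraFF fY
    letI := kAlgebraFF fZ
    ∃ hm : VarSch.ffAlgHom p hp c ∈ (VarSch.secModelOfHom hUX hUY s hs).dom,
      (VarSch.secModelOfHom hUX hUY s hs).ρ ⟨VarSch.ffAlgHom p hp c, hm⟩ = FinMap.ffMap ψ c := by
  subst hψ
  exact ⟨VarSch.ffMap_mem_secDomRing s p (VarSch.mem_range_toFF_of_isDominant (s ≫ p) c),
    VarSch.secRho_ffMap_of_isDominant s p c⟩

/-- `ρ_s (p^* c) = c(b)` when `s ≫ p` is constant with value the rational point `b` and `c` is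
regular at `b` -/
theorem secModelOfHom_spec_const (s : X ⟶ Y) (hs : s ≫ fY = fX) (p : Y ⟶ Z) [IsDominant p]
    (hp : p ≫ fZ = fY) (b : VarSch.KPt fZ) (hb : p (s (genericPoint X)) = b.pt)
    (c : Z.functionField) (hc : c ∈ Set.range (Quad.toFF Z b.pt)) :
    letI := kAlgebraFF fX
    letI := kAlgebraFF fY
    letI := kAlgebraFF fZ
    ∃ hm : VarSch.ffAlgHom p hp c ∈ (VarSch.secModelOfHom hUX hUY s hs).dom,
      (VarSch.secModelOfHom hUX hUY s hs).ρ ⟨VarSch.ffAlgHom p hp c, hm⟩ =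
        algebraMap K X.functionField (VarSch.ev b c) := by
  have hc' : c ∈ Set.range (Quad.toFF Z (p (s (genericPoint X)))) := by
    rw [hb]; exact hc
  exact ⟨VarSch.ffMap_mem_secDomRing s p hc', VarSch.secRho_ffMap_of_const s p hs hp b hb hc'⟩

end SecGeneric

/-! ### the fibres and the zero section -/

section Sections

variable (L : RelativeGroupLaw K f) (hc : L.IsCommutative)

theorem secJ_pt (x z : Pts L hc) :
    (fun y : Pts L hc => (x, z, y)) =
      fun y => pe3 L hc (((Pts.equiv L hc).symm y).push (jHom x.kpt z.kpt)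
        (jHom_f3 x.kpt z.kpt)) := by
  funext y
  show (x, z, y) = pe3 L hc (y.kpt.push (jHom x.kpt z.kpt) (jHom_f3 x.kpt z.kpt))
  rw [push_jHom, pe3_mk3]
  rfl

/-- the model of the inclusion of the fibre `{(x, z)} × A` -/
def secJ (x z : Pts L hc) :
    letI := kAlgebraFF f
    letI := kAlgebraFF (Prod.f3 f)
    SecModel (model1 L hc) (model3 L hc) (fun y => (x, z, y)) :=
  letI := kAlgebraFF f
  letI := kAlgebraFF (Prod.f3 f)
  ((VarSch.secModelOfHom (fun a => UFD.ufm_stalk_of_smooth f a)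
    (fun a => UFD.ufm_stalk_of_smooth (Prod.f3 f) a) (jHom x.kpt z.kpt)
    (jHom_f3 x.kpt z.kpt)).congrPts (Pts.equiv L hc) (pe3 L hc)).copy _ (secJ_pt L hc x z)

theorem secS0_pt :
    (fun p : Pts L hc × Pts L hc => (p.1, p.2, (0 : Pts L hc))) =
      fun p => pe3 L hc (((pe2 L hc).symm p).push (Prod.iota0 L) (Prod.iota0_f3 L)) := by
  funext p
  show (p.1, p.2, (0 : Pts L hc)) =
    pe3 L hc ((mk2 p.1.kpt p.2.kpt).push (Prod.iota0 L) (Prod.iota0_f3 L))
  rw [push_iota0, pe3_mk3]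
  rfl

/-- the model of the zero section `A² × {0}` -/
def secS0 :
    letI := kAlgebraFF (Prod.f2 f)
    letI := kAlgebraFF (Prod.f3 f)
    SecModel (model2 L hc) (model3 L hc) (fun p => (p.1, p.2, 0)) :=
  letI := kAlgebraFF (Prod.f2 f)
  letI := kAlgebraFF (Prod.f3 f)
  ((VarSch.secModelOfHom (fun a => UFD.ufm_stalk_of_smooth (Prod.f2 f) a)
    (fun a => UFD.ufm_stalk_of_smooth (Prod.f3 f) a) (Prod.iota0 L)
    (Prod.iota0_f3 L)).congrPts (pe2 L hc) (pe3 L hc)).copy _ (secS0_pt L hc)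

/-- values of the partial comorphism of the fibre inclusion, dominant case -/
theorem secJ_spec_dominant (x z : Pts L hc) (p : Prod.A3 f ⟶ A) [IsDominant p]
    (hp : p ≫ f = Prod.f3 f) (ψ : A ⟶ A) [IsDominant ψ] (hψ : jHom x.kpt z.kpt ≫ p = ψ)
    (c : A.functionField) :
    letI := kAlgebraFF f
    letI := kAlgebraFF (Prod.f3 f)
    ∃ hm : VarSch.ffAlgHom p hp c ∈ (secJ L hc x z).dom,
      (secJ L hc x z).ρ ⟨VarSch.ffAlgHom p hp c, hm⟩ = FinMap.ffMap ψ c := by
  letI := kAlgebraFF f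
  letI := kAlgebraFF (Prod.f3 f)
  exact SecModel.copy_spec _ _ (secJ_pt L hc x z)
    (secModelOfHom_spec_dominant (fun a => UFD.ufm_stalk_of_smooth f a)
      (fun a => UFD.ufm_stalk_of_smooth (Prod.f3 f) a) (jHom x.kpt z.kpt) (jHom_f3 x.kpt z.kpt)
      p hp ψ hψ c)

/-- values of the partial comorphism of the zero section, dominant case -/
theorem secS0_spec_dominant {Z : Scheme.{u}} [IsIntegral Z] {fZ : Z ⟶ Spec (CommRingCat.of K)}
    (p : Prod.A3 f ⟶ Z) [IsDominant p]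
    (hp : p ≫ fZ = Prod.f3 f) (ψ : Prod.A2 f ⟶ Z) [IsDominant ψ] (hψ : Prod.iota0 L ≫ p = ψ)
    (c : Z.functionField) :
    letI := kAlgebraFF fZ
    letI := kAlgebraFF (Prod.f2 f)
    letI := kAlgebraFF (Prod.f3 f)
    ∃ hm : VarSch.ffAlgHom p hp c ∈ (secS0 L hc).dom,
      (secS0 L hc).ρ ⟨VarSch.ffAlgHom p hp c, hm⟩ = FinMap.ffMap ψ c := by
  letI := kAlgebraFF fZ
  letI := kAlgebraFF (Prod.f2 f)
  letI := kAlgebraFF (Prod.f3 f)
  exact SecModel.copy_spec _ _ (secS0_pt L hc)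
    (secModelOfHom_spec_dominant (fun a => UFD.ufm_stalk_of_smooth (Prod.f2 f) a)
      (fun a => UFD.ufm_stalk_of_smooth (Prod.f3 f) a) (Prod.iota0 L) (Prod.iota0_f3 L)
      p hp ψ hψ c)

/-- the partial comorphism of the fibre inclusion is a retraction of `y^*` -/
theorem secJ_spec_pr3 (x z : Pts L hc) (h : A.functionField) :
    letI := kAlgebraFF f
    letI := kAlgebraFF (Prod.f3 f)
    ∃ hm : VarSch.ffAlgHom (Prod.pr3 : Prod.A3 f ⟶ A) pr3_f h ∈ (secJ L hc x z).dom,
      (secJ L hc x z).ρ ⟨VarSch.ffAlgHom (Prod.pr3 : Prod.A3 f ⟶ A) pr3_f h, hm⟩ = h := by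
  letI := kAlgebraFF f
  letI := kAlgebraFF (Prod.f3 f)
  obtain ⟨hm, e⟩ := secJ_spec_dominant L hc x z (Prod.pr3 : Prod.A3 f ⟶ A) pr3_f (𝟙 A)
    (jHom_pr3 x.kpt z.kpt) h
  exact ⟨hm, e.trans (VarSch.ffMap_id h)⟩

omit [IsAlgClosed K] in
/-- a constant morphism takes the value of its rational point -/
theorem const_apply_eq_pt {X Z : Scheme.{u}} {fX : X ⟶ Spec (CommRingCat.of K)}
    {fZ : Z ⟶ Spec (CommRingCat.of K)} (ψ : X ⟶ Z) (b : VarSch.KPt fZ) (hψ : ψ = fX ≫ b.1)
    (x : X) : ψ x = b.pt := by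
  subst hψ
  show b.1 (fX x) = b.1 (IsLocalRing.closedPoint K)
  congr 1
  exact Subsingleton.elim (α := PrimeSpectrum K) _ _

/-- values of the partial comorphism of the fibre inclusion on `K(A²)` -/
theorem secJ_spec_p12 (x z : Pts L hc) (c : (Prod.A2 f).functionField)
    (hreg : letI := kAlgebraFF (Prod.f2 f); (model2 L hc).Reg (x, z) c) :
    letI := kAlgebraFF f
    letI := kAlgebraFF (Prod.f2 f)
    letI := kAlgebraFF (Prod.f3 f)
    haveI := isDominant_p12 L
    ∃ hm : VarSch.ffAlgHom (Prod.p12 f) p12_f2' c ∈ (secJ L hc x z).dom,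
      (secJ L hc x z).ρ ⟨VarSch.ffAlgHom (Prod.p12 f) p12_f2' c, hm⟩ =
        algebraMap K A.functionField ((model2 L hc).ev (x, z) c) := by
  letI := kAlgebraFF f
  letI := kAlgebraFF (Prod.f2 f)
  letI := kAlgebraFF (Prod.f3 f)
  haveI := isDominant_p12 L
  have hb : (Prod.p12 f) ((jHom x.kpt z.kpt) (genericPoint A)) = (mk2 x.kpt z.kpt).pt := by
    rw [← Scheme.Hom.comp_apply]
    exact const_apply_eq_pt _ (mk2 x.kpt z.kpt) (jHom_p12 x.kpt z.kpt) _
  have hc' : c ∈ Set.range (Quad.toFF (Prod.A2 f) (mk2 x.kpt z.kpt).pt) :=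
    (VarSch.ofScheme_reg_iff (Prod.f2 f) (fun a => UFD.ufm_stalk_of_smooth (Prod.f2 f) a)
      (mk2 x.kpt z.kpt) c).1 hreg
  exact SecModel.copy_spec _ _ (secJ_pt L hc x z)
    (secModelOfHom_spec_const (fun a => UFD.ufm_stalk_of_smooth f a)
      (fun a => UFD.ufm_stalk_of_smooth (Prod.f3 f) a) (jHom x.kpt z.kpt) (jHom_f3 x.kpt z.kpt)
      (Prod.p12 f) p12_f2' (mk2 x.kpt z.kpt) hb c hc')

/-- values of the partial comorphism of the zero section on `K(A)` through `y` -/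
theorem secS0_spec_pr3 (h : A.functionField)
    (hreg : letI := kAlgebraFF f; (model1 L hc).Reg 0 h) :
    letI := kAlgebraFF f
    letI := kAlgebraFF (Prod.f2 f)
    letI := kAlgebraFF (Prod.f3 f)
    ∃ hm : VarSch.ffAlgHom (Prod.pr3 : Prod.A3 f ⟶ A) pr3_f h ∈ (secS0 L hc).dom,
      (secS0 L hc).ρ ⟨VarSch.ffAlgHom (Prod.pr3 : Prod.A3 f ⟶ A) pr3_f h, hm⟩ =
        algebraMap K (Prod.A2 f).functionField ((model1 L hc).ev 0 h) := by
  letI := kAlgebraFF f
  letI := kAlgebraFF (Prod.f2 f)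
  letI := kAlgebraFF (Prod.f3 f)
  have hb : (Prod.pr3 : Prod.A3 f ⟶ A) ((Prod.iota0 L) (genericPoint (Prod.A2 f))) =
      VarSch.KPt.pt (f := f) (L.one (𝟙 _)) := by
    rw [← Scheme.Hom.comp_apply]
    exact const_apply_eq_pt _ (L.one (𝟙 _) : VarSch.KPt f) (Prod.iota0_pr3 L) _
  have hc' : h ∈ Set.range (Quad.toFF A (VarSch.KPt.pt (f := f) (L.one (𝟙 _)))) :=
    (VarSch.ofScheme_reg_iff f (fun a => UFD.ufm_stalk_of_smooth f a)
      (L.one (𝟙 _) : VarSch.KPt f) h).1 hreg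
  exact SecModel.copy_spec _ _ (secS0_pt L hc)
    (secModelOfHom_spec_const (fun a => UFD.ufm_stalk_of_smooth (Prod.f2 f) a)
      (fun a => UFD.ufm_stalk_of_smooth (Prod.f3 f) a) (Prod.iota0 L) (Prod.iota0_f3 L)
      (Prod.pr3 : Prod.A3 f ⟶ A) pr3_f (L.one (𝟙 _) : VarSch.KPt f) hb h hc')

end Sections

/-! ### the assembly -/

section Assembly

variable {L : RelativeGroupLaw K f} (hc : L.IsCommutative) [IsProper f]

omit [IsProper f] in
theorem p12_pt (L : RelativeGroupLaw K f) (hc : L.IsCommutative) :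
    (fun q : Pts L hc × Pts L hc × Pts L hc => (q.1, q.2.1)) =
      fun q' => pe2 L hc (VarSch.KPt.push (Prod.p12 f) p12_f2' ((pe3 L hc).symm q')) := by
  funext q
  show (q.1, q.2.1) = pe2 L hc ((mk3 q.1.kpt q.2.1.kpt q.2.2.kpt).push (Prod.p12 f) p12_f2')
  rw [push_p12_mk3, pe2_mk2]
  rfl

theorem thin_prod_ofScheme (I : MapInputs L) (T : Set (Pts L hc × Pts L hc))
    (hT : letI := kAlgebraFF (Prod.f2 f); (model2 L hc).thin T) :
    letI := kAlgebraFF f
    (model1 L hc).thin {x | ¬ (model1 L hc).thin {z | (x, z) ∈ T}} := by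
  letI := kAlgebraFF f
  letI := kAlgebraFF (Prod.f2 f)
  have h := I.thin_prod ((pe2 L hc) ⁻¹' T) hT
  refine (VarSch.ofSmooth f).thin_mono ?_ h
  intro x hx hx'
  apply hx
  refine (VarSch.ofSmooth f).thin_mono ?_ hx'
  intro z hz
  show pe2 L hc (mk2 x z) ∈ T
  rw [pe2_mk2]
  exact hz

/-- **the abstract data of the parallelogram argument for the abelian variety `(A, L)`** -/
def ParaData.ofScheme (I : MapInputs L) :
    letI := kAlgebraFF f
    letI := kAlgebraFF (Prod.f2 f)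
    letI := kAlgebraFF (Prod.f3 f)
    ParaData K A.functionField (Prod.A2 f).functionField (Prod.A3 f).functionField
      (Pts L hc) :=
  letI := kAlgebraFF f
  letI := kAlgebraFF (Prod.f2 f)
  letI := kAlgebraFF (Prod.f3 f)
  haveI := isDominant_p12 L
  { X1 := model1 L hc
    X2 := model2 L hc
    X3 := model3 L hc
    complete1 := VarModel.congrPts_complete _ _ (VarSch.complete_ofSmooth f)
    τ := tau L hc
    τm := tauM L hc
    ν := nu L
    νm := nuM L hc
    Q1 := VarSch.ffAlgHom (pullback.fst f f) fst_f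
    Q2 := VarSch.ffAlgHom (pullback.snd f f) snd_f
    Qs := VarSch.ffAlgHom (Prod.addHom L) (Prod.addHom_comp L)
    Qd := VarSch.ffAlgHom (Prod.subHom L) (Prod.subHom_comp L)
    Qa := VarSch.ffAlgHom (sigA L) (sigA_f L)
    Qb := VarSch.ffAlgHom (sigB L) (sigB_f L)
    q1m := mapModel2 L hc fst_f I.fstm (fun p => p.1) (fun x z => by rw [push_fst_mk2])
    q2m := mapModel2 L hc snd_f I.sndm (fun p => p.2) (fun x z => by rw [push_snd_mk2])
    qsm := mapModel2 L hc (Prod.addHom_comp L) I.addm (fun p => p.1 + p.2) (fun x z => by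
      rw [push_addHom_mk2]; rfl)
    qdm := mapModel2 L hc (Prod.subHom_comp L) I.subm (fun p => p.1 - p.2) (fun x z => by
      rw [push_subHom_mk2]; rfl)
    qam := mapModel2 L hc (sigA_f L) I.sigAm (fun p => p.1 + p.1 + p.2) (fun x z => by
      rw [push_sigA_mk2]; rfl)
    qbm := mapModel2 L hc (sigB_f L) I.sigBm (fun p => p.1 + p.2 + p.2) (fun x z => by
      rw [push_sigB_mk2]; rfl)
    P3 := VarSch.ffAlgHom (Prod.pr3 : Prod.A3 f ⟶ A) pr3_f
    A13 := VarSch.ffAlgHom (Prod.sig13 L) (sig13_f L)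
    A23 := VarSch.ffAlgHom (Prod.sig23 L) (sig23_f L)
    Am := VarSch.ffAlgHom (Prod.sigM L) (sigM_f L)
    p3m := mapModel3 L hc pr3_f I.pr3m (fun q => q.2.2) (fun x z y => by rw [push_pr3_mk3])
    a13m := mapModel3 L hc (sig13_f L) I.sig13m (fun q => q.1 + q.2.2) (fun x z y => by
      rw [push_sig13_mk3]; rfl)
    a23m := mapModel3 L hc (sig23_f L) I.sig23m (fun q => q.2.1 + q.2.2) (fun x z y => by
      rw [push_sig23_mk3]; rfl)
    amm := mapModel3 L hc (sigM_f L) I.sigMm (fun q => q.2.2 - q.1 - q.2.1) (fun x z y => by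
      rw [push_sigM_mk3]
      show (Pts.mk y : Pts L hc) - (Pts.mk x + Pts.mk z) = Pts.mk y - Pts.mk x - Pts.mk z
      rw [sub_sub])
    P12 := VarSch.ffAlgHom (Prod.p12 f) p12_f2'
    p12m := (I.p12m.congrPts (pe3 L hc) (pe2 L hc)).copy (fun q => (q.1, q.2.1)) (p12_pt L hc)
    lindisj := fun {N} h hli c hsum =>
      lindisj_of_sections (model1 L hc) (model2 L hc) (model3 L hc)
        (VarSch.ffAlgHom (Prod.p12 f) p12_f2')
        (VarSch.ffAlgHom (Prod.pr3 : Prod.A3 f ⟶ A) pr3_f) (fun p y => (p.1, p.2, y))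
        (fun p => secJ L hc p.1 p.2) (fun p h => secJ_spec_pr3 L hc p.1 p.2 h)
        (fun p c hreg => secJ_spec_p12 L hc p.1 p.2 c hreg) h hli c hsum
    thin_prod := thin_prod_ofScheme hc I
    J := secJ L hc
    J_p3 := fun x z h => secJ_spec_pr3 L hc x z h
    J_a13 := fun x z h =>
      secJ_spec_dominant L hc x z (Prod.sig13 L) (sig13_f L) (NMul.transIso L x.kpt).hom
        (jHom_sig13 hc x.kpt z.kpt) h
    J_a23 := fun x z h =>
      secJ_spec_dominant L hc x z (Prod.sig23 L) (sig23_f L) (NMul.transIso L z.kpt).hom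
        (jHom_sig23 hc x.kpt z.kpt) h
    J_am := fun x z h => by
      have e : -x - z = -(x + z) := (neg_add' x z).symm
      rw [e]
      exact secJ_spec_dominant L hc x z (Prod.sigM L) (sigM_f L)
        (NMul.transIso L (-(x + z)).kpt).hom (jHom_sigM L x.kpt z.kpt) h
    J_p12 := fun x z c hreg => secJ_spec_p12 L hc x z c hreg
    S0 := secS0 L hc
    S0_p12 := fun c => by
      obtain ⟨hm, e⟩ := secS0_spec_dominant L hc (Prod.p12 f) p12_f2' (𝟙 (Prod.A2 f))
        (Prod.iota0_p12 L) c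
      exact ⟨hm, e.trans (VarSch.ffMap_id c)⟩
    S0_p3 := fun h hreg => secS0_spec_pr3 L hc h hreg
    S0_a13 := fun h =>
      secS0_spec_dominant L hc (Prod.sig13 L) (sig13_f L) (pullback.fst f f) (iota0_sig13 L) h
    S0_a23 := fun h =>
      secS0_spec_dominant L hc (Prod.sig23 L) (sig23_f L) (pullback.snd f f) (iota0_sig23 L) h
    S0_am := fun h => by
      obtain ⟨hm, e⟩ := secS0_spec_dominant L hc (Prod.sigM L) (sigM_f L)
        (Prod.addHom L ≫ (Weil.negIso L).hom) (iota0_sigM L) h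
      exact ⟨hm, e.trans (VarSch.ffMap_comp (Prod.addHom L) (Weil.negIso L).hom h)⟩ }

end Assembly

end Fermat.Agent.S26lib.Para
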