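/-
S26lib / Para / Vertical  (helper2)  --  Project K (S26), step (Q2'), Steps 5-7.

The vertical part of `div H0` is computed by restricting to the zero section `y = 0`:
`e = H0|_{y=0} = ∑ c_i · hb_i(0) ∈ K(A²)` satisfies
`ord_Z e = ord_{Z × A} H0 + (x^*D + z^*D + (x+z)^*D)(Z)` for every prime divisor `Z` of `A²`.
Hence `H = H0 / p12^*(e)` has divisor `paraDiv D` (the main theorem of (Q2')).
-/
import Fermat.Agent.S26lib.Para.Exact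

set_option autoImplicit false

noncomputable section

namespace Fermat.Agent.S26lib.Para

open Fermat.Agent.S26lib

universe u

namespace DivModelAux

variable {K F : Type u} [Field K] [Field F] [Algebra K F] (M : DivModel K F)

theorem ord_zpow (P : M.ι) {x : F} (hx : x ≠ 0) (n : ℤ) : M.ord P (x ^ n) = n * M.ord P x := by
  cases n with
  | ofNat n =>
    rw [Int.ofNat_eq_natCast, zpow_natCast, ord_pow M P hx]
  | negSucc n =>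
    rw [zpow_negSucc, M.ord_inv P (pow_ne_zero _ hx), ord_pow M P hx, Int.negSucc_eq]
    push_cast
    ring

end DivModelAux

namespace DivData

variable {K F1 F2 F3 : Type u} [Field K] [Field F1] [Field F2] [Field F3]
  [Algebra K F1] [Algebra K F2] [Algebra K F3] {P : Type u} [AddCommGroup P]
  {Dt : ParaData K F1 F2 F3 P} (Dv : DivData Dt) {N : ℕ} (hb : Fin N → F1) (c : Fin N → F2)

/-- `e = H0|_{y = 0}` -/
def eSec : F2 := ∑ i, c i * algebraMap K F2 (Dt.X1.ev 0 (hb i))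

/-- the restriction of `H0` to the zero section -/
theorem res0_H0 (hV : ∀ i, hb i ∈ Dv.V) :
    Dt.H0 hb c ∈ Dt.S0.dom ∧ Dt.S0.res (Dt.H0 hb c) = eSec (Dt := Dt) hb c := by
  have hr0 : ∀ i, Dt.X1.Reg 0 (hb i) := fun i =>
    Dv.reg_of_mem_V (hV i) Dv.zero_not_mem_suppPts
  have hmem : ∀ i ∈ (Finset.univ : Finset (Fin N)),
      Dt.P12 (c i) * Dt.P3 (hb i) ∈ Dt.S0.dom := fun i _ =>
    Dt.S0.dom.mul_mem (Dt.S0_p12_mem (c i)) (Dt.S0_p3_mem (hr0 i))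
  refine ⟨Dt.S0.sum_mem_dom _ _ hmem, ?_⟩
  unfold ParaData.H0 eSec
  rw [Dt.S0.res_sum _ _ hmem]
  refine Finset.sum_congr rfl fun i _ => ?_
  rw [Dt.S0.res_mul (Dt.S0_p12_mem (c i)) (Dt.S0_p3_mem (hr0 i)), Dt.S0_p12_res,
    Dt.S0_p3_res (hr0 i)]

/-- `ν` of a local equation of `D` at `-a` is a local equation of `D` at `a` (`D` symmetric) -/
theorem ord_ν_locEq {a : P} {Y : Dt.X1.M.ι} (hY : a ∈ Dt.X1.thr Y) :
    Dt.X1.M.ord Y (Dt.ν (Dv.locEq (-a))) = Dv.D Y := by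
  rw [Dt.νm.ord_aut]
  have h1 : -a ∈ Dt.X1.thr (Dt.νm.perm.symm Y) := (Dt.νm.mem_thr_symm Y a).2 hY
  rw [Dv.ord_locEq h1]
  have := Dv.D_symm (Dt.νm.perm.symm Y)
  rw [Equiv.apply_symm_apply] at this
  exact this.symm

omit Dv in
/-- a point of a prime divisor `Z` of `A²` lying on no other prime divisor of a given finite set -/
theorem exists_pt_avoiding (Z : Dt.X2.M.ι) (s : Finset Dt.X2.M.ι) :
    ∃ p ∈ Dt.X2.thr Z, ∀ Z' ∈ s, Z' ≠ Z → p ∉ Dt.X2.thr Z' := by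
  classical
  by_contra hcon
  push Not at hcon
  apply Dt.X2.not_thinIn_thr Z
  have h1 : Dt.X2.thinIn Z (⋃ Z' ∈ s.erase Z, Dt.X2.thr Z ∩ Dt.X2.thr Z') :=
    Dt.X2.thinIn_biUnion Z _ _ fun Z' hZ' => Dt.X2.thinIn_inter Z Z' (Finset.ne_of_mem_erase hZ')
  refine Dt.X2.thinIn_mono Z ?_ h1
  intro p hp
  obtain ⟨Z', hZ's, hne, hpZ'⟩ := hcon p hp
  exact Set.mem_iUnion₂.2 ⟨Z', Finset.mem_erase.2 ⟨hne, hZ's⟩, hp, hpZ'⟩

/-- **Steps 5-6, local form**: at a parameter `p = (x,z)` such that the vertical part of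
`div H0` is, near `p`, the divisor of `π ^ E`. -/
theorem eSec_aux (hli : LinearIndependent K hb) (hV : ∀ i, hb i ∈ Dv.V)
    (hi0 : ∃ i0, c i0 = 1) (hrel : Dv.Rel hb c) (x z : P) {π : F2} (hπ0 : π ≠ 0) (E : ℤ)
    (hvert : ∀ Z', (x, z) ∈ Dt.X2.thr Z' →
      Dt.X3.M.ord (Dt.p12m.pull Z') (Dt.H0 hb c) = E * Dt.X2.M.ord Z' π) :
    eSec (Dt := Dt) hb c ≠ 0 ∧ ∀ Z, (x, z) ∈ Dt.X2.thr Z →
      Dt.X2.M.ord Z (eSec (Dt := Dt) hb c) = E * Dt.X2.M.ord Z π + Dt.vertDiv Dv.D Z := by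
  classical
  have hne := Dt.H0_ne_zero hb c hli hi0
  -- the local quotient at `q0 = (x, z, 0)`
  set lam : F3 := Dv.lamQ hb c (x, z, 0) * Dt.P12 (π ^ (-E)) with hlam
  have hπE : π ^ (-E) ≠ 0 := zpow_ne_zero _ hπ0
  have hlq : Dv.lamQ hb c (x, z, 0) ≠ 0 := by
    unfold lamQ
    refine mul_ne_zero (mul_ne_zero (mul_ne_zero (mul_ne_zero hne ?_) ?_) ?_) ?_
    · exact algHom_ne_zero Dt.P3 (pow_ne_zero 3 (Dv.locEq_ne_zero _))
    · exact algHom_ne_zero Dt.A13 (inv_ne_zero (Dv.locEq_ne_zero _))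
    · exact algHom_ne_zero Dt.A23 (inv_ne_zero (Dv.locEq_ne_zero _))
    · exact algHom_ne_zero Dt.Am (inv_ne_zero (Dv.locEq_ne_zero _))
  have hlamne : lam ≠ 0 := mul_ne_zero hlq (algHom_ne_zero Dt.P12 hπE)
  -- `lam` is a unit at `q0`
  have hunit : Dt.X3.IsUnitAt (x, z, 0) lam := by
    refine ⟨hlamne, fun W hW => ?_⟩
    rw [hlam, Dt.X3.M.ord_mul W hlq (algHom_ne_zero Dt.P12 hπE), Dv.ord_lamQ hb c hne hW]
    by_cases hv : W ∈ Set.range Dt.p12m.pull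
    · obtain ⟨Z', rfl⟩ := hv
      have hpZ' : (x, z) ∈ Dt.X2.thr Z' := (Dt.p12m.thr_pull Z' (x, z, 0)).1 hW
      rw [Dt.horDiv_vert, Dt.p12m.ord_pull, DivModelAux.ord_zpow Dt.X2.M Z' hπ0,
        hvert Z' hpZ']
      ring
    · rw [Dv.ord_H0_eq hb c hli hV hi0 hrel hv, Dt.p12m.ord_other W hv _ hπE]
      ring
  -- restrict to the zero section
  have hres := Dt.S0.isUnitAt_res (a := (x, z)) hunit
  -- compute the restriction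
  obtain ⟨m0, r0⟩ := Dv.res0_H0 hb c hV
  have hr0 : Dt.X1.Reg 0 (Dv.locEq 0 ^ 3) := by
    refine Dt.X1.reg_pow (Or.inr fun Y hY => ?_) 3
    rw [Dv.ord_locEq hY]
    exact Dv.D_nonneg Y
  have m1 := Dt.S0_p3_mem hr0
  have m2 := Dt.S0_a13_mem ((Dv.locEq (x + 0))⁻¹)
  have m3 := Dt.S0_a23_mem ((Dv.locEq (z + 0))⁻¹)
  have m4 := Dt.S0_am_mem ((Dv.locEq (0 - x - z))⁻¹)
  have m5 := Dt.S0_p12_mem (π ^ (-E))
  have d1 := Dt.S0.dom.mul_mem m0 m1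
  have d2 := Dt.S0.dom.mul_mem d1 m2
  have d3 := Dt.S0.dom.mul_mem d2 m3
  have d4 := Dt.S0.dom.mul_mem d3 m4
  have hcomp : Dt.S0.res lam = eSec (Dt := Dt) hb c *
      algebraMap K F2 (Dt.X1.ev 0 (Dv.locEq 0 ^ 3)) * (Dt.Q1 (Dv.locEq (x + 0)))⁻¹ *
      (Dt.Q2 (Dv.locEq (z + 0)))⁻¹ * (Dt.Qs (Dt.ν (Dv.locEq (0 - x - z))))⁻¹ * π ^ (-E) := by
    show Dt.S0.res (Dt.H0 hb c * Dt.P3 (Dv.locEq 0 ^ 3) * Dt.A13 ((Dv.locEq (x + 0))⁻¹) *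
      Dt.A23 ((Dv.locEq (z + 0))⁻¹) * Dt.Am ((Dv.locEq (0 - x - z))⁻¹) * Dt.P12 (π ^ (-E))) = _
    rw [Dt.S0.res_mul d4 m5, Dt.S0.res_mul d3 m4, Dt.S0.res_mul d2 m3, Dt.S0.res_mul d1 m2,
      Dt.S0.res_mul m0 m1, r0, Dt.S0_p3_res hr0, Dt.S0_a13_res, Dt.S0_a23_res, Dt.S0_am_res,
      Dt.S0_p12_res, map_inv₀, map_inv₀, map_inv₀, map_inv₀]
  rw [hcomp] at hres
  -- `e ≠ 0`
  have he : eSec (Dt := Dt) hb c ≠ 0 := by
    intro h0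
    apply hres.1
    rw [h0]
    simp
  refine ⟨he, fun Z hpZ => ?_⟩
  -- orders along `Z`
  have hord := hres.2 Z hpZ
  have k0 : algebraMap K F2 (Dt.X1.ev 0 (Dv.locEq 0 ^ 3)) ≠ 0 := by
    intro h0
    apply hres.1
    rw [h0]
    simp
  have t2 : Dt.Q1 (Dv.locEq (x + 0)) ≠ 0 := algHom_ne_zero _ (Dv.locEq_ne_zero _)
  have t3 : Dt.Q2 (Dv.locEq (z + 0)) ≠ 0 := algHom_ne_zero _ (Dv.locEq_ne_zero _)
  have t4 : Dt.Qs (Dt.ν (Dv.locEq (0 - x - z))) ≠ 0 :=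
    algHom_ne_zero _ (algEquiv_ne_zero _ (Dv.locEq_ne_zero _))
  have n2 := inv_ne_zero t2
  have n3 := inv_ne_zero t3
  have n4 := inv_ne_zero t4
  rw [Dt.X2.M.ord_mul Z (mul_ne_zero (mul_ne_zero (mul_ne_zero (mul_ne_zero he k0) n2) n3) n4)
      hπE,
    Dt.X2.M.ord_mul Z (mul_ne_zero (mul_ne_zero (mul_ne_zero he k0) n2) n3) n4,
    Dt.X2.M.ord_mul Z (mul_ne_zero (mul_ne_zero he k0) n2) n3,
    Dt.X2.M.ord_mul Z (mul_ne_zero he k0) n2, Dt.X2.M.ord_mul Z he k0,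
    Dt.X2.M.ord_const, Dt.X2.M.ord_inv Z t2, Dt.X2.M.ord_inv Z t3, Dt.X2.M.ord_inv Z t4,
    DivModelAux.ord_zpow Dt.X2.M Z hπ0] at hord
  have e2 : Dt.X2.M.ord Z (Dt.Q1 (Dv.locEq (x + 0))) = Dt.q1m.pullDiv Dv.D Z := by
    refine Dt.q1m.ord_map_localEq (q := (x, z)) (Dv.locEq_ne_zero _) (fun Y hY => ?_) Z hpZ
    exact Dv.ord_locEq (by rwa [add_zero])
  have e3 : Dt.X2.M.ord Z (Dt.Q2 (Dv.locEq (z + 0))) = Dt.q2m.pullDiv Dv.D Z := by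
    refine Dt.q2m.ord_map_localEq (q := (x, z)) (Dv.locEq_ne_zero _) (fun Y hY => ?_) Z hpZ
    exact Dv.ord_locEq (by rwa [add_zero])
  have e4 : Dt.X2.M.ord Z (Dt.Qs (Dt.ν (Dv.locEq (0 - x - z)))) = Dt.qsm.pullDiv Dv.D Z := by
    refine Dt.qsm.ord_map_localEq (q := (x, z))
      (algEquiv_ne_zero _ (Dv.locEq_ne_zero _)) (fun Y hY => ?_) Z hpZ
    have heq : (0 : P) - x - z = -(x + z) := by abel
    rw [heq]
    exact Dv.ord_ν_locEq hY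
  rw [e2, e3, e4] at hord
  unfold ParaData.vertDiv
  linarith

/-- `e ≠ 0` -/
theorem eSec_ne_zero (hli : LinearIndependent K hb) (hV : ∀ i, hb i ∈ Dv.V)
    (hi0 : ∃ i0, c i0 = 1) (hrel : Dv.Rel hb c) : eSec (Dt := Dt) hb c ≠ 0 := by
  classical
  have hne := Dt.H0_ne_zero hb c hli hi0
  have hvfin := finite_vertSupp hb c hne
  -- a parameter on no vertical component of `div H0`
  have hthin : Dt.X2.thin (⋃ Z ∈ hvfin.toFinset, Dt.X2.thr Z) :=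
    Dt.X2.thin_biUnion _ _ fun Z _ => Dt.X2.thin_thr Z
  have hex : ∃ p : P × P, p ∉ ⋃ Z ∈ hvfin.toFinset, Dt.X2.thr Z := by
    by_contra hcon
    push Not at hcon
    exact Dt.X2.not_thin_univ (Dt.X2.thin_mono (fun p _ => hcon p) hthin)
  obtain ⟨⟨x, z⟩, hp⟩ := hex
  refine (Dv.eSec_aux hb c hli hV hi0 hrel x z (π := 1) one_ne_zero 0 fun Z' hZ' => ?_).1
  rw [zero_mul]
  by_contra hne0
  exact hp (Set.mem_iUnion₂.2 ⟨Z', hvfin.mem_toFinset.2 hne0, hZ'⟩)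

/-- **Steps 5-6**: the divisor of `e`. -/
theorem ord_eSec (hli : LinearIndependent K hb) (hV : ∀ i, hb i ∈ Dv.V)
    (hi0 : ∃ i0, c i0 = 1) (hrel : Dv.Rel hb c) (Z : Dt.X2.M.ι) :
    Dt.X2.M.ord Z (eSec (Dt := Dt) hb c) =
      Dt.X3.M.ord (Dt.p12m.pull Z) (Dt.H0 hb c) + Dt.vertDiv Dv.D Z := by
  classical
  have hne := Dt.H0_ne_zero hb c hli hi0
  have hvfin := finite_vertSupp hb c hne
  obtain ⟨p, hpZ, hpav⟩ := exists_pt_avoiding Z hvfin.toFinset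
  obtain ⟨x, z⟩ := p
  obtain ⟨π, hπ0, hπZ, hπo⟩ := Dt.X2.exists_localEq Z (x, z) hpZ
  have h := (Dv.eSec_aux hb c hli hV hi0 hrel x z hπ0
    (Dt.X3.M.ord (Dt.p12m.pull Z) (Dt.H0 hb c)) fun Z' hZ' => ?_).2 Z hpZ
  · rw [h, hπZ, mul_one]
  · by_cases hZZ : Z' = Z
    · subst hZZ
      rw [hπZ, mul_one]
    · rw [hπo Z' hZZ hZ', mul_zero]
      by_contra hne0
      exact hpav Z' (hvfin.mem_toFinset.2 hne0) hZZ hZ'

/-- **(Q2')**: the function `H` on `A³` with divisor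
`(x+y)^*D + (z+y)^*D + (y-x-z)^*D - 3 y^*D - x^*D - z^*D - (x+z)^*D`. -/
theorem exists_H : ∃ H : F3, H ≠ 0 ∧ ∀ W : Dt.X3.M.ι, Dt.X3.M.ord W H = Dt.paraDiv Dv.D W := by
  obtain ⟨N, hb, c, hli, hV, _, hi0, hrel⟩ := Dv.exists_c
  have hrel' : Dv.Rel hb c := hrel
  have hne := Dt.H0_ne_zero hb c hli hi0
  have he := Dv.eSec_ne_zero hb c hli hV hi0 hrel'
  have hPe : Dt.P12 (eSec (Dt := Dt) hb c)⁻¹ ≠ 0 := algHom_ne_zero _ (inv_ne_zero he)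
  refine ⟨Dt.H0 hb c * Dt.P12 (eSec (Dt := Dt) hb c)⁻¹, mul_ne_zero hne hPe, fun W => ?_⟩
  rw [Dt.X3.M.ord_mul W hne hPe]
  unfold ParaData.paraDiv
  by_cases hv : W ∈ Set.range Dt.p12m.pull
  · obtain ⟨Z, rfl⟩ := hv
    rw [Dt.p12m.ord_pull, Dt.X2.M.ord_inv Z he, Dv.ord_eSec hb c hli hV hi0 hrel' Z,
      Dt.horDiv_vert, Dt.p12m.pullDiv_pull]
    ring
  · rw [Dt.p12m.ord_other W hv _ (inv_ne_zero he), Dv.ord_H0_eq hb c hli hV hi0 hrel' hv,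
      Dt.p12m.pullDiv_of_not_mem _ hv]
    ring

end DivData

end Fermat.Agent.S26lib.Para
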