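/-
S26lib / Para / Square  (helper2)  --  Project K (S26), step (Q1'): from the theorem of the square
on a non-thin set of closed points to the pointwise input of (Q2').

`SqRel D x w` : `D_{x+w} + D - D_x - D_w` is principal.  The set `G1` of the `x` with
`SqRel D x w` for ALL `w` is closed under addition (cocycle identity); if it contains a non-thin
set `Γ` (the closed points of the curves through `0`, by the cube for `C × A × A`), then
`S = G1 × G1` is non-thin in `A²` (Fubini) and every `(x,z) ∈ S` carries a function with divisor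
`D_x + D_z + D_{-x-z} - 3D`.  Conclusion: `exists_H_of_square`.
-/
import Fermat.Agent.S26lib.Para.Vertical

set_option autoImplicit false

noncomputable section

namespace Fermat.Agent.S26lib.Para

open Fermat.Agent.S26lib

universe u

namespace VarModel

variable {K F : Type u} [Field K] [Field F] [Algebra K F] {P : Type u} (X : VarModel K F P)

/-- a prime divisor is determined by its closed points -/
theorem eq_of_thr_eq {Y Y' : X.M.ι} (h : X.thr Y' = X.thr Y) : Y' = Y := by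
  by_contra hne
  apply X.not_thinIn_thr Y
  have := X.thinIn_inter Y Y' hne
  rwa [h, Set.inter_self] at this

end VarModel

namespace ParaData

variable {K F1 F2 F3 : Type u} [Field K] [Field F1] [Field F2] [Field F3]
  [Algebra K F1] [Algebra K F2] [Algebra K F3] {P : Type u} [AddCommGroup P]
  (Dt : ParaData K F1 F2 F3 P)

theorem perm_zero (Y : Dt.X1.M.ι) : (Dt.τm 0).perm Y = Y := by
  apply Dt.X1.eq_of_thr_eq
  ext a
  rw [Dt.mem_thr_perm, add_zero]

theorem trD_zero (D : Dt.X1.M.ι → ℤ) : Dt.trD D 0 = D := by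
  funext Y
  have h := Dt.trD_perm D 0 Y
  rwa [Dt.perm_zero] at h

/-- `D_{x+w} + D - D_x - D_w` is principal -/
def SqRel (D : Dt.X1.M.ι → ℤ) (x w : P) : Prop :=
  ∃ g : F1, g ≠ 0 ∧ ∀ Y, Dt.X1.M.ord Y g =
    Dt.trD D (x + w) Y + D Y - Dt.trD D x Y - Dt.trD D w Y

/-- the points which satisfy the theorem of the square against all `w` -/
def G1 (D : Dt.X1.M.ι → ℤ) : Set P := {x | ∀ w, Dt.SqRel D x w}

theorem G1_add (D : Dt.X1.M.ι → ℤ) {x x' : P} (hx : x ∈ Dt.G1 D) (hx' : x' ∈ Dt.G1 D) :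
    x + x' ∈ Dt.G1 D := by
  intro w
  obtain ⟨g1, h10, h1⟩ := hx (x' + w)
  obtain ⟨g2, h20, h2⟩ := hx' w
  obtain ⟨g3, h30, h3⟩ := hx x'
  refine ⟨g1 * g2 / g3, div_ne_zero (mul_ne_zero h10 h20) h30, fun Y => ?_⟩
  rw [DivModelAux.ord_div Dt.X1.M Y (mul_ne_zero h10 h20) h30, Dt.X1.M.ord_mul Y h10 h20,
    h1 Y, h2 Y, h3 Y, add_assoc x x' w]
  ring

/-- Fubini: the square of a non-thin set is non-thin -/
theorem not_thin_prod_self {G : Set P} (hG : ¬ Dt.X1.thin G) : ¬ Dt.X2.thin (G ×ˢ G) := by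
  intro hthin
  apply hG
  refine Dt.X1.thin_mono ?_ (Dt.thin_prod _ hthin)
  intro x hx
  show ¬ Dt.X1.thin {z | (x, z) ∈ G ×ˢ G}
  intro h
  apply hG
  refine Dt.X1.thin_mono ?_ h
  intro z hz
  exact ⟨hx, hz⟩

/-- the function of (Q1') at a pair of points of `G1` -/
theorem exists_h_of_G1 (D : Dt.X1.M.ι → ℤ) {x z : P} (hx : x ∈ Dt.G1 D) (hz : z ∈ Dt.G1 D) :
    ∃ h : F1, h ≠ 0 ∧ ∀ Y, Dt.X1.M.ord Y h =
      Dt.trD D x Y + Dt.trD D z Y + Dt.trD D (-x - z) Y - 3 * D Y := by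
  obtain ⟨g1, h10, h1⟩ := hx z
  obtain ⟨g2, h20, h2⟩ := Dt.G1_add D hx hz (-x - z)
  refine ⟨(g1 * g2)⁻¹, inv_ne_zero (mul_ne_zero h10 h20), fun Y => ?_⟩
  rw [Dt.X1.M.ord_inv Y (mul_ne_zero h10 h20), Dt.X1.M.ord_mul Y h10 h20, h1 Y, h2 Y]
  have e : x + z + (-x - z) = 0 := by abel
  rw [e, Dt.trD_zero]
  ring

/-- **(Q1') + (Q2')**: if the theorem of the square holds on a non-thin set of closed points `Γ`,
the three-translate function `H` on `A³` exists. -/
theorem exists_H_of_square (D : Dt.X1.M.ι → ℤ) (D_nonneg : ∀ Y, 0 ≤ D Y) (D_le_one : ∀ Y, D Y ≤ 1)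
    (D_finite : {Y | D Y ≠ 0}.Finite) (D_symm : ∀ Y, D (Dt.νm.perm Y) = D Y)
    (D_zero : ∀ Y, D Y ≠ 0 → (0 : P) ∉ Dt.X1.thr Y)
    (finL : Module.Finite K (Dt.X1.M.L (fun Y => 3 * D Y)))
    (Γ : Set P) (hΓ : ¬ Dt.X1.thin Γ) (hsq : ∀ x ∈ Γ, ∀ w, Dt.SqRel D x w) :
    ∃ H : F3, H ≠ 0 ∧ ∀ W : Dt.X3.M.ι, Dt.X3.M.ord W H = Dt.paraDiv D W := by
  have hG : ¬ Dt.X1.thin (Dt.G1 D) := fun h => hΓ (Dt.X1.thin_mono (fun x hx => hsq x hx) h)
  let Dv : DivData Dt :=
    { D := D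
      D_nonneg := D_nonneg
      D_le_one := D_le_one
      D_finite := D_finite
      D_symm := D_symm
      D_zero := D_zero
      finL := finL
      S := Dt.G1 D ×ˢ Dt.G1 D
      S_not_thin := Dt.not_thin_prod_self hG
      exists_h := fun p hp => Dt.exists_h_of_G1 D hp.1 hp.2 }
  exact Dv.exists_H

end ParaData

end Fermat.Agent.S26lib.Para
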