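/-
S26lib / Para / DivOfScheme  (helper2)  --  Project K (S26): the divisor side of the assembly and
the final statement of block (Q) in scheme terms.

`D := Weil.D L` (the reduced divisor `A ∖ U₀`, helper9) satisfies the hypotheses of
`ParaData.exists_H_of_square` for `Dt := ParaData.ofScheme hc I`: reduced, effective, finite
support, symmetric, `0 ∉ Supp D`, and `L(3D)` finite dimensional (helper5's `Growth.upper` with
helper4's `growthHyp_abelian`).  Hence: the theorem of the square on a non-thin set of rational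
points gives the parallelogram function `H` on `A³` (`exists_H_ofScheme`).
-/
import Fermat.Agent.S26lib.Para.OfScheme
import Fermat.Agent.S26lib.Para.Square
import Fermat.Agent.S26lib.Quad.AbelianD
import Fermat.Agent.S26lib.P5a.Abelian
import Fermat.Agent.S26lib.Growth.FromHyp

set_option autoImplicit false
set_option linter.style.haveILetI false
set_option linter.unusedSectionVars false

noncomputable section

namespace Fermat.Agent.S26lib.Para

open CategoryTheory CategoryTheory.Limits AlgebraicGeometry NeronModelInfra GoodReductionJacobian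
open Fermat.Agent.S26lib

universe u

variable {K : Type u} [Field K] [IsAlgClosed K] {A : Scheme.{u}}
  {f : A ⟶ Spec (CommRingCat.of K)}
  [IsIntegral A] [IsNoetherian A] [IsIntegral (Prod.A2 f)] [IsNoetherian (Prod.A2 f)]
  [IsIntegral (Prod.A3 f)] [IsNoetherian (Prod.A3 f)] [Smooth f]

section Div

variable (L : RelativeGroupLaw K f)

/-- the divisor `D = A ∖ U₀`, integer valued -/
def DZ : Weil.PrimeDiv A → ℤ := fun Y => (Weil.D L Y : ℤ)

theorem DZ_nonneg (Y : Weil.PrimeDiv A) : 0 ≤ DZ L Y := Int.natCast_nonneg _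

theorem D_le_one' (Y : Weil.PrimeDiv A) : Weil.D L Y ≤ 1 := by
  classical
  rw [Weil.D_apply]
  split_ifs <;> omega

theorem DZ_le_one (Y : Weil.PrimeDiv A) : DZ L Y ≤ 1 := by
  have h := D_le_one' L Y
  unfold DZ
  omega

theorem DZ_ne_zero_iff (Y : Weil.PrimeDiv A) : DZ L Y ≠ 0 ↔ Y.1 ∉ Weil.U₀ L := by
  unfold DZ
  rw [Ne, Int.natCast_eq_zero, Weil.D_eq_zero_iff]

theorem DZ_finite : {Y : Weil.PrimeDiv A | DZ L Y ≠ 0}.Finite := by
  refine (Quad.finite_offU₀ L).subset ?_
  intro Y hY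
  exact (DZ_ne_zero_iff L Y).1 hY

/-- `D` only depends on the membership of the generic point of the prime divisor in `U₀` -/
theorem DZ_congr {Y Y' : Weil.PrimeDiv A} (h : Y.1 ∈ Weil.U₀ L ↔ Y'.1 ∈ Weil.U₀ L) :
    DZ L Y = DZ L Y' := by
  classical
  unfold DZ
  rw [Weil.D_apply, Weil.D_apply]
  by_cases h1 : Y.1 ∈ Weil.U₀ L
  · rw [if_pos h1, if_pos (h.1 h1)]
  · rw [if_neg h1, if_neg (fun h2 => h1 (h.2 h2))]

/-- the underlying point of the zero of the group of rational points is the origin -/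
theorem pt_one : VarSch.KPt.pt (f := f) (L.one (𝟙 _)) = Weil.zeroPt L := by
  show (L.one (𝟙 _)).1 (IsLocalRing.closedPoint K) = (NMul.oneHom L) (Weil.specPt K)
  exact congrArg (fun t => (L.one (𝟙 _)).1 t) (Subsingleton.elim (α := PrimeSpectrum K) _ _)

end Div

section Final

variable {L : RelativeGroupLaw K f} (hc : L.IsCommutative) [IsProper f]

theorem ofScheme_νm_perm (I : MapInputs L) :
    letI := kAlgebraFF f
    letI := kAlgebraFF (Prod.f2 f)
    letI := kAlgebraFF (Prod.f3 f)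
    (ParaData.ofScheme hc I).νm.perm = VarSch.autPerm (Weil.negIso L) := by
  letI := kAlgebraFF f
  show (nuM L hc).perm = _
  unfold nuM
  rw [AutModel.copy_perm]
  rfl

theorem ofScheme_τm_perm (I : MapInputs L) (a : Pts L hc) :
    letI := kAlgebraFF f
    letI := kAlgebraFF (Prod.f2 f)
    letI := kAlgebraFF (Prod.f3 f)
    ((ParaData.ofScheme hc I).τm a).perm = VarSch.autPerm (NMul.transIso L a.kpt) := by
  letI := kAlgebraFF f
  show (tauM L hc a).perm = _
  unfold tauM
  rw [AutModel.copy_perm]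
  rfl

/-- the translate `t_a^* D` of `D`, in scheme terms -/
def trDZ (L : RelativeGroupLaw K f) (a : VarSch.KPt f) : Weil.PrimeDiv A → ℤ :=
  fun Y => DZ L ((VarSch.autPerm (NMul.transIso L a)).symm Y)

theorem ofScheme_trD (I : MapInputs L) (a : Pts L hc) :
    letI := kAlgebraFF f
    letI := kAlgebraFF (Prod.f2 f)
    letI := kAlgebraFF (Prod.f3 f)
    (ParaData.ofScheme hc I).trD (DZ L) a = trDZ L a.kpt := by
  letI := kAlgebraFF f
  letI := kAlgebraFF (Prod.f2 f)
  letI := kAlgebraFF (Prod.f3 f)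
  funext Y
  show DZ L (((ParaData.ofScheme hc I).τm a).perm.symm Y) = _
  rw [ofScheme_τm_perm]
  rfl

/-- **the theorem of the square for the pair `(x, w)`**, in scheme terms:
`t_{x+w}^* D + D - t_x^* D - t_w^* D` is principal -/
def SqRelSch (L : RelativeGroupLaw K f) (x w : VarSch.KPt f) : Prop :=
  ∃ g : A.functionField, g ≠ 0 ∧ ∀ Y : Weil.PrimeDiv A, Weil.ordAt Y g =
    trDZ L (L.mul (𝟙 _) x w) Y + DZ L Y - trDZ L x Y - trDZ L w Y

/-- the divisor of the parallelogram function, in terms of the models of the maps -/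
def paraDivSch (I : MapInputs L) : Weil.PrimeDiv (Prod.A3 f) → ℤ :=
  letI := kAlgebraFF f
  letI := kAlgebraFF (Prod.f2 f)
  letI := kAlgebraFF (Prod.f3 f)
  fun W => I.sig13m.pullDiv (DZ L) W + I.sig23m.pullDiv (DZ L) W + I.sigMm.pullDiv (DZ L) W -
    3 * I.pr3m.pullDiv (DZ L) W -
    I.p12m.pullDiv (fun Z => I.fstm.pullDiv (DZ L) Z + I.sndm.pullDiv (DZ L) Z +
      I.addm.pullDiv (DZ L) Z) W

theorem ofScheme_paraDiv (I : MapInputs L) :
    letI := kAlgebraFF f
    letI := kAlgebraFF (Prod.f2 f)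
    letI := kAlgebraFF (Prod.f3 f)
    (ParaData.ofScheme hc I).paraDiv (DZ L) = paraDivSch I := by
  letI := kAlgebraFF f
  letI := kAlgebraFF (Prod.f2 f)
  letI := kAlgebraFF (Prod.f3 f)
  haveI := isDominant_p12 L
  funext W
  have e1 : (ParaData.ofScheme hc I).a13m.pullDiv (DZ L) = I.sig13m.pullDiv (DZ L) :=
    mapModel3_pullDiv L hc (sig13_f L) I.sig13m (fun q => q.1 + q.2.2)
      (fun x z y => by rw [push_sig13_mk3]; rfl) (DZ L)
  have e2 : (ParaData.ofScheme hc I).a23m.pullDiv (DZ L) = I.sig23m.pullDiv (DZ L) :=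
    mapModel3_pullDiv L hc (sig23_f L) I.sig23m (fun q => q.2.1 + q.2.2)
      (fun x z y => by rw [push_sig23_mk3]; rfl) (DZ L)
  have e3 : (ParaData.ofScheme hc I).amm.pullDiv (DZ L) = I.sigMm.pullDiv (DZ L) :=
    mapModel3_pullDiv L hc (sigM_f L) I.sigMm (fun q => q.2.2 - q.1 - q.2.1)
      (fun x z y => by
        rw [push_sigM_mk3]
        show (Pts.mk y : Pts L hc) - (Pts.mk x + Pts.mk z) = Pts.mk y - Pts.mk x - Pts.mk z
        rw [sub_sub]) (DZ L)
  have e4 : (ParaData.ofScheme hc I).p3m.pullDiv (DZ L) = I.pr3m.pullDiv (DZ L) :=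
    mapModel3_pullDiv L hc pr3_f I.pr3m (fun q => q.2.2)
      (fun x z y => by rw [push_pr3_mk3]) (DZ L)
  have e5 : (ParaData.ofScheme hc I).q1m.pullDiv (DZ L) = I.fstm.pullDiv (DZ L) :=
    mapModel2_pullDiv L hc fst_f I.fstm (fun p => p.1) (fun x z => by rw [push_fst_mk2]) (DZ L)
  have e6 : (ParaData.ofScheme hc I).q2m.pullDiv (DZ L) = I.sndm.pullDiv (DZ L) :=
    mapModel2_pullDiv L hc snd_f I.sndm (fun p => p.2) (fun x z => by rw [push_snd_mk2]) (DZ L)
  have e7 : (ParaData.ofScheme hc I).qsm.pullDiv (DZ L) = I.addm.pullDiv (DZ L) :=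
    mapModel2_pullDiv L hc (Prod.addHom_comp L) I.addm (fun p => p.1 + p.2)
      (fun x z => by rw [push_addHom_mk2]; rfl) (DZ L)
  have e8 : ∀ E : Weil.PrimeDiv (Prod.A2 f) → ℤ,
      (ParaData.ofScheme hc I).p12m.pullDiv E = I.p12m.pullDiv E := fun E =>
    (MapModel.copy_pullDiv (I.p12m.congrPts (pe3 L hc) (pe2 L hc)) _ (p12_pt L hc) E).trans
      (MapModel.congrPts_pullDiv I.p12m _ _ E)
  show (ParaData.ofScheme hc I).horDiv (DZ L) W -
    (ParaData.ofScheme hc I).p12m.pullDiv ((ParaData.ofScheme hc I).vertDiv (DZ L)) W = _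
  unfold ParaData.horDiv ParaData.vertDiv paraDivSch
  rw [e1, e2, e3, e4, e5, e6, e7, e8]
  rfl

include hc in
/-- **BLOCK (Q), scheme form.**  For the abelian variety `(A, L)` of S26 and the reduced divisor
`D = A ∖ U₀`: if the theorem of the square holds for all pairs `(x, w)` with `x` in a set `Γ` of
rational points which is not contained in a proper closed subset, then there is a rational
function `H` on `A³` with divisor
`σ13^*D + σ23^*D + σ_-^*D - 3 p3^*D - p12^*(p1^*D + p2^*D + m^*D)`. -/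
theorem exists_H_ofScheme (hA : AbelianSchemePropertyBundle K f) (g : ℕ)
    [SmoothOfRelativeDimension g f] (I : MapInputs L) (Γ : Set (VarSch.KPt f))
    (hΓ : letI := kAlgebraFF f; ¬ (VarSch.ofSmooth f).thin Γ)
    (hsq : ∀ x ∈ Γ, ∀ w, SqRelSch L x w) :
    ∃ H : (Prod.A3 f).functionField, H ≠ 0 ∧
      ∀ W : Weil.PrimeDiv (Prod.A3 f), Weil.ordAt W H = paraDivSch I W := by
  letI := kAlgebraFF f
  letI := kAlgebraFF (Prod.f2 f)
  letI := kAlgebraFF (Prod.f3 f)
  have hG := P5a.growthHyp_abelian L hA g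
  obtain ⟨C, hC⟩ := Growth.upper (Weil.model f) (Weil.D L) g hG
  have finL : Module.Finite K ((ParaData.ofScheme hc I).X1.M.L (fun Y => 3 * DZ L Y)) :=
    (hC 3).1
  have D_symm : ∀ Y, DZ L ((ParaData.ofScheme hc I).νm.perm Y) = DZ L Y := by
    intro Y
    rw [ofScheme_νm_perm]
    apply DZ_congr
    show (Weil.neg L) Y.1 ∈ Weil.U₀ L ↔ _
    exact Quad.neg_mem_U₀_iff L Y.1
  have D_zero : ∀ Y, DZ L Y ≠ 0 → (0 : Pts L hc) ∉ (ParaData.ofScheme hc I).X1.thr Y := by
    intro Y hY h0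
    have h1 : Y.1 ⤳ VarSch.KPt.pt (f := f) (L.one (𝟙 _)) := h0
    rw [pt_one] at h1
    exact (DZ_ne_zero_iff L Y).1 hY
      (h1.mem_open (Weil.U₀ L).isOpen (Weil.zeroPt_mem_U₀ L))
  have hsq' : ∀ x ∈ (Γ : Set (Pts L hc)), ∀ w, (ParaData.ofScheme hc I).SqRel (DZ L) x w := by
    intro x hx w
    obtain ⟨g', hg0, hg⟩ := hsq x hx w
    refine ⟨g', hg0, fun Y => ?_⟩
    rw [ofScheme_trD, ofScheme_trD, ofScheme_trD]
    exact hg Y
  obtain ⟨H, hH0, hH⟩ := (ParaData.ofScheme hc I).exists_H_of_square (DZ L) (DZ_nonneg L)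
    (DZ_le_one L) (DZ_finite L) D_symm D_zero finL Γ hΓ hsq'
  refine ⟨H, hH0, fun W => ?_⟩
  rw [← ofScheme_paraDiv hc I]
  exact hH W

end Final

end Fermat.Agent.S26lib.Para
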