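/-
S26lib / Para / Setup  (helper2)  --  Project K (S26), step (Q2'): first consequences of the data.

* evaluation of the translated/pulled-back functions which define the linear conditions;
* distinctness of the pulled-back prime divisors of different maps;
* local equations of an effective divisor with finite support;
* support points of `D`, translates of `D`.
-/
import Fermat.Agent.S26lib.Para.Data

set_option autoImplicit false

noncomputable section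

namespace Fermat.Agent.S26lib.Para

open Fermat.Agent.S26lib

universe u

/-! ### Distinctness of pulled-back prime divisors -/

namespace MapModel

variable {K FX F1 F2 : Type u} [Field K] [Field FX] [Field F1] [Field F2] [Algebra K FX]
  [Algebra K F1] [Algebra K F2] {PX P1 P2 : Type u} {X : VarModel K FX PX}
  {Y1 : VarModel K F1 P1} {Y2 : VarModel K F2 P2} {φ1 : F1 →ₐ[K] FX} {φ2 : F2 →ₐ[K] FX}
  {pt1 : PX → P1} {pt2 : PX → P2}

/-- two maps which are jointly surjective on closed points have no common pulled-back prime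
divisor -/
theorem pull_ne_pull (m : MapModel X Y1 φ1 pt1) (m' : MapModel X Y2 φ2 pt2)
    (hsurj : ∀ a b, ∃ q, pt1 q = a ∧ pt2 q = b) (Z : Y1.M.ι) (Z' : Y2.M.ι) :
    m.pull Z ≠ m'.pull Z' := by
  intro heq
  obtain ⟨a, ha⟩ := Y1.thr_nonempty Z
  obtain ⟨b, hb⟩ := Y2.exists_not_mem_thr Z'
  obtain ⟨q, rfl, rfl⟩ := hsurj a b
  have h1 : q ∈ X.thr (m.pull Z) := (m.thr_pull Z q).2 ha
  rw [heq] at h1
  exact hb ((m'.thr_pull Z' q).1 h1)

theorem pull_not_mem_range (m : MapModel X Y1 φ1 pt1) (m' : MapModel X Y2 φ2 pt2)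
    (hsurj : ∀ a b, ∃ q, pt1 q = a ∧ pt2 q = b) (Z : Y1.M.ι) :
    m.pull Z ∉ Set.range m'.pull := by
  rintro ⟨Z', hZ'⟩
  exact pull_ne_pull m m' hsurj Z Z' hZ'.symm

end MapModel

/-! ### Local equations of effective divisors -/

namespace VarModel

variable {K F : Type u} [Field K] [Field F] [Algebra K F] {P : Type u} (X : VarModel K F P)

/-- an effective divisor with finite support has a local equation at every closed point -/
theorem exists_localEq_div (D : X.M.ι → ℤ) (hD : ∀ Y, 0 ≤ D Y) (hfin : {Y | D Y ≠ 0}.Finite)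
    (a : P) : ∃ t : F, t ≠ 0 ∧ ∀ Y, a ∈ X.thr Y → X.M.ord Y t = D Y := by
  classical
  -- choose local equations of the components through `a`
  have hch : ∀ Y : X.M.ι, ∃ π : F, π ≠ 0 ∧ (a ∈ X.thr Y → X.M.ord Y π = 1 ∧
      ∀ Y', Y' ≠ Y → a ∈ X.thr Y' → X.M.ord Y' π = 0) := by
    intro Y
    by_cases hY : a ∈ X.thr Y
    · obtain ⟨π, h0, h1, h2⟩ := X.exists_localEq Y a hY
      exact ⟨π, h0, fun _ => ⟨h1, h2⟩⟩
    · exact ⟨1, one_ne_zero, fun h => (hY h).elim⟩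
  choose π hπ0 hπ using hch
  set s : Finset X.M.ι := hfin.toFinset.filter (fun Y => a ∈ X.thr Y) with hs
  refine ⟨∏ Y ∈ s, π Y ^ (D Y).toNat, ?_, ?_⟩
  · exact Finset.prod_ne_zero_iff.2 fun Y _ => pow_ne_zero _ (hπ0 Y)
  · intro Y hY
    rw [DivModelAux.ord_prod X.M Y s _ (fun Y' _ => pow_ne_zero _ (hπ0 Y'))]
    have hterm : ∀ Y' ∈ s, X.M.ord Y (π Y' ^ (D Y').toNat) = if Y' = Y then D Y else 0 := by
      intro Y' hY'
      have haY' : a ∈ X.thr Y' := (Finset.mem_filter.1 hY').2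
      rw [DivModelAux.ord_pow X.M Y (hπ0 Y')]
      by_cases h : Y' = Y
      · subst h
        rw [if_pos rfl, (hπ Y' haY').1, mul_one, Int.toNat_of_nonneg (hD Y')]
      · rw [if_neg h, (hπ Y' haY').2 Y (Ne.symm h) hY, mul_zero]
    rw [Finset.sum_congr rfl hterm, Finset.sum_ite_eq' s Y]
    by_cases hYs : Y ∈ s
    · rw [if_pos hYs]
    · rw [if_neg hYs]
      by_contra hne
      apply hYs
      rw [hs, Finset.mem_filter, Set.Finite.mem_toFinset]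
      exact ⟨fun h0 => hne h0.symm, hY⟩

/-- if the closed points of a prime divisor lie in a finite union of prime divisors, it is one of
them -/
theorem eq_of_thr_subset_biUnion (W : X.M.ι) (s : Finset X.M.ι)
    (h : X.thr W ⊆ ⋃ Y ∈ s, X.thr Y) : W ∈ s := by
  classical
  by_contra hW
  apply X.not_thinIn_thr W
  have h1 : X.thinIn W (⋃ Y ∈ s, X.thr W ∩ X.thr Y) := by
    refine X.thinIn_biUnion W s _ fun Y hY => X.thinIn_inter W Y ?_
    rintro rfl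
    exact hW hY
  refine X.thinIn_mono W ?_ h1
  intro a ha
  obtain ⟨Y, hY, haY⟩ := Set.mem_iUnion₂.1 (h ha)
  exact Set.mem_iUnion₂.2 ⟨Y, hY, ha, haY⟩

end VarModel

/-! ### Evaluation of translated functions -/

namespace ParaData

variable {K F1 F2 F3 : Type u} [Field K] [Field F1] [Field F2] [Field F3]
  [Algebra K F1] [Algebra K F2] [Algebra K F3] {P : Type u} [AddCommGroup P]
  (Dt : ParaData K F1 F2 F3 P)

theorem reg_τ {a y : P} {h : F1} (hr : Dt.X1.Reg (y + a) h) : Dt.X1.Reg y (Dt.τ a h) :=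
  (Dt.τm a).reg_aut (a := y) hr

theorem ev_τ {a y : P} {h : F1} (hr : Dt.X1.Reg (y + a) h) :
    Dt.X1.ev y (Dt.τ a h) = Dt.X1.ev (y + a) h :=
  (Dt.τm a).ev_aut y h hr

theorem reg_ν {y : P} {h : F1} (hr : Dt.X1.Reg (-y) h) : Dt.X1.Reg y (Dt.ν h) :=
  Dt.νm.reg_aut (a := y) hr

theorem ev_ν {y : P} {h : F1} (hr : Dt.X1.Reg (-y) h) :
    Dt.X1.ev y (Dt.ν h) = Dt.X1.ev (-y) h :=
  Dt.νm.ev_aut y h hr

/-- `(x,z) ↦ h (d - x)` -/
theorem reg_lam1 (x z d : P) {h : F1} (hr : Dt.X1.Reg (d - x) h) :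
    Dt.X2.Reg (x, z) (Dt.Q1 (Dt.ν (Dt.τ d h))) := by
  refine Dt.q1m.reg_map (q := (x, z)) (Dt.reg_ν (Dt.reg_τ ?_))
  rwa [neg_add_eq_sub]

theorem ev_lam1 (x z d : P) {h : F1} (hr : Dt.X1.Reg (d - x) h) :
    Dt.X2.ev (x, z) (Dt.Q1 (Dt.ν (Dt.τ d h))) = Dt.X1.ev (d - x) h := by
  have h1 : Dt.X1.Reg (-x + d) h := by rwa [neg_add_eq_sub]
  rw [Dt.q1m.ev_map (x, z) _ (Dt.reg_ν (Dt.reg_τ h1)), Dt.ev_ν (Dt.reg_τ h1), Dt.ev_τ h1,
    neg_add_eq_sub]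

/-- `(x,z) ↦ h (d - z)` -/
theorem reg_lam2 (x z d : P) {h : F1} (hr : Dt.X1.Reg (d - z) h) :
    Dt.X2.Reg (x, z) (Dt.Q2 (Dt.ν (Dt.τ d h))) := by
  refine Dt.q2m.reg_map (q := (x, z)) (Dt.reg_ν (Dt.reg_τ ?_))
  rwa [neg_add_eq_sub]

theorem ev_lam2 (x z d : P) {h : F1} (hr : Dt.X1.Reg (d - z) h) :
    Dt.X2.ev (x, z) (Dt.Q2 (Dt.ν (Dt.τ d h))) = Dt.X1.ev (d - z) h := by
  have h1 : Dt.X1.Reg (-z + d) h := by rwa [neg_add_eq_sub]
  rw [Dt.q2m.ev_map (x, z) _ (Dt.reg_ν (Dt.reg_τ h1)), Dt.ev_ν (Dt.reg_τ h1), Dt.ev_τ h1,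
    neg_add_eq_sub]

/-- `(x,z) ↦ h (x + z + d)` -/
theorem reg_lam3 (x z d : P) {h : F1} (hr : Dt.X1.Reg (x + z + d) h) :
    Dt.X2.Reg (x, z) (Dt.Qs (Dt.τ d h)) :=
  Dt.qsm.reg_map (q := (x, z)) (Dt.reg_τ hr)

theorem ev_lam3 (x z d : P) {h : F1} (hr : Dt.X1.Reg (x + z + d) h) :
    Dt.X2.ev (x, z) (Dt.Qs (Dt.τ d h)) = Dt.X1.ev (x + z + d) h := by
  rw [Dt.qsm.ev_map (x, z) _ (Dt.reg_τ hr), Dt.ev_τ hr]

/-! ### translates -/

theorem trD_perm (D : Dt.X1.M.ι → ℤ) (a : P) (Y : Dt.X1.M.ι) :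
    Dt.trD D a ((Dt.τm a).perm Y) = D Y :=
  (Dt.τm a).pullDiv_perm D Y

theorem trD_apply (D : Dt.X1.M.ι → ℤ) (a : P) (Z : Dt.X1.M.ι) :
    Dt.trD D a Z = D ((Dt.τm a).perm.symm Z) := rfl

/-- `y ∈ Y - a ↔ y + a ∈ Y` -/
theorem mem_thr_perm (a y : P) (Y : Dt.X1.M.ι) :
    y ∈ Dt.X1.thr ((Dt.τm a).perm Y) ↔ y + a ∈ Dt.X1.thr Y :=
  (Dt.τm a).thr_perm Y y

theorem mem_thr_perm_symm (a y : P) (Z : Dt.X1.M.ι) :
    y + a ∈ Dt.X1.thr ((Dt.τm a).perm.symm Z) ↔ y ∈ Dt.X1.thr Z :=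
  (Dt.τm a).mem_thr_symm Z y

theorem trD_nonneg {D : Dt.X1.M.ι → ℤ} (hD : ∀ Y, 0 ≤ D Y) (a : P) (Z : Dt.X1.M.ι) :
    0 ≤ Dt.trD D a Z := hD _

theorem trD_le_one {D : Dt.X1.M.ι → ℤ} (hD : ∀ Y, D Y ≤ 1) (a : P) (Z : Dt.X1.M.ι) :
    Dt.trD D a Z ≤ 1 := hD _

/-- `τ_a` of a local equation of `D` at `y + a` is a local equation of `D_a` at `y` -/
theorem ord_τ_localEq {D : Dt.X1.M.ι → ℤ} {a y : P} {t : F1}
    (hloc : ∀ Y, y + a ∈ Dt.X1.thr Y → Dt.X1.M.ord Y t = D Y) (Z : Dt.X1.M.ι)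
    (hZ : y ∈ Dt.X1.thr Z) : Dt.X1.M.ord Z (Dt.τ a t) = Dt.trD D a Z :=
  (Dt.τm a).ord_aut_localEq (a := y) hloc Z hZ

/-- thin sets are stable under translation and inversion -/
theorem thin_add (T : Set P) (hT : Dt.X1.thin T) (a : P) : Dt.X1.thin {x | x + a ∈ T} :=
  (Dt.τm a).thin_preimage T hT

theorem thin_neg (T : Set P) (hT : Dt.X1.thin T) : Dt.X1.thin {x | -x ∈ T} :=
  Dt.νm.thin_preimage T hT

end ParaData

end Fermat.Agent.S26lib.Para
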