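/-
S26lib / Para / Generic  (helper2)  --  Project K (S26), step (Q2'): generic position.

For `(x,z)` outside a thin subset of `A²` the four divisors `D, D_x, D_z, D_{-x-z}` have pairwise
no common component (`DivData.Gen`).  Support of `D`, regularity of the elements of `L(3D)` off the
support.
-/
import Fermat.Agent.S26lib.Para.Setup

set_option autoImplicit false

noncomputable section

namespace Fermat.Agent.S26lib.Para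

open Fermat.Agent.S26lib

universe u

namespace ParaData

variable {K F1 F2 F3 : Type u} [Field K] [Field F1] [Field F2] [Field F3]
  [Algebra K F1] [Algebra K F2] [Algebra K F3] {P : Type u} [AddCommGroup P]
  (Dt : ParaData K F1 F2 F3 P)

/-- a chosen closed point of a prime divisor -/
def ptOf (Y : Dt.X1.M.ι) : P := (Dt.X1.thr_nonempty Y).choose

theorem ptOf_mem (Y : Dt.X1.M.ι) : Dt.ptOf Y ∈ Dt.X1.thr Y := (Dt.X1.thr_nonempty Y).choose_spec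

/-- the explicit thin set containing the non-generic parameters -/
def badSet (Y1 Y2 : Dt.X1.M.ι) : Set (P × P) :=
  {p | p.1 + Dt.ptOf Y2 ∈ Dt.X1.thr Y1} ∪ {p | p.2 + Dt.ptOf Y2 ∈ Dt.X1.thr Y1} ∪
  {p | -(p.1 + p.2) + Dt.ptOf Y2 ∈ Dt.X1.thr Y1} ∪
  {p | (p.1 - p.2) + Dt.ptOf Y2 ∈ Dt.X1.thr Y1} ∪
  {p | (p.1 + p.1 + p.2) + Dt.ptOf Y2 ∈ Dt.X1.thr Y1} ∪
  {p | (p.1 + p.2 + p.2) + Dt.ptOf Y2 ∈ Dt.X1.thr Y1}

theorem thin_badSet (Y1 Y2 : Dt.X1.M.ι) : Dt.X2.thin (Dt.badSet Y1 Y2) := by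
  have hT := Dt.thin_add _ (Dt.X1.thin_thr Y1) (Dt.ptOf Y2)
  have hT' := Dt.thin_neg _ hT
  refine Dt.X2.thin_union (Dt.X2.thin_union (Dt.X2.thin_union (Dt.X2.thin_union
    (Dt.X2.thin_union ?_ ?_) ?_) ?_) ?_) ?_
  · exact Dt.q1m.thin_preimage _ hT
  · exact Dt.q2m.thin_preimage _ hT
  · exact Dt.qsm.thin_preimage _ hT'
  · exact Dt.qdm.thin_preimage _ hT
  · exact Dt.qam.thin_preimage _ hT
  · exact Dt.qbm.thin_preimage _ hT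

end ParaData

namespace DivData

variable {K F1 F2 F3 : Type u} [Field K] [Field F1] [Field F2] [Field F3]
  [Algebra K F1] [Algebra K F2] [Algebra K F3] {P : Type u} [AddCommGroup P]
  {Dt : ParaData K F1 F2 F3 P} (Dv : DivData Dt)

/-- the support of `D` -/
def supp : Finset Dt.X1.M.ι := Dv.D_finite.toFinset

theorem mem_supp {Y : Dt.X1.M.ι} : Y ∈ Dv.supp ↔ Dv.D Y ≠ 0 := by
  simp [supp]

theorem D_eq_one {Y : Dt.X1.M.ι} (h : Dv.D Y ≠ 0) : Dv.D Y = 1 := by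
  have h1 := Dv.D_nonneg Y
  have h2 := Dv.D_le_one Y
  omega

theorem D_eq_zero_or_one (Y : Dt.X1.M.ι) : Dv.D Y = 0 ∨ Dv.D Y = 1 := by
  have h1 := Dv.D_nonneg Y
  have h2 := Dv.D_le_one Y
  omega

theorem trD_eq_zero_or_one (a : P) (Y : Dt.X1.M.ι) :
    Dt.trD Dv.D a Y = 0 ∨ Dt.trD Dv.D a Y = 1 :=
  Dv.D_eq_zero_or_one _

/-- the closed points of the support -/
def suppPts : Set P := ⋃ Y ∈ Dv.supp, Dt.X1.thr Y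

theorem mem_suppPts {a : P} : a ∈ Dv.suppPts ↔ ∃ Y, Dv.D Y ≠ 0 ∧ a ∈ Dt.X1.thr Y := by
  simp only [suppPts, Set.mem_iUnion, exists_prop, mem_supp]

theorem thin_suppPts : Dt.X1.thin Dv.suppPts :=
  Dt.X1.thin_biUnion Dv.supp _ fun Y _ => Dt.X1.thin_thr Y

theorem D_eq_zero_of_not_mem {a : P} (ha : a ∉ Dv.suppPts) {Y : Dt.X1.M.ι}
    (hY : a ∈ Dt.X1.thr Y) : Dv.D Y = 0 := by
  by_contra h
  exact ha (Dv.mem_suppPts.2 ⟨Y, h, hY⟩)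

theorem zero_not_mem_suppPts : (0 : P) ∉ Dv.suppPts := by
  intro h
  obtain ⟨Y, hY, h0⟩ := Dv.mem_suppPts.1 h
  exact Dv.D_zero Y hY h0

/-- the space `L(3D)` -/
def V : Submodule K F1 := Dt.X1.M.L (fun Y => 3 * Dv.D Y)

theorem mem_V {h : F1} : h ∈ Dv.V ↔ h = 0 ∨ ∀ Y, -(3 * Dv.D Y) ≤ Dt.X1.M.ord Y h := Iff.rfl

theorem reg_of_mem_V {h : F1} (hh : h ∈ Dv.V) {a : P} (ha : a ∉ Dv.suppPts) :
    Dt.X1.Reg a h := by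
  rcases hh with rfl | hh
  · exact Dt.X1.reg_zero a
  · refine Or.inr fun Y hY => ?_
    have h3 : -(3 * Dv.D Y) ≤ Dt.X1.M.ord Y h := hh Y
    rw [Dv.D_eq_zero_of_not_mem ha hY] at h3
    simpa using h3

/-- **generic position** of the parameter `(x,z)`: the divisors `D, D_x, D_z, D_{-x-z}` have
pairwise no common component -/
def Gen (p : P × P) : Prop :=
  ∀ Y, Dv.D Y + Dt.trD Dv.D p.1 Y + Dt.trD Dv.D p.2 Y + Dt.trD Dv.D (-p.1 - p.2) Y ≤ 1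

theorem thin_biUnion_badSet : Dt.X2.thin (⋃ Y1 ∈ Dv.supp, ⋃ Y2 ∈ Dv.supp, Dt.badSet Y1 Y2) :=
  Dt.X2.thin_biUnion Dv.supp _ fun Y1 _ =>
    Dt.X2.thin_biUnion Dv.supp _ fun Y2 _ => Dt.thin_badSet Y1 Y2

/-- key step: two translates (by `a` and `b`) of `D` with a common component -/
theorem mem_thr_of_common {a b : P} {Y : Dt.X1.M.ι}
    (ha : Dt.trD Dv.D a Y ≠ 0) (hb : Dt.trD Dv.D b Y ≠ 0) :
    ∃ Y1 ∈ Dv.supp, ∃ Y2 ∈ Dv.supp, (a - b) + Dt.ptOf Y2 ∈ Dt.X1.thr Y1 := by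
  refine ⟨(Dt.τm a).perm.symm Y, Dv.mem_supp.2 ha, (Dt.τm b).perm.symm Y, Dv.mem_supp.2 hb, ?_⟩
  set Y2 := (Dt.τm b).perm.symm Y with hY2
  have h1 : Dt.ptOf Y2 - b ∈ Dt.X1.thr Y := by
    rw [← Dt.mem_thr_perm_symm b, sub_add_cancel]
    exact Dt.ptOf_mem Y2
  have h2 := (Dt.mem_thr_perm_symm a (Dt.ptOf Y2 - b) Y).2 h1
  have heq : Dt.ptOf Y2 - b + a = a - b + Dt.ptOf Y2 := by abel
  rwa [heq] at h2

/-- `D` and a translate (by `a`) of `D` with a common component -/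
theorem mem_thr_of_common0 {a : P} {Y : Dt.X1.M.ι}
    (h0 : Dv.D Y ≠ 0) (ha : Dt.trD Dv.D a Y ≠ 0) :
    ∃ Y1 ∈ Dv.supp, ∃ Y2 ∈ Dv.supp, a + Dt.ptOf Y2 ∈ Dt.X1.thr Y1 := by
  refine ⟨(Dt.τm a).perm.symm Y, Dv.mem_supp.2 ha, Y, Dv.mem_supp.2 h0, ?_⟩
  have h2 := (Dt.mem_thr_perm_symm a (Dt.ptOf Y) Y).2 (Dt.ptOf_mem Y)
  rwa [add_comm] at h2

theorem thin_not_gen : Dt.X2.thin {p | ¬ Dv.Gen p} := by
  refine Dt.X2.thin_mono ?_ Dv.thin_biUnion_badSet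
  intro p hp
  simp only [Set.mem_ofPred_eq, Gen, not_forall, not_le] at hp
  obtain ⟨Y, hY⟩ := hp
  have hcases : (Dv.D Y ≠ 0 ∧ Dt.trD Dv.D p.1 Y ≠ 0) ∨ (Dv.D Y ≠ 0 ∧ Dt.trD Dv.D p.2 Y ≠ 0) ∨
      (Dv.D Y ≠ 0 ∧ Dt.trD Dv.D (-p.1 - p.2) Y ≠ 0) ∨
      (Dt.trD Dv.D p.1 Y ≠ 0 ∧ Dt.trD Dv.D p.2 Y ≠ 0) ∨
      (Dt.trD Dv.D p.1 Y ≠ 0 ∧ Dt.trD Dv.D (-p.1 - p.2) Y ≠ 0) ∨
      (Dt.trD Dv.D p.2 Y ≠ 0 ∧ Dt.trD Dv.D (-p.1 - p.2) Y ≠ 0) := by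
    rcases Dv.D_eq_zero_or_one Y with h0 | h0 <;>
    rcases Dv.trD_eq_zero_or_one p.1 Y with h1 | h1 <;>
    rcases Dv.trD_eq_zero_or_one p.2 Y with h2 | h2 <;>
    rcases Dv.trD_eq_zero_or_one (-p.1 - p.2) Y with h3 | h3 <;>
    omega
  have hfin : ∀ Y1 ∈ Dv.supp, ∀ Y2 ∈ Dv.supp, p ∈ Dt.badSet Y1 Y2 →
      p ∈ ⋃ Y1 ∈ Dv.supp, ⋃ Y2 ∈ Dv.supp, Dt.badSet Y1 Y2 := fun Y1 hY1 Y2 hY2 h =>
    Set.mem_iUnion₂.2 ⟨Y1, hY1, Set.mem_iUnion₂.2 ⟨Y2, hY2, h⟩⟩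
  rcases hcases with ⟨h0, h1⟩ | ⟨h0, h2⟩ | ⟨h0, h3⟩ | ⟨h1, h2⟩ | ⟨h1, h3⟩ | ⟨h2, h3⟩
  · obtain ⟨Y1, hY1, Y2, hY2, hm⟩ := Dv.mem_thr_of_common0 h0 h1
    exact hfin Y1 hY1 Y2 hY2 (Or.inl (Or.inl (Or.inl (Or.inl (Or.inl hm)))))
  · obtain ⟨Y1, hY1, Y2, hY2, hm⟩ := Dv.mem_thr_of_common0 h0 h2
    exact hfin Y1 hY1 Y2 hY2 (Or.inl (Or.inl (Or.inl (Or.inl (Or.inr hm)))))
  · obtain ⟨Y1, hY1, Y2, hY2, hm⟩ := Dv.mem_thr_of_common0 h0 h3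
    refine hfin Y1 hY1 Y2 hY2 (Or.inl (Or.inl (Or.inl (Or.inr ?_))))
    have heq : -p.1 - p.2 + Dt.ptOf Y2 = -(p.1 + p.2) + Dt.ptOf Y2 := by abel
    rw [heq] at hm
    exact hm
  · obtain ⟨Y1, hY1, Y2, hY2, hm⟩ := Dv.mem_thr_of_common h1 h2
    exact hfin Y1 hY1 Y2 hY2 (Or.inl (Or.inl (Or.inr hm)))
  · obtain ⟨Y1, hY1, Y2, hY2, hm⟩ := Dv.mem_thr_of_common h1 h3
    refine hfin Y1 hY1 Y2 hY2 (Or.inl (Or.inr ?_))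
    have heq : p.1 - (-p.1 - p.2) + Dt.ptOf Y2 = p.1 + p.1 + p.2 + Dt.ptOf Y2 := by abel
    rw [heq] at hm
    exact hm
  · obtain ⟨Y1, hY1, Y2, hY2, hm⟩ := Dv.mem_thr_of_common h2 h3
    refine hfin Y1 hY1 Y2 hY2 (Or.inr ?_)
    have heq : p.2 - (-p.1 - p.2) + Dt.ptOf Y2 = p.1 + p.2 + p.2 + Dt.ptOf Y2 := by abel
    rw [heq] at hm
    exact hm

end DivData

end Fermat.Agent.S26lib.Para
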