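/-
S26lib / Para / LinAlg  (helper2)  --  Project K (S26), step (Q2), linear-algebra core.

`exists_relation`: the elementary substitute for the semicontinuity half of the seesaw principle.
A family of `F`-linear conditions `∑ i, c i * lam j i = 0` (`j : J`) on `c : Fin N → F` has a
non-zero solution over `F` as soon as, for every finite set of conditions and every finite set of
elements of `F`, there is a "point" `x` (a subring `O x ⊆ F` with a ring homomorphism
`ev x : O x →+* K` into a field) at which all these elements are regular and at which the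
SPECIALISED finite system has a non-zero solution.
-/
import Mathlib

set_option autoImplicit false

namespace Fermat.Agent.S26lib.Para

open Finset

section finiteSubsystem

variable {F : Type*} [Field F] {N : ℕ} {J : Type*}

/-- In a finite-dimensional space, a family of linear functionals with trivial common kernel on a
subspace `W` has a FINITE subfamily with trivial common kernel on `W`. -/
theorem exists_finset_ker_eq_bot (r : J → ((Fin N → F) →ₗ[F] F)) :
    ∀ (n : ℕ) (W : Submodule F (Fin N → F)), Module.finrank F W = n →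
      (∀ c ∈ W, c ≠ 0 → ∃ j, r j c ≠ 0) →
      ∃ J0 : Finset J, ∀ c ∈ W, (∀ j ∈ J0, r j c = 0) → c = 0 := by
  classical
  intro n
  induction n using Nat.strong_induction_on with
  | _ n ih =>
    intro W hW hsep
    by_cases hbot : W = ⊥
    · refine ⟨∅, fun c hc _ => ?_⟩
      rw [hbot] at hc
      exact (Submodule.mem_bot F).1 hc
    · obtain ⟨c0, hc0W, hc0⟩ := Submodule.exists_mem_ne_zero_of_ne_bot hbot
      obtain ⟨j0, hj0⟩ := hsep c0 hc0W hc0
      set W' : Submodule F (Fin N → F) := W ⊓ LinearMap.ker (r j0) with hW'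
      have hlt : W' < W := by
        refine lt_of_le_of_ne inf_le_left ?_
        intro heq
        have : c0 ∈ W' := heq ▸ hc0W
        exact hj0 (LinearMap.mem_ker.1 this.2)
      have hfin : Module.finrank F W' < n := by
        rw [← hW]
        exact Submodule.finrank_lt_finrank_of_lt hlt
      obtain ⟨J1, hJ1⟩ := ih _ hfin W' rfl (fun c hc hc0 => hsep c hc.1 hc0)
      refine ⟨insert j0 J1, fun c hc hall => ?_⟩
      refine hJ1 c ⟨hc, LinearMap.mem_ker.2 (hall j0 (mem_insert_self _ _))⟩ ?_
      intro j hj
      exact hall j (mem_insert_of_mem hj)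

end finiteSubsystem

section main

variable {K F : Type*} [Field K] [Field F] {N : ℕ} {J S : Type*}

/-- **Linear-algebra seesaw.**  `lam j i ∈ F` are the coefficients of the `j`-th condition.
Suppose that for every finite set `J0` of conditions and every finite set `T ⊆ F` there is a point
`x` at which all elements of `T` and all coefficients of the conditions in `J0` are regular, and
a non-zero `a : Fin N → K` solving the specialised conditions `∑ i, a i * ev x (lam j i) = 0`,
`j ∈ J0`.  Then the system has a non-zero solution over `F`. -/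
theorem exists_relation (lam : J → Fin N → F) (O : S → Subring F) (ev : ∀ x, O x →+* K)
    (hdense : ∀ (J0 : Finset J) (T : Finset F), ∃ x : S, (∀ f ∈ T, f ∈ O x) ∧
      ∃ hreg : ∀ j ∈ J0, ∀ i, lam j i ∈ O x, ∃ a : Fin N → K, a ≠ 0 ∧
        ∀ (j : J) (hj : j ∈ J0), ∑ i, a i * ev x ⟨lam j i, hreg j hj i⟩ = 0) :
    ∃ c : Fin N → F, c ≠ 0 ∧ ∀ j, ∑ i, c i * lam j i = 0 := by
  classical
  by_contra hcon
  push Not at hcon
  -- the functionals
  let r : J → ((Fin N → F) →ₗ[F] F) := fun j =>
    { toFun := fun c => ∑ i, c i * lam j i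
      map_add' := fun c c' => by simp [add_mul, Finset.sum_add_distrib]
      map_smul' := fun a c => by simp [Finset.mul_sum, mul_assoc] }
  have hr : ∀ j c, r j c = ∑ i, c i * lam j i := fun _ _ => rfl
  obtain ⟨J0, hJ0⟩ := exists_finset_ker_eq_bot r _ (⊤ : Submodule F (Fin N → F)) rfl
    (fun c _ hc => by
      obtain ⟨j, hj⟩ := hcon c hc
      exact ⟨j, hj⟩)
  -- the finite system `Λ : (Fin N → F) → (J0 → F)` is injective, take a left inverse
  let Λ : (Fin N → F) →ₗ[F] (J0 → F) := LinearMap.pi fun j => r j.1
  have hΛ : Function.Injective Λ := by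
    rw [← LinearMap.ker_eq_bot, LinearMap.ker_eq_bot']
    intro c hc
    refine hJ0 c trivial fun j hj => ?_
    have := congrFun hc ⟨j, hj⟩
    simpa [Λ] using this
  obtain ⟨B, hB⟩ := LinearMap.exists_leftInverse_of_injective Λ (LinearMap.ker_eq_bot.2 hΛ)
  -- matrix entries of the left inverse
  let b : Fin N → J0 → F := fun i j => B (Pi.single j 1) i
  have hBb : ∀ (w : J0 → F) (i : Fin N), B w i = ∑ j, w j * b i j := by
    intro w i
    have hw : w = ∑ j, w j • (Pi.single j (1 : F) : J0 → F) := by
      ext k
      simp [Finset.sum_apply, Pi.single_apply]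
    conv_lhs => rw [hw]
    simp [b, map_sum, Finset.sum_apply]
  -- the identity `∑ j, lam j i' * b i j = δ i i'`
  have hid : ∀ i i' : Fin N, ∑ j : J0, lam j.1 i' * b i j = if i = i' then 1 else 0 := by
    intro i i'
    have h1 : B (Λ (Pi.single i' 1)) = Pi.single i' 1 := by
      have := LinearMap.congr_fun hB (Pi.single i' (1 : F))
      simpa using this
    have h2 := congrFun h1 i
    rw [hBb] at h2
    have h3 : ∀ j : J0, Λ (Pi.single i' 1) j = lam j.1 i' := by
      intro j
      simp [Λ, hr, Pi.single_apply]
    simp only [h3] at h2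
    rw [h2, Pi.single_apply]
  -- choose the point
  obtain ⟨x, hT, hreg, a, ha, hsol⟩ := hdense J0
    ((Finset.univ : Finset (Fin N × J0)).image fun p => b p.1 p.2)
  have hbx : ∀ i j, b i j ∈ O x := fun i j =>
    hT _ (Finset.mem_image.2 ⟨(i, j), Finset.mem_univ _, rfl⟩)
  apply ha
  funext i
  -- apply `ev x` to `hid`
  have hev : ∀ i' : Fin N,
      ∑ j : J0, ev x ⟨lam j.1 i', hreg j.1 j.2 i'⟩ * ev x ⟨b i j, hbx i j⟩ =
        if i = i' then 1 else 0 := by
    intro i'
    have h2 : ∑ j : J0, (⟨lam j.1 i', hreg j.1 j.2 i'⟩ : O x) * ⟨b i j, hbx i j⟩ =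
        if i = i' then 1 else 0 := by
      apply (O x).subtype_injective
      rw [map_sum]
      simp only [map_mul, Subring.subtype_apply]
      rw [hid i i']
      split_ifs <;> simp
    have h3 := congrArg (ev x) h2
    rw [map_sum] at h3
    simp only [map_mul] at h3
    rw [h3]
    split_ifs <;> simp
  calc a i = ∑ i', a i' * (if i = i' then 1 else 0) := by simp
    _ = ∑ i', a i' * ∑ j : J0, ev x ⟨lam j.1 i', hreg j.1 j.2 i'⟩ * ev x ⟨b i j, hbx i j⟩ := by
        simp only [hev]
    _ = ∑ j : J0, (∑ i', a i' * ev x ⟨lam j.1 i', hreg j.1 j.2 i'⟩) * ev x ⟨b i j, hbx i j⟩ := by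
        simp only [Finset.mul_sum, Finset.sum_mul]
        rw [Finset.sum_comm]
        refine Finset.sum_congr rfl fun j _ => Finset.sum_congr rfl fun i' _ => ?_
        ring
    _ = 0 := by
        refine Finset.sum_eq_zero fun j _ => ?_
        rw [hsol j.1 j.2, zero_mul]
    _ = (0 : Fin N → K) i := rfl

end main

end Fermat.Agent.S26lib.Para
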