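/-
S26lib / Para / Relations  (helper2)  --  Project K (S26), step (Q2'), Steps 1-2.

A basis `hb` of `L(3D)` and coefficients `c i ∈ K(A²)`, normalised by `c i0 = 1`, such that the
function `(x,z,y) ↦ ∑ c_i(x,z) hb_i(y)` vanishes identically on `(x+y)^*D`, `(z+y)^*D`,
`(y-x-z)^*D`, in the form of the `K(A²)`-linear relations
`∑ c_i · [x ↦ hb_i(d - x)] = 0`, `∑ c_i · [z ↦ hb_i(d - z)] = 0`, `∑ c_i · [(x,z) ↦ hb_i(d+x+z)] = 0`
for all closed points `d` of `D`.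
-/
import Fermat.Agent.S26lib.Para.Generic
import Fermat.Agent.S26lib.Para.LinAlg

set_option autoImplicit false

noncomputable section

namespace Fermat.Agent.S26lib.Para

open Fermat.Agent.S26lib

universe u

namespace DivData

variable {K F1 F2 F3 : Type u} [Field K] [Field F1] [Field F2] [Field F3]
  [Algebra K F1] [Algebra K F2] [Algebra K F3] {P : Type u} [AddCommGroup P]
  {Dt : ParaData K F1 F2 F3 P} (Dv : DivData Dt)

theorem exists_basis : ∃ (N : ℕ) (hb : Fin N → F1), LinearIndependent K hb ∧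
    (∀ i, hb i ∈ Dv.V) ∧ ∀ f ∈ Dv.V, ∃ a : Fin N → K, f = ∑ i, a i • hb i := by
  have : Module.Finite K Dv.V := Dv.finL
  let b := Module.finBasis K Dv.V
  refine ⟨_, fun i => (b i : F1), ?_, fun i => (b i).2, ?_⟩
  · exact b.linearIndependent.map' Dv.V.subtype (Submodule.ker_subtype _)
  · intro f hf
    refine ⟨fun i => b.repr ⟨f, hf⟩ i, ?_⟩
    have h := b.sum_repr ⟨f, hf⟩
    have h2 := congrArg Dv.V.subtype h
    simp only [map_sum, map_smul, Submodule.subtype_apply] at h2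
    exact h2.symm

/-- sum of the translates -/
def sumTr (p : P × P) (Y : Dt.X1.M.ι) : ℤ :=
  Dt.trD Dv.D p.1 Y + Dt.trD Dv.D p.2 Y + Dt.trD Dv.D (-p.1 - p.2) Y

theorem sumTr_nonneg (p : P × P) (Y : Dt.X1.M.ι) : 0 ≤ Dv.sumTr p Y := by
  have h1 := Dt.trD_nonneg Dv.D_nonneg p.1 Y
  have h2 := Dt.trD_nonneg Dv.D_nonneg p.2 Y
  have h3 := Dt.trD_nonneg Dv.D_nonneg (-p.1 - p.2) Y
  unfold sumTr
  omega

/-- a function with divisor `D_x + D_z + D_{-x-z} - 3D` lies in `L(3D)` -/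
theorem mem_V_of_div {p : P × P} {h : F1}
    (hh : ∀ Y, Dt.X1.M.ord Y h = Dv.sumTr p Y - 3 * Dv.D Y) : h ∈ Dv.V := by
  refine Or.inr fun Y => ?_
  have := Dv.sumTr_nonneg p Y
  have h2 := hh Y
  show -(3 * Dv.D Y) ≤ _
  omega

theorem reg_of_div {p : P × P} {h : F1}
    (hh : ∀ Y, Dt.X1.M.ord Y h = Dv.sumTr p Y - 3 * Dv.D Y) {a : P} (ha : a ∉ Dv.suppPts) :
    Dt.X1.Reg a h :=
  Dv.reg_of_mem_V (Dv.mem_V_of_div hh) ha

/-- such a function vanishes at the points `a ∉ Supp D` of the translate `D_b`,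
`b ∈ {x, z, -x-z}` -/
theorem ev_eq_zero_of_div {p : P × P} {h : F1}
    (hh : ∀ Y, Dt.X1.M.ord Y h = Dv.sumTr p Y - 3 * Dv.D Y) {a : P} (ha : a ∉ Dv.suppPts)
    {b : P} (hb : b = p.1 ∨ b = p.2 ∨ b = -p.1 - p.2) (hab : a + b ∈ Dv.suppPts) :
    Dt.X1.ev a h = 0 := by
  obtain ⟨Y0, hY0, haY0⟩ := Dv.mem_suppPts.1 hab
  set W := (Dt.τm b).perm Y0 with hW
  have haW : a ∈ Dt.X1.thr W := (Dt.mem_thr_perm b a Y0).2 haY0
  have hDW : Dv.D W = 0 := Dv.D_eq_zero_of_not_mem ha haW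
  have htr : Dt.trD Dv.D b W = 1 := by
    rw [hW, Dt.trD_perm]
    exact Dv.D_eq_one hY0
  refine Dt.X1.ev_eq_zero_of_ord_pos (Dv.reg_of_div hh ha) haW ?_
  rw [hh W, hDW]
  have h1 := Dt.trD_nonneg Dv.D_nonneg p.1 W
  have h2 := Dt.trD_nonneg Dv.D_nonneg p.2 W
  have h3 := Dt.trD_nonneg Dv.D_nonneg (-p.1 - p.2) W
  unfold sumTr
  rcases hb with rfl | rfl | rfl <;> omega

/-! ### thin sets of parameters -/

theorem thin_sub_mem (T : Set P) (hT : Dt.X1.thin T) (d : P) : Dt.X1.thin {x | d - x ∈ T} := by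
  have h1 := Dt.thin_neg _ (Dt.thin_add T hT d)
  refine Dt.X1.thin_mono ?_ h1
  intro x hx
  simp only [Set.mem_ofPred_eq] at hx ⊢
  rwa [neg_add_eq_sub]

/-- the parameters at which a condition attached to `d` is not regular -/
def condBad (d : P) : Set (P × P) :=
  {p | d - p.1 ∈ Dv.suppPts} ∪ {p | d - p.2 ∈ Dv.suppPts} ∪ {p | p.1 + p.2 + d ∈ Dv.suppPts}

theorem thin_condBad (d : P) : Dt.X2.thin (Dv.condBad d) := by
  refine Dt.X2.thin_union (Dt.X2.thin_union ?_ ?_) ?_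
  · exact Dt.q1m.thin_preimage _ (thin_sub_mem _ Dv.thin_suppPts d)
  · exact Dt.q2m.thin_preimage _ (thin_sub_mem _ Dv.thin_suppPts d)
  · exact Dt.qsm.thin_preimage _ (Dt.thin_add _ Dv.thin_suppPts d)

/-- evaluation of a linear combination of regular functions -/
theorem ev_lincomb {N : ℕ} (hb : Fin N → F1) (a : Fin N → K) {y : P}
    (hr : ∀ i, Dt.X1.Reg y (hb i)) :
    Dt.X1.ev y (∑ i, a i • hb i) = ∑ i, a i * Dt.X1.ev y (hb i) := by
  rw [Dt.X1.ev_sum]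
  · exact Finset.sum_congr rfl fun i _ => Dt.X1.ev_smul y (a i) (hr i)
  · intro i _
    rw [Algebra.smul_def]
    exact Dt.X1.reg_mul (Dt.X1.reg_const y (a i)) (hr i)

/-- the conditions -/
def lam {N : ℕ} (hb : Fin N → F1) (j : {d : P // d ∈ Dv.suppPts} × Fin 3) (i : Fin N) : F2 :=
  ![Dt.Q1 (Dt.ν (Dt.τ j.1.1 (hb i))), Dt.Q2 (Dt.ν (Dt.τ j.1.1 (hb i))),
    Dt.Qs (Dt.τ j.1.1 (hb i))] j.2

theorem reg_lam {N : ℕ} (hb : Fin N → F1) (hV : ∀ i, hb i ∈ Dv.V)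
    (j : {d : P // d ∈ Dv.suppPts} × Fin 3) {p : P × P} (hp : p ∉ Dv.condBad j.1.1) (i : Fin N) :
    Dt.X2.Reg p (Dv.lam hb j i) := by
  obtain ⟨⟨d, hd⟩, k⟩ := j
  obtain ⟨x, z⟩ := p
  simp only [condBad, Set.mem_union, Set.mem_ofPred_eq, not_or] at hp
  obtain ⟨⟨h1, h2⟩, h3⟩ := hp
  fin_cases k
  · exact Dt.reg_lam1 x z d (Dv.reg_of_mem_V (hV i) h1)
  · exact Dt.reg_lam2 x z d (Dv.reg_of_mem_V (hV i) h2)
  · exact Dt.reg_lam3 x z d (Dv.reg_of_mem_V (hV i) h3)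

theorem ev_lam {N : ℕ} (hb : Fin N → F1) (hV : ∀ i, hb i ∈ Dv.V)
    (j : {d : P // d ∈ Dv.suppPts} × Fin 3) {p : P × P} (hp : p ∉ Dv.condBad j.1.1) (i : Fin N) :
    Dt.X2.ev p (Dv.lam hb j i) =
      Dt.X1.ev (![j.1.1 - p.1, j.1.1 - p.2, p.1 + p.2 + j.1.1] j.2) (hb i) := by
  obtain ⟨⟨d, hd⟩, k⟩ := j
  obtain ⟨x, z⟩ := p
  simp only [condBad, Set.mem_union, Set.mem_ofPred_eq, not_or] at hp
  obtain ⟨⟨h1, h2⟩, h3⟩ := hp
  fin_cases k
  · exact Dt.ev_lam1 x z d (Dv.reg_of_mem_V (hV i) h1)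
  · exact Dt.ev_lam2 x z d (Dv.reg_of_mem_V (hV i) h2)
  · exact Dt.ev_lam3 x z d (Dv.reg_of_mem_V (hV i) h3)

/-- **Steps 1-2**: the coefficients `c`. -/
theorem exists_c : ∃ (N : ℕ) (hb : Fin N → F1) (c : Fin N → F2),
    LinearIndependent K hb ∧ (∀ i, hb i ∈ Dv.V) ∧
    (∀ f ∈ Dv.V, ∃ a : Fin N → K, f = ∑ i, a i • hb i) ∧ (∃ i0, c i0 = 1) ∧
    ∀ d ∈ Dv.suppPts,
      (∑ i, c i * Dt.Q1 (Dt.ν (Dt.τ d (hb i))) = 0) ∧
      (∑ i, c i * Dt.Q2 (Dt.ν (Dt.τ d (hb i))) = 0) ∧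
      (∑ i, c i * Dt.Qs (Dt.τ d (hb i)) = 0) := by
  classical
  obtain ⟨N, hb, hli, hV, hspan⟩ := Dv.exists_basis
  have hrel := exists_relation (K := K) (Dv.lam hb) (fun p : P × P => Dt.X2.regSubring p)
    (fun p => Dt.X2.evHom p) ?_
  · obtain ⟨c, hc0, hc⟩ := hrel
    obtain ⟨i0, hi0⟩ := Function.ne_iff.1 hc0
    have hi0' : c i0 ≠ 0 := hi0
    refine ⟨N, hb, fun i => c i / c i0, hli, hV, hspan, ⟨i0, div_self hi0'⟩, ?_⟩
    intro d hd
    have key : ∀ k : Fin 3, ∑ i, c i / c i0 * Dv.lam hb (⟨d, hd⟩, k) i = 0 := by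
      intro k
      have := hc (⟨d, hd⟩, k)
      calc ∑ i, c i / c i0 * Dv.lam hb (⟨d, hd⟩, k) i
          = (∑ i, c i * Dv.lam hb (⟨d, hd⟩, k) i) / c i0 := by
            rw [Finset.sum_div]
            exact Finset.sum_congr rfl fun i _ => by ring
        _ = 0 := by rw [this, zero_div]
    refine ⟨?_, ?_, ?_⟩
    · simpa [lam] using key 0
    · simpa [lam] using key 1
    · simpa [lam] using key 2
  · -- density
    intro J0 T
    -- the bad set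
    have hthin : Dt.X2.thin ((⋃ f ∈ T, {p | ¬ Dt.X2.Reg p f}) ∪
        ⋃ j ∈ J0, Dv.condBad j.1.1) :=
      Dt.X2.thin_union (Dt.X2.thin_biUnion T _ fun f _ => Dt.X2.thin_not_reg f)
        (Dt.X2.thin_biUnion J0 _ fun j _ => Dv.thin_condBad j.1.1)
    obtain ⟨p, hpS, hpbad⟩ := Dt.X2.exists_mem_not_mem_of_not_thin Dv.S_not_thin hthin
    simp only [Set.mem_union, Set.mem_iUnion, exists_prop, not_or, not_exists, not_and,
      Set.mem_ofPred_eq, not_not] at hpbad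
    obtain ⟨hpT, hpJ⟩ := hpbad
    obtain ⟨h, hh0, hh⟩ := Dv.exists_h p hpS
    have hh' : ∀ Y, Dt.X1.M.ord Y h = Dv.sumTr p Y - 3 * Dv.D Y := hh
    obtain ⟨a, ha⟩ := hspan h (Dv.mem_V_of_div hh')
    refine ⟨p, fun f hf => hpT f hf, fun j hj i => Dv.reg_lam hb hV j (hpJ j hj) i, a, ?_, ?_⟩
    · rintro rfl
      apply hh0
      rw [ha]
      simp
    · intro j hj
      have hpj := hpJ j hj
      simp only [VarModel.evHom_apply]
      have h1 : ∀ i, a i * Dt.X2.ev p (Dv.lam hb j i) =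
          a i * Dt.X1.ev (![j.1.1 - p.1, j.1.1 - p.2, p.1 + p.2 + j.1.1] j.2) (hb i) :=
        fun i => by rw [Dv.ev_lam hb hV j hpj i]
      rw [Finset.sum_congr rfl fun i _ => h1 i]
      -- the point `y` at which we evaluate
      obtain ⟨⟨d, hd⟩, k⟩ := j
      simp only [condBad, Set.mem_union, Set.mem_ofPred_eq, not_or] at hpj
      obtain ⟨⟨hb1, hb2⟩, hb3⟩ := hpj
      fin_cases k
      · show ∑ i, a i * Dt.X1.ev (d - p.1) (hb i) = 0
        rw [← ev_lincomb hb a fun i => Dv.reg_of_mem_V (hV i) hb1, ← ha]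
        refine Dv.ev_eq_zero_of_div hh' hb1 (b := p.1) (Or.inl rfl) ?_
        rwa [sub_add_cancel]
      · show ∑ i, a i * Dt.X1.ev (d - p.2) (hb i) = 0
        rw [← ev_lincomb hb a fun i => Dv.reg_of_mem_V (hV i) hb2, ← ha]
        refine Dv.ev_eq_zero_of_div hh' hb2 (b := p.2) (Or.inr (Or.inl rfl)) ?_
        rwa [sub_add_cancel]
      · show ∑ i, a i * Dt.X1.ev (p.1 + p.2 + d) (hb i) = 0
        rw [← ev_lincomb hb a fun i => Dv.reg_of_mem_V (hV i) hb3, ← ha]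
        refine Dv.ev_eq_zero_of_div hh' hb3 (b := -p.1 - p.2) (Or.inr (Or.inr rfl)) ?_
        have heq : p.1 + p.2 + d + (-p.1 - p.2) = d := by abel
        rwa [heq]

end DivData

end Fermat.Agent.S26lib.Para
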