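/-
S26lib / Para / Fibre  (helper2)  --  Project K (S26), step (Q2'), Step 3.

For a generic good parameter `p = (x,z) ∈ S` the specialisation `h' = ∑ c_i(p) hb_i ∈ L(3D)` of the
relation has divisor EXACTLY `D_x + D_z + D_{-x-z} - 3D`: it vanishes at the closed points of the
three translates (vanishing lemma), and the quotient by the function of (Q1') is everywhere
regular, hence constant.
-/
import Fermat.Agent.S26lib.Para.Relations

set_option autoImplicit false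

noncomputable section

namespace Fermat.Agent.S26lib.Para

open Fermat.Agent.S26lib

universe u

namespace ParaData

variable {K F1 F2 F3 : Type u} [Field K] [Field F1] [Field F2] [Field F3]
  [Algebra K F1] [Algebra K F2] [Algebra K F3] {P : Type u} [AddCommGroup P]
  (Dt : ParaData K F1 F2 F3 P) {N : ℕ} (hb : Fin N → F1) (c : Fin N → F2)

/-- the specialisation of the relation at the parameter `p` -/
def spec (p : P × P) : F1 :=
  ∑ i, Dt.X2.ev p (c i) • hb i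

theorem spec_ne_zero (hli : LinearIndependent K hb) (hi0 : ∃ i0, c i0 = 1) (p : P × P) :
    Dt.spec hb c p ≠ 0 := by
  intro h0
  obtain ⟨i0, hi0⟩ := hi0
  have := Fintype.linearIndependent_iff.1 hli (fun i => Dt.X2.ev p (c i)) h0 i0
  rw [hi0, Dt.X2.ev_one] at this
  exact one_ne_zero this

end ParaData

namespace DivData

variable {K F1 F2 F3 : Type u} [Field K] [Field F1] [Field F2] [Field F3]
  [Algebra K F1] [Algebra K F2] [Algebra K F3] {P : Type u} [AddCommGroup P]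
  {Dt : ParaData K F1 F2 F3 P} (Dv : DivData Dt)

/-- the relations satisfied by the coefficients `c` -/
def Rel {N : ℕ} (hb : Fin N → F1) (c : Fin N → F2) : Prop :=
  ∀ d ∈ Dv.suppPts,
    (∑ i, c i * Dt.Q1 (Dt.ν (Dt.τ d (hb i))) = 0) ∧
    (∑ i, c i * Dt.Q2 (Dt.ν (Dt.τ d (hb i))) = 0) ∧
    (∑ i, c i * Dt.Qs (Dt.τ d (hb i)) = 0)

omit [AddCommGroup P] in
theorem ev_relation_aux {X2 : VarModel K F2 (P × P)} {X1 : VarModel K F1 P}
    {N : ℕ} (hb : Fin N → F1) (c lam : Fin N → F2) {p : P × P}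
    {a : P} (hc : ∀ i, X2.Reg p (c i)) (hl : ∀ i, X2.Reg p (lam i))
    (hev : ∀ i, X2.ev p (lam i) = X1.ev a (hb i)) (hrel : ∑ i, c i * lam i = 0) :
    ∑ i, X2.ev p (c i) * X1.ev a (hb i) = 0 := by
  have h1 : X2.ev p (∑ i, c i * lam i) = ∑ i, X2.ev p (c i) * X1.ev a (hb i) := by
    rw [X2.ev_sum _ _ fun i _ => X2.reg_mul (hc i) (hl i)]
    exact Finset.sum_congr rfl fun i _ => by rw [X2.ev_mul p _ _ (hc i) (hl i), hev i]
  rw [← h1, hrel, X2.ev_zero]

variable {N : ℕ} (hb : Fin N → F1) (c : Fin N → F2)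

theorem spec_mem_V (hV : ∀ i, hb i ∈ Dv.V) (p : P × P) : Dt.spec hb c p ∈ Dv.V :=
  Submodule.sum_mem _ fun i _ => Submodule.smul_mem _ _ (hV i)

/-- the specialisation vanishes at the points `a ∉ Supp D` of the three translates -/
theorem ev_spec_eq_zero (hV : ∀ i, hb i ∈ Dv.V) (hrel : Dv.Rel hb c) {p : P × P}
    (hreg : ∀ i, Dt.X2.Reg p (c i)) {a : P} (ha : a ∉ Dv.suppPts)
    {b : P} (hbb : b = p.1 ∨ b = p.2 ∨ b = -p.1 - p.2) (hab : a + b ∈ Dv.suppPts) :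
    Dt.X1.ev a (Dt.spec hb c p) = 0 := by
  have hra : ∀ i, Dt.X1.Reg a (hb i) := fun i => Dv.reg_of_mem_V (hV i) ha
  unfold ParaData.spec
  rw [ev_lincomb hb _ hra]
  obtain ⟨r1, r2, r3⟩ := hrel (a + b) hab
  rcases hbb with hb1 | hb1 | hb1
  · have e1 : a + b - p.1 = a := by rw [hb1]; abel
    refine ev_relation_aux (p := p) hb c _ hreg (fun i => Dt.reg_lam1 p.1 p.2 (a + b) ?_)
      (fun i => ?_) r1
    · rw [e1]; exact hra i
    · rw [Dt.ev_lam1 p.1 p.2 (a + b) (by rw [e1]; exact hra i), e1]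
  · have e1 : a + b - p.2 = a := by rw [hb1]; abel
    refine ev_relation_aux (p := p) hb c _ hreg (fun i => Dt.reg_lam2 p.1 p.2 (a + b) ?_)
      (fun i => ?_) r2
    · rw [e1]; exact hra i
    · rw [Dt.ev_lam2 p.1 p.2 (a + b) (by rw [e1]; exact hra i), e1]
  · have e1 : p.1 + p.2 + (a + b) = a := by rw [hb1]; abel
    refine ev_relation_aux (p := p) hb c _ hreg (fun i => Dt.reg_lam3 p.1 p.2 (a + b) ?_)
      (fun i => ?_) r3
    · rw [e1]; exact hra i
    · rw [Dt.ev_lam3 p.1 p.2 (a + b) (by rw [e1]; exact hra i), e1]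

/-- the points of a prime divisor `W ⊄ Supp D` outside `Supp D` are not thin in `W` -/
theorem not_thinIn_diff_suppPts {W : Dt.X1.M.ι} (hW : Dv.D W = 0) :
    ¬ Dt.X1.thinIn W {a | a ∈ Dt.X1.thr W ∧ a ∉ Dv.suppPts} := by
  intro hthin
  apply Dt.X1.not_thinIn_thr W
  have h1 : Dt.X1.thinIn W (⋃ Y ∈ Dv.supp, Dt.X1.thr W ∩ Dt.X1.thr Y) := by
    refine Dt.X1.thinIn_biUnion W Dv.supp _ fun Y hY => Dt.X1.thinIn_inter W Y ?_
    rintro rfl
    exact Dv.mem_supp.1 hY hW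
  refine Dt.X1.thinIn_mono W ?_ (Dt.X1.thinIn_union W hthin h1)
  intro a ha
  by_cases hs : a ∈ Dv.suppPts
  · right
    obtain ⟨Y, hY, haY⟩ := Dv.mem_suppPts.1 hs
    exact Set.mem_iUnion₂.2 ⟨Y, Dv.mem_supp.2 hY, ha, haY⟩
  · left
    exact ⟨ha, hs⟩

/-- the specialisation has positive order along the components of the three translates -/
theorem ord_spec_pos (hli : LinearIndependent K hb) (hV : ∀ i, hb i ∈ Dv.V)
    (hi0 : ∃ i0, c i0 = 1) (hrel : Dv.Rel hb c) {p : P × P} (hgen : Dv.Gen p)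
    (hreg : ∀ i, Dt.X2.Reg p (c i)) {b : P} (hbb : b = p.1 ∨ b = p.2 ∨ b = -p.1 - p.2)
    {W : Dt.X1.M.ι} (hW : Dt.trD Dv.D b W ≠ 0) : 0 < Dt.X1.M.ord W (Dt.spec hb c p) := by
  have hne := Dt.spec_ne_zero hb c hli hi0 p
  have hW1 : Dt.trD Dv.D b W = 1 := Dv.D_eq_one hW
  have hDW : Dv.D W = 0 := by
    have := hgen W
    have h1 := Dt.trD_nonneg Dv.D_nonneg p.1 W
    have h2 := Dt.trD_nonneg Dv.D_nonneg p.2 W
    have h3 := Dt.trD_nonneg Dv.D_nonneg (-p.1 - p.2) W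
    have h0 := Dv.D_nonneg W
    rcases hbb with rfl | rfl | rfl <;> omega
  have h0 : 0 ≤ Dt.X1.M.ord W (Dt.spec hb c p) := by
    rcases Dv.spec_mem_V hb c hV p with h | h
    · exact (hne h).elim
    · have := h W
      simp only [hDW] at this
      simpa using this
  refine Dt.X1.ord_pos_of_vanishing hne h0 (Dv.not_thinIn_diff_suppPts hDW)
    (fun a ha => ha.1) ?_
  rintro a ⟨haW, has⟩ hunit
  apply Dt.X1.ev_ne_zero_of_isUnitAt hunit
  refine Dv.ev_spec_eq_zero hb c hV hrel hreg has hbb ?_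
  -- `a + b` lies on the component `perm⁻¹ W` of `D`
  refine Dv.mem_suppPts.2 ⟨(Dt.τm b).perm.symm W, hW, ?_⟩
  exact (Dt.mem_thr_perm_symm b a W).2 haW

/-- **Step 3**: the divisor of the specialisation at a generic good parameter. -/
theorem ord_spec (hli : LinearIndependent K hb) (hV : ∀ i, hb i ∈ Dv.V)
    (hi0 : ∃ i0, c i0 = 1) (hrel : Dv.Rel hb c) {p : P × P} (hpS : p ∈ Dv.S)
    (hgen : Dv.Gen p) (hreg : ∀ i, Dt.X2.Reg p (c i)) (Y : Dt.X1.M.ι) :
    Dt.X1.M.ord Y (Dt.spec hb c p) = Dv.sumTr p Y - 3 * Dv.D Y := by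
  have hne := Dt.spec_ne_zero hb c hli hi0 p
  obtain ⟨h, hh0, hh⟩ := Dv.exists_h p hpS
  have hh' : ∀ Y, Dt.X1.M.ord Y h = Dv.sumTr p Y - 3 * Dv.D Y := hh
  -- lower bound
  have hlow : ∀ Y, Dv.sumTr p Y - 3 * Dv.D Y ≤ Dt.X1.M.ord Y (Dt.spec hb c p) := by
    intro Y
    have hmem : -(3 * Dv.D Y) ≤ Dt.X1.M.ord Y (Dt.spec hb c p) := by
      rcases Dv.spec_mem_V hb c hV p with h | h
      · exact (hne h).elim
      · exact h Y
    have hg := hgen Y
    have h1 := Dt.trD_nonneg Dv.D_nonneg p.1 Y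
    have h2 := Dt.trD_nonneg Dv.D_nonneg p.2 Y
    have h3 := Dt.trD_nonneg Dv.D_nonneg (-p.1 - p.2) Y
    have h0 := Dv.D_nonneg Y
    unfold sumTr
    by_cases c1 : Dt.trD Dv.D p.1 Y ≠ 0
    · have := Dv.ord_spec_pos hb c hli hV hi0 hrel hgen hreg (b := p.1) (Or.inl rfl) c1
      omega
    by_cases c2 : Dt.trD Dv.D p.2 Y ≠ 0
    · have := Dv.ord_spec_pos hb c hli hV hi0 hrel hgen hreg (b := p.2) (Or.inr (Or.inl rfl)) c2
      omega
    by_cases c3 : Dt.trD Dv.D (-p.1 - p.2) Y ≠ 0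
    · have := Dv.ord_spec_pos hb c hli hV hi0 hrel hgen hreg (b := -p.1 - p.2)
        (Or.inr (Or.inr rfl)) c3
      omega
    push Not at c1 c2 c3
    omega
  -- the quotient is constant
  have hq0 : Dt.spec hb c p / h ≠ 0 := div_ne_zero hne hh0
  obtain ⟨k, hk⟩ := Dt.complete1 _ hq0 (fun Y => by
    rw [DivModelAux.ord_div Dt.X1.M Y hne hh0, hh' Y]
    have := hlow Y
    omega)
  have hord : Dt.X1.M.ord Y (Dt.spec hb c p / h) = 0 := by
    rw [hk]; exact Dt.X1.M.ord_const Y k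
  rw [DivModelAux.ord_div Dt.X1.M Y hne hh0, hh' Y] at hord
  omega

end DivData

end Fermat.Agent.S26lib.Para
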