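/-
S26lib / Para / Sec  (helper2)  --  Project K (S26), step (Q2'): calculus with the partial
comorphism of a `SecModel` (total function `res`, junk value `0` outside the domain).
-/
import Fermat.Agent.S26lib.Para.Fibre

set_option autoImplicit false

noncomputable section

namespace Fermat.Agent.S26lib.Para

open Fermat.Agent.S26lib

universe u

namespace SecModel

variable {K FX FY : Type u} [Field K] [Field FX] [Field FY] [Algebra K FX] [Algebra K FY]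
  {PX PY : Type u} {X : VarModel K FX PX} {Y : VarModel K FY PY} {pt : PX → PY}
  (s : SecModel X Y pt)

open Classical in
/-- the restriction, as a total function -/
def res (f : FY) : FX := if h : f ∈ s.dom then s.ρ ⟨f, h⟩ else 0

theorem res_of_mem {f : FY} (h : f ∈ s.dom) : s.res f = s.ρ ⟨f, h⟩ := by
  unfold res
  rw [dif_pos h]

theorem res_mul {f g : FY} (hf : f ∈ s.dom) (hg : g ∈ s.dom) :
    s.res (f * g) = s.res f * s.res g := by
  rw [s.res_of_mem (s.dom.mul_mem hf hg), s.res_of_mem hf, s.res_of_mem hg, ← map_mul]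
  rfl

theorem sum_mem_dom {ι : Type*} (t : Finset ι) (f : ι → FY) (h : ∀ i ∈ t, f i ∈ s.dom) :
    ∑ i ∈ t, f i ∈ s.dom := s.dom.sum_mem h

theorem res_sum {ι : Type*} (t : Finset ι) (f : ι → FY) (h : ∀ i ∈ t, f i ∈ s.dom) :
    s.res (∑ i ∈ t, f i) = ∑ i ∈ t, s.res (f i) := by
  classical
  induction t using Finset.induction_on with
  | empty =>
    rw [Finset.sum_empty, Finset.sum_empty, s.res_of_mem s.dom.zero_mem]
    exact map_zero s.ρ
  | insert a t ha ih =>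
    have h1 : f a ∈ s.dom := h a (Finset.mem_insert_self _ _)
    have h2 : ∀ i ∈ t, f i ∈ s.dom := fun i hi => h i (Finset.mem_insert_of_mem hi)
    have h3 : ∑ i ∈ t, f i ∈ s.dom := s.sum_mem_dom t f h2
    rw [Finset.sum_insert ha, Finset.sum_insert ha, ← ih h2,
      s.res_of_mem (s.dom.add_mem h1 h3), s.res_of_mem h1, s.res_of_mem h3, ← map_add]
    rfl

theorem mem_dom_of_reg {a : PX} {f : FY} (h : Y.Reg (pt a) f) : f ∈ s.dom := s.reg_dom a f h

theorem reg_res {a : PX} {f : FY} (h : Y.Reg (pt a) f) : X.Reg a (s.res f) := by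
  rw [s.res_of_mem (s.reg_dom a f h)]
  exact s.reg_ρ a f h

theorem ev_res {a : PX} {f : FY} (h : Y.Reg (pt a) f) : X.ev a (s.res f) = Y.ev (pt a) f := by
  rw [s.res_of_mem (s.reg_dom a f h)]
  exact s.ev_ρ a f h

/-- a function regular at `pt a` whose restriction is a unit at `a` is a unit at `pt a` -/
theorem isUnitAt_of_res {a : PX} {f : FY} (h : Y.Reg (pt a) f) (hu : X.IsUnitAt a (s.res f)) :
    Y.IsUnitAt (pt a) f := by
  refine Y.isUnitAt_of_ev_ne_zero h ?_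
  rw [← s.ev_res h]
  exact X.ev_ne_zero_of_isUnitAt hu

/-- the restriction of a unit at `pt a` is a unit at `a` -/
theorem isUnitAt_res {a : PX} {f : FY} (h : Y.IsUnitAt (pt a) f) : X.IsUnitAt a (s.res f) := by
  have hreg := VarModel.isUnitAt.reg Y h
  refine X.isUnitAt_of_ev_ne_zero (s.reg_res hreg) ?_
  rw [s.ev_res hreg]
  exact Y.ev_ne_zero_of_isUnitAt h

end SecModel

namespace ParaData

variable {K F1 F2 F3 : Type u} [Field K] [Field F1] [Field F2] [Field F3]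
  [Algebra K F1] [Algebra K F2] [Algebra K F3] {P : Type u} [AddCommGroup P]
  (Dt : ParaData K F1 F2 F3 P)

/-! ### the fibre `{(x,z)} × A` -/

theorem J_p3_mem (x z : P) (h : F1) : Dt.P3 h ∈ (Dt.J x z).dom := (Dt.J_p3 x z h).1

theorem J_p3_res (x z : P) (h : F1) : (Dt.J x z).res (Dt.P3 h) = h := by
  obtain ⟨hm, he⟩ := Dt.J_p3 x z h
  rw [(Dt.J x z).res_of_mem hm, he]

theorem J_a13_mem (x z : P) (h : F1) : Dt.A13 h ∈ (Dt.J x z).dom := (Dt.J_a13 x z h).1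

theorem J_a13_res (x z : P) (h : F1) : (Dt.J x z).res (Dt.A13 h) = Dt.τ x h := by
  obtain ⟨hm, he⟩ := Dt.J_a13 x z h
  rw [(Dt.J x z).res_of_mem hm, he]

theorem J_a23_mem (x z : P) (h : F1) : Dt.A23 h ∈ (Dt.J x z).dom := (Dt.J_a23 x z h).1

theorem J_a23_res (x z : P) (h : F1) : (Dt.J x z).res (Dt.A23 h) = Dt.τ z h := by
  obtain ⟨hm, he⟩ := Dt.J_a23 x z h
  rw [(Dt.J x z).res_of_mem hm, he]

theorem J_am_mem (x z : P) (h : F1) : Dt.Am h ∈ (Dt.J x z).dom := (Dt.J_am x z h).1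

theorem J_am_res (x z : P) (h : F1) : (Dt.J x z).res (Dt.Am h) = Dt.τ (-x - z) h := by
  obtain ⟨hm, he⟩ := Dt.J_am x z h
  rw [(Dt.J x z).res_of_mem hm, he]

theorem J_p12_mem (x z : P) {c : F2} (hc : Dt.X2.Reg (x, z) c) : Dt.P12 c ∈ (Dt.J x z).dom :=
  (Dt.J_p12 x z c hc).1

theorem J_p12_res (x z : P) {c : F2} (hc : Dt.X2.Reg (x, z) c) :
    (Dt.J x z).res (Dt.P12 c) = algebraMap K F1 (Dt.X2.ev (x, z) c) := by
  obtain ⟨hm, he⟩ := Dt.J_p12 x z c hc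
  rw [(Dt.J x z).res_of_mem hm, he]

/-! ### the zero section -/

theorem S0_p12_mem (c : F2) : Dt.P12 c ∈ Dt.S0.dom := (Dt.S0_p12 c).1

theorem S0_p12_res (c : F2) : Dt.S0.res (Dt.P12 c) = c := by
  obtain ⟨hm, he⟩ := Dt.S0_p12 c
  rw [Dt.S0.res_of_mem hm, he]

theorem S0_p3_mem {h : F1} (hh : Dt.X1.Reg 0 h) : Dt.P3 h ∈ Dt.S0.dom := (Dt.S0_p3 h hh).1

theorem S0_p3_res {h : F1} (hh : Dt.X1.Reg 0 h) :
    Dt.S0.res (Dt.P3 h) = algebraMap K F2 (Dt.X1.ev 0 h) := by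
  obtain ⟨hm, he⟩ := Dt.S0_p3 h hh
  rw [Dt.S0.res_of_mem hm, he]

theorem S0_a13_mem (h : F1) : Dt.A13 h ∈ Dt.S0.dom := (Dt.S0_a13 h).1

theorem S0_a13_res (h : F1) : Dt.S0.res (Dt.A13 h) = Dt.Q1 h := by
  obtain ⟨hm, he⟩ := Dt.S0_a13 h
  rw [Dt.S0.res_of_mem hm, he]

theorem S0_a23_mem (h : F1) : Dt.A23 h ∈ Dt.S0.dom := (Dt.S0_a23 h).1

theorem S0_a23_res (h : F1) : Dt.S0.res (Dt.A23 h) = Dt.Q2 h := by
  obtain ⟨hm, he⟩ := Dt.S0_a23 h
  rw [Dt.S0.res_of_mem hm, he]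

theorem S0_am_mem (h : F1) : Dt.Am h ∈ Dt.S0.dom := (Dt.S0_am h).1

theorem S0_am_res (h : F1) : Dt.S0.res (Dt.Am h) = Dt.Qs (Dt.ν h) := by
  obtain ⟨hm, he⟩ := Dt.S0_am h
  rw [Dt.S0.res_of_mem hm, he]

end ParaData

end Fermat.Agent.S26lib.Para
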