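/-
S26lib / Para / Horizontal  (helper2)  --  Project K (S26), step (Q2'), Step 4.

`H0 = ∑ p12^*(c_i) p3^*(hb_i) ∈ K(A³)` has, along every HORIZONTAL prime divisor `W` of `A³`
(not a pull-back from `A²`), exactly the order of
`(x+y)^*D + (z+y)^*D + (y-x-z)^*D - 3 y^*D`.
* `≥` : Krull + the vanishing lemma (the relations say that `H0` vanishes at the closed points of
  the three pulled-back divisors);
* `=` : local-homomorphism argument: at a closed point `q ∈ W` over a generic good parameter, the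
  quotient `λ` of `H0` by the local equation of the divisor is regular at `q`, and its restriction
  to the fibre through `q` is a unit (Step 3), hence `λ` is a unit at `q`.
-/
import Fermat.Agent.S26lib.Para.Sec

set_option autoImplicit false

noncomputable section

namespace Fermat.Agent.S26lib.Para

open Fermat.Agent.S26lib

universe u

namespace ParaData

variable {K F1 F2 F3 : Type u} [Field K] [Field F1] [Field F2] [Field F3]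
  [Algebra K F1] [Algebra K F2] [Algebra K F3] {P : Type u} [AddCommGroup P]
  (Dt : ParaData K F1 F2 F3 P)

/-! ### the ten pairs of maps out of `A³` have no common pulled-back prime divisor -/

theorem ne_p12_p3 (Z : Dt.X2.M.ι) (Y : Dt.X1.M.ι) : Dt.p12m.pull Z ≠ Dt.p3m.pull Y :=
  MapModel.pull_ne_pull Dt.p12m Dt.p3m (fun a b => ⟨(a.1, a.2, b), rfl, rfl⟩) Z Y

theorem ne_p12_a13 (Z : Dt.X2.M.ι) (Y : Dt.X1.M.ι) : Dt.p12m.pull Z ≠ Dt.a13m.pull Y :=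
  MapModel.pull_ne_pull Dt.p12m Dt.a13m
    (fun a b => ⟨(a.1, a.2, b - a.1), rfl, by simp⟩) Z Y

theorem ne_p12_a23 (Z : Dt.X2.M.ι) (Y : Dt.X1.M.ι) : Dt.p12m.pull Z ≠ Dt.a23m.pull Y :=
  MapModel.pull_ne_pull Dt.p12m Dt.a23m
    (fun a b => ⟨(a.1, a.2, b - a.2), rfl, by simp⟩) Z Y

theorem ne_p12_am (Z : Dt.X2.M.ι) (Y : Dt.X1.M.ι) : Dt.p12m.pull Z ≠ Dt.amm.pull Y :=
  MapModel.pull_ne_pull Dt.p12m Dt.amm
    (fun a b => ⟨(a.1, a.2, b + a.1 + a.2), rfl, by simp; abel⟩) Z Y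

theorem ne_p3_a13 (Y Y' : Dt.X1.M.ι) : Dt.p3m.pull Y ≠ Dt.a13m.pull Y' :=
  MapModel.pull_ne_pull Dt.p3m Dt.a13m
    (fun a b => ⟨(b - a, 0, a), rfl, by simp⟩) Y Y'

theorem ne_p3_a23 (Y Y' : Dt.X1.M.ι) : Dt.p3m.pull Y ≠ Dt.a23m.pull Y' :=
  MapModel.pull_ne_pull Dt.p3m Dt.a23m
    (fun a b => ⟨(0, b - a, a), rfl, by simp⟩) Y Y'

theorem ne_p3_am (Y Y' : Dt.X1.M.ι) : Dt.p3m.pull Y ≠ Dt.amm.pull Y' :=
  MapModel.pull_ne_pull Dt.p3m Dt.amm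
    (fun a b => ⟨(a - b, 0, a), rfl, by simp⟩) Y Y'

theorem ne_a13_a23 (Y Y' : Dt.X1.M.ι) : Dt.a13m.pull Y ≠ Dt.a23m.pull Y' :=
  MapModel.pull_ne_pull Dt.a13m Dt.a23m
    (fun a b => ⟨(a, b, 0), by simp, by simp⟩) Y Y'

theorem ne_a13_am (Y Y' : Dt.X1.M.ι) : Dt.a13m.pull Y ≠ Dt.amm.pull Y' :=
  MapModel.pull_ne_pull Dt.a13m Dt.amm
    (fun a b => ⟨(a, -a - b, 0), by simp, by simp⟩) Y Y'

theorem ne_a23_am (Y Y' : Dt.X1.M.ι) : Dt.a23m.pull Y ≠ Dt.amm.pull Y' :=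
  MapModel.pull_ne_pull Dt.a23m Dt.amm
    (fun a b => ⟨(-a - b, a, 0), by simp, by simp⟩) Y Y'

/-! ### values of `horDiv` -/

variable (D : Dt.X1.M.ι → ℤ)

theorem horDiv_vert (Z : Dt.X2.M.ι) : Dt.horDiv D (Dt.p12m.pull Z) = 0 := by
  unfold horDiv
  rw [Dt.a13m.pullDiv_of_not_mem, Dt.a23m.pullDiv_of_not_mem, Dt.amm.pullDiv_of_not_mem,
    Dt.p3m.pullDiv_of_not_mem]
  · ring
  · rintro ⟨Y, hY⟩; exact Dt.ne_p12_p3 Z Y hY.symm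
  · rintro ⟨Y, hY⟩; exact Dt.ne_p12_am Z Y hY.symm
  · rintro ⟨Y, hY⟩; exact Dt.ne_p12_a23 Z Y hY.symm
  · rintro ⟨Y, hY⟩; exact Dt.ne_p12_a13 Z Y hY.symm

theorem horDiv_p3 (Y : Dt.X1.M.ι) : Dt.horDiv D (Dt.p3m.pull Y) = -3 * D Y := by
  unfold horDiv
  rw [Dt.a13m.pullDiv_of_not_mem, Dt.a23m.pullDiv_of_not_mem, Dt.amm.pullDiv_of_not_mem,
    Dt.p3m.pullDiv_pull]
  · ring
  · rintro ⟨Y', hY⟩; exact Dt.ne_p3_am Y Y' hY.symm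
  · rintro ⟨Y', hY⟩; exact Dt.ne_p3_a23 Y Y' hY.symm
  · rintro ⟨Y', hY⟩; exact Dt.ne_p3_a13 Y Y' hY.symm

theorem horDiv_a13 (Y : Dt.X1.M.ι) : Dt.horDiv D (Dt.a13m.pull Y) = D Y := by
  unfold horDiv
  rw [Dt.a13m.pullDiv_pull, Dt.a23m.pullDiv_of_not_mem, Dt.amm.pullDiv_of_not_mem,
    Dt.p3m.pullDiv_of_not_mem]
  · ring
  · rintro ⟨Y', hY⟩; exact Dt.ne_p3_a13 Y' Y hY
  · rintro ⟨Y', hY⟩; exact Dt.ne_a13_am Y Y' hY.symm
  · rintro ⟨Y', hY⟩; exact Dt.ne_a13_a23 Y Y' hY.symm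

theorem horDiv_a23 (Y : Dt.X1.M.ι) : Dt.horDiv D (Dt.a23m.pull Y) = D Y := by
  unfold horDiv
  rw [Dt.a23m.pullDiv_pull, Dt.a13m.pullDiv_of_not_mem, Dt.amm.pullDiv_of_not_mem,
    Dt.p3m.pullDiv_of_not_mem]
  · ring
  · rintro ⟨Y', hY⟩; exact Dt.ne_p3_a23 Y' Y hY
  · rintro ⟨Y', hY⟩; exact Dt.ne_a23_am Y Y' hY.symm
  · rintro ⟨Y', hY⟩; exact Dt.ne_a13_a23 Y' Y hY

theorem horDiv_am (Y : Dt.X1.M.ι) : Dt.horDiv D (Dt.amm.pull Y) = D Y := by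
  unfold horDiv
  rw [Dt.amm.pullDiv_pull, Dt.a13m.pullDiv_of_not_mem, Dt.a23m.pullDiv_of_not_mem,
    Dt.p3m.pullDiv_of_not_mem]
  · ring
  · rintro ⟨Y', hY⟩; exact Dt.ne_p3_am Y' Y hY
  · rintro ⟨Y', hY⟩; exact Dt.ne_a23_am Y' Y hY
  · rintro ⟨Y', hY⟩; exact Dt.ne_a13_am Y' Y hY

theorem horDiv_other {W : Dt.X3.M.ι} (h3 : W ∉ Set.range Dt.p3m.pull)
    (h13 : W ∉ Set.range Dt.a13m.pull) (h23 : W ∉ Set.range Dt.a23m.pull)
    (hm : W ∉ Set.range Dt.amm.pull) : Dt.horDiv D W = 0 := by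
  unfold horDiv
  rw [Dt.a13m.pullDiv_of_not_mem D h13, Dt.a23m.pullDiv_of_not_mem D h23,
    Dt.amm.pullDiv_of_not_mem D hm, Dt.p3m.pullDiv_of_not_mem D h3]
  ring

/-! ### the function `H0` -/

variable {N : ℕ} (hb : Fin N → F1) (c : Fin N → F2)

/-- `H0 (x,z,y) = ∑ c_i (x,z) hb_i (y)` -/
def H0 : F3 := ∑ i, Dt.P12 (c i) * Dt.P3 (hb i)

theorem H0_ne_zero (hli : LinearIndependent K hb) (hi0 : ∃ i0, c i0 = 1) : Dt.H0 hb c ≠ 0 := by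
  intro h
  have h0 := Dt.lindisj hb hli c h
  obtain ⟨i0, hi0⟩ := hi0
  rw [h0] at hi0
  simp at hi0

/-- regularity and value of `H0` at a closed point -/
theorem reg_H0 {q : P × P × P} (hc : ∀ i, Dt.X2.Reg (q.1, q.2.1) (c i))
    (hh : ∀ i, Dt.X1.Reg q.2.2 (hb i)) : Dt.X3.Reg q (Dt.H0 hb c) :=
  Dt.X3.reg_sum _ _ fun i _ =>
    Dt.X3.reg_mul (Dt.p12m.reg_map (q := q) (hc i)) (Dt.p3m.reg_map (q := q) (hh i))

theorem ev_H0 {q : P × P × P} (hc : ∀ i, Dt.X2.Reg (q.1, q.2.1) (c i))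
    (hh : ∀ i, Dt.X1.Reg q.2.2 (hb i)) :
    Dt.X3.ev q (Dt.H0 hb c) = ∑ i, Dt.X2.ev (q.1, q.2.1) (c i) * Dt.X1.ev q.2.2 (hb i) := by
  unfold H0
  rw [Dt.X3.ev_sum _ _ fun i _ =>
    Dt.X3.reg_mul (Dt.p12m.reg_map (q := q) (hc i)) (Dt.p3m.reg_map (q := q) (hh i))]
  refine Finset.sum_congr rfl fun i _ => ?_
  rw [Dt.X3.ev_mul q _ _ (Dt.p12m.reg_map (q := q) (hc i)) (Dt.p3m.reg_map (q := q) (hh i)),
    Dt.p12m.ev_map q _ (hc i), Dt.p3m.ev_map q _ (hh i)]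

end ParaData

namespace DivData

variable {K F1 F2 F3 : Type u} [Field K] [Field F1] [Field F2] [Field F3]
  [Algebra K F1] [Algebra K F2] [Algebra K F3] {P : Type u} [AddCommGroup P]
  {Dt : ParaData K F1 F2 F3 P} (Dv : DivData Dt) {N : ℕ} (hb : Fin N → F1) (c : Fin N → F2)

/-- along a horizontal prime divisor, `ord H0 ≥ -3 · (y^*D)` -/
theorem le_ord_H0_aux (hli : LinearIndependent K hb) (hV : ∀ i, hb i ∈ Dv.V)
    (hi0 : ∃ i0, c i0 = 1) {W : Dt.X3.M.ι} (hWv : W ∉ Set.range Dt.p12m.pull) :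
    -3 * Dt.p3m.pullDiv Dv.D W ≤ Dt.X3.M.ord W (Dt.H0 hb c) := by
  refine DivModelAux.le_ord_sum Dt.X3.M W Finset.univ _ _ (fun i _ hne => ?_)
    (Dt.H0_ne_zero hb c hli hi0)
  have hci : c i ≠ 0 := by
    rintro h0
    apply hne
    rw [h0, map_zero, zero_mul]
  have hbi : hb i ≠ 0 := hli.ne_zero i
  rw [Dt.X3.M.ord_mul W (algHom_ne_zero Dt.P12 hci) (algHom_ne_zero Dt.P3 hbi),
    Dt.p12m.ord_other W hWv _ hci, zero_add]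
  by_cases h3 : W ∈ Set.range Dt.p3m.pull
  · obtain ⟨Y, rfl⟩ := h3
    rw [Dt.p3m.ord_pull, Dt.p3m.pullDiv_pull]
    rcases hV i with h | h
    · exact (hbi h).elim
    · have := h Y
      linarith
  · rw [Dt.p3m.ord_other W h3 _ hbi, Dt.p3m.pullDiv_of_not_mem _ h3]
    simp

/-- the set of parameters at which some coefficient is not regular -/
def cBad : Set (P × P) := ⋃ i ∈ (Finset.univ : Finset (Fin N)), {p | ¬ Dt.X2.Reg p (c i)}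

omit [AddCommGroup P] in
theorem thin_cBad' {X2 : VarModel K F2 (P × P)} (c : Fin N → F2) :
    X2.thin (⋃ i ∈ (Finset.univ : Finset (Fin N)), {p | ¬ X2.Reg p (c i)}) :=
  X2.thin_biUnion _ _ fun i _ => X2.thin_not_reg (c i)

/-- **vanishing criterion** for `H0` along a horizontal prime divisor `W ⊄ y^*D` -/
theorem ord_H0_pos (hli : LinearIndependent K hb) (hV : ∀ i, hb i ∈ Dv.V)
    (hi0 : ∃ i0, c i0 = 1) {W : Dt.X3.M.ι} (hWv : W ∉ Set.range Dt.p12m.pull)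
    (hW3 : W ∉ Set.range Dt.p3m.pull)
    (hvan : ∀ q ∈ Dt.X3.thr W, (∀ i, Dt.X2.Reg (q.1, q.2.1) (c i)) → q.2.2 ∉ Dv.suppPts →
      ∑ i, Dt.X2.ev (q.1, q.2.1) (c i) * Dt.X1.ev q.2.2 (hb i) = 0) :
    0 < Dt.X3.M.ord W (Dt.H0 hb c) := by
  classical
  have hne := Dt.H0_ne_zero hb c hli hi0
  have h0 : 0 ≤ Dt.X3.M.ord W (Dt.H0 hb c) := by
    have := Dv.le_ord_H0_aux hb c hli hV hi0 hWv
    rwa [Dt.p3m.pullDiv_of_not_mem _ hW3, mul_zero] at this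
  -- the good points of `W`
  set S' : Set (P × P × P) := {q | q ∈ Dt.X3.thr W ∧ (∀ i, Dt.X2.Reg (q.1, q.2.1) (c i)) ∧
    q.2.2 ∉ Dv.suppPts} with hS'
  have hS'thin : ¬ Dt.X3.thinIn W S' := by
    intro hthin
    apply Dt.X3.not_thinIn_thr W
    have h1 : Dt.X3.thinIn W (Dt.X3.thr W ∩ (fun q : P × P × P => (q.1, q.2.1)) ⁻¹'
        (⋃ i ∈ (Finset.univ : Finset (Fin N)), {p | ¬ Dt.X2.Reg p (c i)})) :=
      Dt.p12m.thinIn_preimage W hWv _ (thin_cBad' c)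
    have h2 : Dt.X3.thinIn W (⋃ Y ∈ Dv.supp, Dt.X3.thr W ∩ Dt.X3.thr (Dt.p3m.pull Y)) := by
      refine Dt.X3.thinIn_biUnion W Dv.supp _ fun Y _ => Dt.X3.thinIn_inter W _ ?_
      rintro h
      exact hW3 ⟨Y, h⟩
    refine Dt.X3.thinIn_mono W ?_ (Dt.X3.thinIn_union W (Dt.X3.thinIn_union W hthin h1) h2)
    intro q hq
    by_cases hc : ∀ i, Dt.X2.Reg (q.1, q.2.1) (c i)
    · by_cases hs : q.2.2 ∈ Dv.suppPts
      · right
        obtain ⟨Y, hY, hqY⟩ := Dv.mem_suppPts.1 hs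
        exact Set.mem_iUnion₂.2 ⟨Y, Dv.mem_supp.2 hY, hq, (Dt.p3m.thr_pull Y q).2 hqY⟩
      · left; left
        exact ⟨hq, hc, hs⟩
    · left; right
      push Not at hc
      obtain ⟨i, hi⟩ := hc
      exact ⟨hq, Set.mem_iUnion₂.2 ⟨i, Finset.mem_univ _, hi⟩⟩
  refine Dt.X3.ord_pos_of_vanishing hne h0 hS'thin (fun q hq => hq.1) ?_
  rintro q ⟨hqW, hc, hs⟩ hunit
  apply Dt.X3.ev_ne_zero_of_isUnitAt hunit
  have hh : ∀ i, Dt.X1.Reg q.2.2 (hb i) := fun i => Dv.reg_of_mem_V (hV i) hs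
  rw [Dt.ev_H0 hb c hc hh]
  exact hvan q hqW hc hs

/-- **Step 4, inequality**: along every horizontal prime divisor `ord H0 ≥ horDiv D`. -/
theorem le_ord_H0 (hli : LinearIndependent K hb) (hV : ∀ i, hb i ∈ Dv.V)
    (hi0 : ∃ i0, c i0 = 1) (hrel : Dv.Rel hb c) {W : Dt.X3.M.ι}
    (hWv : W ∉ Set.range Dt.p12m.pull) :
    Dt.horDiv Dv.D W ≤ Dt.X3.M.ord W (Dt.H0 hb c) := by
  have haux := Dv.le_ord_H0_aux hb c hli hV hi0 hWv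
  by_cases h3 : W ∈ Set.range Dt.p3m.pull
  · obtain ⟨Y, rfl⟩ := h3
    rw [Dt.horDiv_p3]
    rwa [Dt.p3m.pullDiv_pull] at haux
  have h0 : 0 ≤ Dt.X3.M.ord W (Dt.H0 hb c) := by
    rwa [Dt.p3m.pullDiv_of_not_mem _ h3, mul_zero] at haux
  by_cases h13 : W ∈ Set.range Dt.a13m.pull
  · obtain ⟨Y, rfl⟩ := h13
    rw [Dt.horDiv_a13]
    rcases Dv.D_eq_zero_or_one Y with hD | hD
    · rw [hD]; exact h0
    rw [hD]
    have hDne : Dv.D Y ≠ 0 := by rw [hD]; exact one_ne_zero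
    refine Dv.ord_H0_pos hb c hli hV hi0 hWv h3 ?_
    intro q hqW hc hs
    have hd : q.1 + q.2.2 ∈ Dt.X1.thr Y := (Dt.a13m.thr_pull Y q).1 hqW
    have hds : q.1 + q.2.2 ∈ Dv.suppPts := Dv.mem_suppPts.2 ⟨Y, hDne, hd⟩
    have hra : ∀ i, Dt.X1.Reg q.2.2 (hb i) := fun i => Dv.reg_of_mem_V (hV i) hs
    have e1 : q.1 + q.2.2 - q.1 = q.2.2 := by abel
    refine ev_relation_aux (p := (q.1, q.2.1)) hb c _ hc
      (fun i => Dt.reg_lam1 q.1 q.2.1 (q.1 + q.2.2) ?_) (fun i => ?_) (hrel _ hds).1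
    · rw [e1]; exact hra i
    · rw [Dt.ev_lam1 q.1 q.2.1 (q.1 + q.2.2) (by rw [e1]; exact hra i), e1]
  by_cases h23 : W ∈ Set.range Dt.a23m.pull
  · obtain ⟨Y, rfl⟩ := h23
    rw [Dt.horDiv_a23]
    rcases Dv.D_eq_zero_or_one Y with hD | hD
    · rw [hD]; exact h0
    rw [hD]
    have hDne : Dv.D Y ≠ 0 := by rw [hD]; exact one_ne_zero
    refine Dv.ord_H0_pos hb c hli hV hi0 hWv h3 ?_
    intro q hqW hc hs
    have hd : q.2.1 + q.2.2 ∈ Dt.X1.thr Y := (Dt.a23m.thr_pull Y q).1 hqW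
    have hds : q.2.1 + q.2.2 ∈ Dv.suppPts := Dv.mem_suppPts.2 ⟨Y, hDne, hd⟩
    have hra : ∀ i, Dt.X1.Reg q.2.2 (hb i) := fun i => Dv.reg_of_mem_V (hV i) hs
    have e1 : q.2.1 + q.2.2 - q.2.1 = q.2.2 := by abel
    refine ev_relation_aux (p := (q.1, q.2.1)) hb c _ hc
      (fun i => Dt.reg_lam2 q.1 q.2.1 (q.2.1 + q.2.2) ?_) (fun i => ?_) (hrel _ hds).2.1
    · rw [e1]; exact hra i
    · rw [Dt.ev_lam2 q.1 q.2.1 (q.2.1 + q.2.2) (by rw [e1]; exact hra i), e1]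
  by_cases hm : W ∈ Set.range Dt.amm.pull
  · obtain ⟨Y, rfl⟩ := hm
    rw [Dt.horDiv_am]
    rcases Dv.D_eq_zero_or_one Y with hD | hD
    · rw [hD]; exact h0
    rw [hD]
    have hDne : Dv.D Y ≠ 0 := by rw [hD]; exact one_ne_zero
    refine Dv.ord_H0_pos hb c hli hV hi0 hWv h3 ?_
    intro q hqW hc hs
    have hd : q.2.2 - q.1 - q.2.1 ∈ Dt.X1.thr Y := (Dt.amm.thr_pull Y q).1 hqW
    have hds : q.2.2 - q.1 - q.2.1 ∈ Dv.suppPts := Dv.mem_suppPts.2 ⟨Y, hDne, hd⟩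
    have hra : ∀ i, Dt.X1.Reg q.2.2 (hb i) := fun i => Dv.reg_of_mem_V (hV i) hs
    have e1 : q.1 + q.2.1 + (q.2.2 - q.1 - q.2.1) = q.2.2 := by abel
    refine ev_relation_aux (p := (q.1, q.2.1)) hb c _ hc
      (fun i => Dt.reg_lam3 q.1 q.2.1 (q.2.2 - q.1 - q.2.1) ?_) (fun i => ?_) (hrel _ hds).2.2
    · rw [e1]; exact hra i
    · rw [Dt.ev_lam3 q.1 q.2.1 (q.2.2 - q.1 - q.2.1) (by rw [e1]; exact hra i), e1]
  rw [Dt.horDiv_other Dv.D h3 h13 h23 hm]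
  exact h0

end DivData

end Fermat.Agent.S26lib.Para
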