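/-
S26lib / Para / Exact  (helper2)  --  Project K (S26), step (Q2'), Step 4 (exactness).

Along every horizontal prime divisor `W` of `A³`: `ord_W H0 = horDiv D W`.
-/
import Fermat.Agent.S26lib.Para.Horizontal

set_option autoImplicit false

noncomputable section

namespace Fermat.Agent.S26lib.Para

open Fermat.Agent.S26lib

universe u

namespace DivData

variable {K F1 F2 F3 : Type u} [Field K] [Field F1] [Field F2] [Field F3]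
  [Algebra K F1] [Algebra K F2] [Algebra K F3] {P : Type u} [AddCommGroup P]
  {Dt : ParaData K F1 F2 F3 P} (Dv : DivData Dt)

/-- a chosen local equation of `D` at a closed point -/
def locEq (a : P) : F1 := (Dt.X1.exists_localEq_div Dv.D Dv.D_nonneg Dv.D_finite a).choose

theorem locEq_ne_zero (a : P) : Dv.locEq a ≠ 0 :=
  (Dt.X1.exists_localEq_div Dv.D Dv.D_nonneg Dv.D_finite a).choose_spec.1

theorem ord_locEq {a : P} {Y : Dt.X1.M.ι} (h : a ∈ Dt.X1.thr Y) :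
    Dt.X1.M.ord Y (Dv.locEq a) = Dv.D Y :=
  (Dt.X1.exists_localEq_div Dv.D Dv.D_nonneg Dv.D_finite a).choose_spec.2 Y h

variable {N : ℕ} (hb : Fin N → F1) (c : Fin N → F2)

/-- the quotient of `H0` by the local equation of `horDiv D` at the closed point `q` -/
def lamQ (q : P × P × P) : F3 :=
  Dt.H0 hb c * Dt.P3 (Dv.locEq q.2.2 ^ 3) * Dt.A13 ((Dv.locEq (q.1 + q.2.2))⁻¹) *
    Dt.A23 ((Dv.locEq (q.2.1 + q.2.2))⁻¹) * Dt.Am ((Dv.locEq (q.2.2 - q.1 - q.2.1))⁻¹)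

theorem ord_lamQ (hne : Dt.H0 hb c ≠ 0) {q : P × P × P} {W : Dt.X3.M.ι}
    (hW : q ∈ Dt.X3.thr W) :
    Dt.X3.M.ord W (Dv.lamQ hb c q) = Dt.X3.M.ord W (Dt.H0 hb c) - Dt.horDiv Dv.D W := by
  have t1 := Dv.locEq_ne_zero q.2.2
  have t2 := Dv.locEq_ne_zero (q.1 + q.2.2)
  have t3 := Dv.locEq_ne_zero (q.2.1 + q.2.2)
  have t4 := Dv.locEq_ne_zero (q.2.2 - q.1 - q.2.1)
  have o1 : Dt.X3.M.ord W (Dt.P3 (Dv.locEq q.2.2 ^ 3)) = 3 * Dt.p3m.pullDiv Dv.D W := by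
    rw [map_pow, DivModelAux.ord_pow Dt.X3.M W (algHom_ne_zero Dt.P3 t1),
      Dt.p3m.ord_map_localEq (q := q) t1 (fun Z hZ => Dv.ord_locEq hZ) W hW]
    norm_num
  have o2 : Dt.X3.M.ord W (Dt.A13 ((Dv.locEq (q.1 + q.2.2))⁻¹)) = -Dt.a13m.pullDiv Dv.D W := by
    rw [map_inv₀, Dt.X3.M.ord_inv W (algHom_ne_zero Dt.A13 t2),
      Dt.a13m.ord_map_localEq (q := q) t2 (fun Z hZ => Dv.ord_locEq hZ) W hW]
  have o3 : Dt.X3.M.ord W (Dt.A23 ((Dv.locEq (q.2.1 + q.2.2))⁻¹)) = -Dt.a23m.pullDiv Dv.D W := by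
    rw [map_inv₀, Dt.X3.M.ord_inv W (algHom_ne_zero Dt.A23 t3),
      Dt.a23m.ord_map_localEq (q := q) t3 (fun Z hZ => Dv.ord_locEq hZ) W hW]
  have o4 : Dt.X3.M.ord W (Dt.Am ((Dv.locEq (q.2.2 - q.1 - q.2.1))⁻¹)) =
      -Dt.amm.pullDiv Dv.D W := by
    rw [map_inv₀, Dt.X3.M.ord_inv W (algHom_ne_zero Dt.Am t4),
      Dt.amm.ord_map_localEq (q := q) t4 (fun Z hZ => Dv.ord_locEq hZ) W hW]
  have n1 : Dt.P3 (Dv.locEq q.2.2 ^ 3) ≠ 0 := algHom_ne_zero Dt.P3 (pow_ne_zero 3 t1)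
  have n2 : Dt.A13 ((Dv.locEq (q.1 + q.2.2))⁻¹) ≠ 0 := algHom_ne_zero Dt.A13 (inv_ne_zero t2)
  have n3 : Dt.A23 ((Dv.locEq (q.2.1 + q.2.2))⁻¹) ≠ 0 := algHom_ne_zero Dt.A23 (inv_ne_zero t3)
  have n4 : Dt.Am ((Dv.locEq (q.2.2 - q.1 - q.2.1))⁻¹) ≠ 0 :=
    algHom_ne_zero Dt.Am (inv_ne_zero t4)
  unfold lamQ
  rw [Dt.X3.M.ord_mul W (mul_ne_zero (mul_ne_zero (mul_ne_zero hne n1) n2) n3) n4,
    Dt.X3.M.ord_mul W (mul_ne_zero (mul_ne_zero hne n1) n2) n3,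
    Dt.X3.M.ord_mul W (mul_ne_zero hne n1) n2, Dt.X3.M.ord_mul W hne n1, o1, o2, o3, o4]
  unfold ParaData.horDiv
  ring

omit Dv in
/-- the restriction of `H0` to the fibre over a parameter at which the `c i` are regular -/
theorem res_H0 (x z : P) (hreg : ∀ i, Dt.X2.Reg (x, z) (c i)) :
    Dt.H0 hb c ∈ (Dt.J x z).dom ∧ (Dt.J x z).res (Dt.H0 hb c) = Dt.spec hb c (x, z) := by
  have hmem : ∀ i ∈ (Finset.univ : Finset (Fin N)),
      Dt.P12 (c i) * Dt.P3 (hb i) ∈ (Dt.J x z).dom := fun i _ =>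
    (Dt.J x z).dom.mul_mem (Dt.J_p12_mem x z (hreg i)) (Dt.J_p3_mem x z (hb i))
  refine ⟨(Dt.J x z).sum_mem_dom _ _ hmem, ?_⟩
  unfold ParaData.H0 ParaData.spec
  rw [(Dt.J x z).res_sum _ _ hmem]
  refine Finset.sum_congr rfl fun i _ => ?_
  rw [(Dt.J x z).res_mul (Dt.J_p12_mem x z (hreg i)) (Dt.J_p3_mem x z (hb i)),
    Dt.J_p12_res x z (hreg i), Dt.J_p3_res, Algebra.smul_def]

/-- the restriction of `λ_q` to the fibre through `q = (x,z,y)` -/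
theorem res_lamQ (x z y : P) (hreg : ∀ i, Dt.X2.Reg (x, z) (c i)) :
    (Dt.J x z).res (Dv.lamQ hb c (x, z, y)) =
      Dt.spec hb c (x, z) * Dv.locEq y ^ 3 * (Dt.τ x (Dv.locEq (x + y)))⁻¹ *
        (Dt.τ z (Dv.locEq (z + y)))⁻¹ * (Dt.τ (-x - z) (Dv.locEq (y - x - z)))⁻¹ := by
  obtain ⟨m0, r0⟩ := res_H0 hb c x z hreg
  have m1 := Dt.J_p3_mem x z (Dv.locEq y ^ 3)
  have m2 := Dt.J_a13_mem x z ((Dv.locEq (x + y))⁻¹)
  have m3 := Dt.J_a23_mem x z ((Dv.locEq (z + y))⁻¹)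
  have m4 := Dt.J_am_mem x z ((Dv.locEq (y - x - z))⁻¹)
  have d1 := (Dt.J x z).dom.mul_mem m0 m1
  have d2 := (Dt.J x z).dom.mul_mem d1 m2
  have d3 := (Dt.J x z).dom.mul_mem d2 m3
  show (Dt.J x z).res (Dt.H0 hb c * Dt.P3 (Dv.locEq y ^ 3) * Dt.A13 ((Dv.locEq (x + y))⁻¹) *
    Dt.A23 ((Dv.locEq (z + y))⁻¹) * Dt.Am ((Dv.locEq (y - x - z))⁻¹)) = _
  rw [(Dt.J x z).res_mul d3 m4, (Dt.J x z).res_mul d2 m3, (Dt.J x z).res_mul d1 m2,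
    (Dt.J x z).res_mul m0 m1, r0, Dt.J_p3_res, Dt.J_a13_res, Dt.J_a23_res, Dt.J_am_res,
    map_inv₀, map_inv₀, map_inv₀]

/-- the restriction of `λ_q` is a unit at `y`, for a generic good parameter -/
theorem isUnitAt_res_lamQ (hli : LinearIndependent K hb) (hV : ∀ i, hb i ∈ Dv.V)
    (hi0 : ∃ i0, c i0 = 1) (hrel : Dv.Rel hb c) (x z y : P) (hpS : (x, z) ∈ Dv.S)
    (hgen : Dv.Gen (x, z)) (hreg : ∀ i, Dt.X2.Reg (x, z) (c i)) :
    Dt.X1.IsUnitAt y ((Dt.J x z).res (Dv.lamQ hb c (x, z, y))) := by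
  rw [Dv.res_lamQ hb c x z y hreg]
  have hs := Dt.spec_ne_zero hb c hli hi0 (x, z)
  have t1 := Dv.locEq_ne_zero y
  have t2 : Dt.τ x (Dv.locEq (x + y)) ≠ 0 := algEquiv_ne_zero _ (Dv.locEq_ne_zero _)
  have t3 : Dt.τ z (Dv.locEq (z + y)) ≠ 0 := algEquiv_ne_zero _ (Dv.locEq_ne_zero _)
  have t4 : Dt.τ (-x - z) (Dv.locEq (y - x - z)) ≠ 0 := algEquiv_ne_zero _ (Dv.locEq_ne_zero _)
  have n1 := pow_ne_zero 3 t1
  have n2 := inv_ne_zero t2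
  have n3 := inv_ne_zero t3
  have n4 := inv_ne_zero t4
  refine ⟨mul_ne_zero (mul_ne_zero (mul_ne_zero (mul_ne_zero hs n1) n2) n3) n4, fun Y hY => ?_⟩
  rw [Dt.X1.M.ord_mul Y (mul_ne_zero (mul_ne_zero (mul_ne_zero hs n1) n2) n3) n4,
    Dt.X1.M.ord_mul Y (mul_ne_zero (mul_ne_zero hs n1) n2) n3,
    Dt.X1.M.ord_mul Y (mul_ne_zero hs n1) n2, Dt.X1.M.ord_mul Y hs n1,
    Dt.X1.M.ord_inv Y t2, Dt.X1.M.ord_inv Y t3, Dt.X1.M.ord_inv Y t4,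
    DivModelAux.ord_pow Dt.X1.M Y t1, Dv.ord_locEq hY,
    Dv.ord_spec hb c hli hV hi0 hrel hpS hgen hreg Y]
  have e2 : Dt.X1.M.ord Y (Dt.τ x (Dv.locEq (x + y))) = Dt.trD Dv.D x Y :=
    Dt.ord_τ_localEq (fun Y' hY' => Dv.ord_locEq (by rwa [add_comm] at hY')) Y hY
  have e3 : Dt.X1.M.ord Y (Dt.τ z (Dv.locEq (z + y))) = Dt.trD Dv.D z Y :=
    Dt.ord_τ_localEq (fun Y' hY' => Dv.ord_locEq (by rwa [add_comm] at hY')) Y hY
  have e4 : Dt.X1.M.ord Y (Dt.τ (-x - z) (Dv.locEq (y - x - z))) = Dt.trD Dv.D (-x - z) Y := by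
    refine Dt.ord_τ_localEq (fun Y' hY' => Dv.ord_locEq ?_) Y hY
    have heq : y + (-x - z) = y - x - z := by abel
    rwa [heq] at hY'
  rw [e2, e3, e4]
  unfold sumTr
  simp only
  push_cast
  ring

/-- the vertical prime divisors along which `H0` has non-zero order -/
def vertSupp : Set Dt.X2.M.ι := {Z | Dt.X3.M.ord (Dt.p12m.pull Z) (Dt.H0 hb c) ≠ 0}

omit Dv in
theorem finite_vertSupp (hne : Dt.H0 hb c ≠ 0) :
    {Z | Dt.X3.M.ord (Dt.p12m.pull Z) (Dt.H0 hb c) ≠ 0}.Finite :=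
  Set.Finite.preimage (Set.injOn_of_injective Dt.p12m.pull_injective)
    (Dt.X3.M.finite_supp _ hne)

/-- **Step 4**: along every horizontal prime divisor, `ord H0 = horDiv D`. -/
theorem ord_H0_eq (hli : LinearIndependent K hb) (hV : ∀ i, hb i ∈ Dv.V)
    (hi0 : ∃ i0, c i0 = 1) (hrel : Dv.Rel hb c) {W : Dt.X3.M.ι}
    (hWv : W ∉ Set.range Dt.p12m.pull) :
    Dt.X3.M.ord W (Dt.H0 hb c) = Dt.horDiv Dv.D W := by
  classical
  have hne := Dt.H0_ne_zero hb c hli hi0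
  have hvfin := finite_vertSupp hb c hne
  -- a generic good parameter under a closed point of `W`
  have hthin : Dt.X2.thin (((⋃ i ∈ (Finset.univ : Finset (Fin N)), {p | ¬ Dt.X2.Reg p (c i)}) ∪
      {p | ¬ Dv.Gen p} ∪ ⋃ Z ∈ hvfin.toFinset, Dt.X2.thr Z) ∪
      {p | ∀ q ∈ Dt.X3.thr W, (q.1, q.2.1) ≠ p}) := by
    refine Dt.X2.thin_union (Dt.X2.thin_union (Dt.X2.thin_union (thin_cBad' c) Dv.thin_not_gen)
      (Dt.X2.thin_biUnion _ _ fun Z _ => Dt.X2.thin_thr Z)) (Dt.p12m.thin_compl_image W hWv)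
  obtain ⟨p, hpS, hpbad⟩ := Dt.X2.exists_mem_not_mem_of_not_thin Dv.S_not_thin hthin
  simp only [Set.mem_union, Set.mem_iUnion, Set.mem_ofPred_eq, not_or, not_exists, not_forall,
    not_not, Finset.mem_univ, exists_prop, true_and, Set.Finite.mem_toFinset, not_and] at hpbad
  obtain ⟨⟨⟨hreg, hgen⟩, hvert⟩, q, hqW, hqp⟩ := hpbad
  obtain ⟨x, z, y⟩ := q
  simp only at hqp
  subst hqp
  -- `λ_q` is regular at `q`
  have hlamne : Dv.lamQ hb c (x, z, y) ≠ 0 := by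
    unfold lamQ
    refine mul_ne_zero (mul_ne_zero (mul_ne_zero (mul_ne_zero hne ?_) ?_) ?_) ?_
    · exact algHom_ne_zero Dt.P3 (pow_ne_zero 3 (Dv.locEq_ne_zero _))
    · exact algHom_ne_zero Dt.A13 (inv_ne_zero (Dv.locEq_ne_zero _))
    · exact algHom_ne_zero Dt.A23 (inv_ne_zero (Dv.locEq_ne_zero _))
    · exact algHom_ne_zero Dt.Am (inv_ne_zero (Dv.locEq_ne_zero _))
  have hlamreg : Dt.X3.Reg (x, z, y) (Dv.lamQ hb c (x, z, y)) := by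
    rw [Dt.X3.reg_iff hlamne]
    intro W' hW'
    rw [Dv.ord_lamQ hb c hne hW']
    by_cases hv : W' ∈ Set.range Dt.p12m.pull
    · obtain ⟨Z, rfl⟩ := hv
      have hpZ : (x, z) ∈ Dt.X2.thr Z := (Dt.p12m.thr_pull Z (x, z, y)).1 hW'
      have h0 : Dt.X3.M.ord (Dt.p12m.pull Z) (Dt.H0 hb c) = 0 := by
        by_contra hne0
        exact hvert Z hne0 hpZ
      rw [h0, Dt.horDiv_vert]
      norm_num
    · have := Dv.le_ord_H0 hb c hli hV hi0 hrel hv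
      omega
  -- its restriction to the fibre is a unit, hence it is a unit
  have hunit : Dt.X3.IsUnitAt (x, z, y) (Dv.lamQ hb c (x, z, y)) :=
    (Dt.J x z).isUnitAt_of_res (a := y) hlamreg
      (Dv.isUnitAt_res_lamQ hb c hli hV hi0 hrel x z y hpS hgen hreg)
  have h0 := hunit.2 W hqW
  rw [Dv.ord_lamQ hb c hne hqW] at h0
  omega

end DivData

end Fermat.Agent.S26lib.Para
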