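/-
S26lib / Para / Final  (helper2)  --  Project K (S26): BLOCK (Q) COMPLETE.

`Hub.ParaStatement L hA` (helper7: the parallelogram function on `A³`, the only remaining input of
S26) from the theorem of the square on a set of rational points which is not contained in a proper
closed subset: `exists_H_ofScheme` (Para/DivOfScheme) with helper6's inputs `Prod.mapInputs`
(the eleven `MapModel.ofGoodMap` + Fubini) and helper7's Cartier/Weil glue
`Hub.paraStatement_of_mapInputs`.
-/
import Fermat.Agent.S26lib.Para.DivOfScheme
import Fermat.Agent.S26lib.Prod.MapInputs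
import Fermat.Agent.S26lib.Hub.ParaInputs

set_option autoImplicit false
set_option linter.style.haveILetI false
set_option linter.unusedSectionVars false

noncomputable section

namespace Fermat.Agent.S26lib.Para

open CategoryTheory CategoryTheory.Limits AlgebraicGeometry NeronModelInfra GoodReductionJacobian
open Fermat.Agent.S26lib

universe u

variable {K : Type u} [Field K] [IsAlgClosed K] {A : Scheme.{u}}
  {f : A ⟶ Spec (CommRingCat.of K)}

/-- **BLOCK (Q).**  For the abelian variety `(A, L)` of S26: if the theorem of the square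
`t_{x+w}^* D + D ~ t_x^* D + t_w^* D` (`D = A ∖ U₀`) holds for all pairs `(x, w)` of rational
points with `x` in a set `Γ` which is not contained in a proper closed subset of `A`, then the
parallelogram function exists. -/
theorem paraStatement_of_square (L : RelativeGroupLaw K f) (hc : L.IsCommutative)
    (hA : AbelianSchemePropertyBundle K f) (g : ℕ) [SmoothOfRelativeDimension g f]
    (Γ : Set (VarSch.KPt f))
    (hΓ : ∀ Z : Set A, IsClosed Z → (∀ a ∈ Γ, VarSch.KPt.pt a ∈ Z) → Z = Set.univ)
    (hsq : haveI := Weil.isIntegral_of_bundle hA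
      haveI := Weil.isNoetherian_of_bundle hA
      ∀ x ∈ Γ, ∀ w, SqRelSch L x w) :
    Hub.ParaStatement L hA := by
  haveI := Weil.isIntegral_of_bundle hA
  haveI := Weil.isNoetherian_of_bundle hA
  haveI := Prod.isIntegral_A2' f hA
  haveI := Prod.isNoetherian_A2 f hA
  haveI := Prod.isIntegral_A3' f hA
  haveI := Prod.isNoetherian_A3 f hA
  haveI := hA.smooth
  haveI := hA.proper
  letI := kAlgebraFF f
  letI := kAlgebraFF (Prod.f2 f)
  letI := kAlgebraFF (Prod.f3 f)
  have hΓ' : ¬ (VarSch.ofSmooth f).thin Γ := by
    intro hthin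
    obtain ⟨Z, hZ, hne, hS⟩ := (VarSch.ofScheme_thin_iff' f _ Γ).1 hthin
    exact hne (hΓ Z hZ hS)
  obtain ⟨H, hH0, hH⟩ := exists_H_ofScheme hc hA g (Prod.mapInputs L hc) Γ hΓ' hsq
  exact Hub.paraStatement_of_mapInputs L hA (Prod.mapInputs L hc) H hH0 hH

end Fermat.Agent.S26lib.Para
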