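/-
S26lib / Para / LinDisj  (helper2)  --  Project K (S26): linear disjointness of `K(A²)` and `K(A)`
in `K(A³)` from the fibre sections (argument of helper6).

If every point `p` of `X2` has a "fibre" section `J p : X1 → X3` with `ρ (P3 h) = h` and
`ρ (P12 c) = c(p)` (for `c` regular at `p`), then `∑ P12 (c i) * P3 (h i) = 0` with the `h i`
linearly independent over `K` forces `c = 0`: evaluate at a point `p` where all the `c i` are
regular and one of them is a unit.
-/
import Fermat.Agent.S26lib.Para.ModelLemmas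

set_option autoImplicit false

noncomputable section

namespace Fermat.Agent.S26lib.Para

open Fermat.Agent.S26lib

universe u

theorem lindisj_of_sections {K F1 F2 F3 : Type u} [Field K] [Field F1] [Field F2] [Field F3]
    [Algebra K F1] [Algebra K F2] [Algebra K F3] {P1 P2 P3 : Type u}
    (X1 : VarModel K F1 P1) (X2 : VarModel K F2 P2) (X3 : VarModel K F3 P3)
    (P12 : F2 →ₐ[K] F3) (P3' : F1 →ₐ[K] F3) (pt : P2 → P1 → P3)
    (J : ∀ p : P2, SecModel X1 X3 (pt p))
    (J_p3 : ∀ (p : P2) (h : F1), ∃ hm : P3' h ∈ (J p).dom, (J p).ρ ⟨P3' h, hm⟩ = h)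
    (J_p12 : ∀ (p : P2) (c : F2), X2.Reg p c → ∃ hm : P12 c ∈ (J p).dom,
      (J p).ρ ⟨P12 c, hm⟩ = algebraMap K F1 (X2.ev p c))
    {N : ℕ} (h : Fin N → F1) (hli : LinearIndependent K h) (c : Fin N → F2)
    (hsum : ∑ i, P12 (c i) * P3' (h i) = 0) : c = 0 := by
  by_contra hc
  obtain ⟨i₀, hi₀⟩ : ∃ i, c i ≠ 0 := by
    by_contra hall
    push Not at hall
    exact hc (funext hall)
  -- a point where all the `c i` are regular and `c i₀` is a unit
  have hthin : X2.thin ({p | ¬ X2.IsUnitAt p (c i₀)} ∪ ⋃ i ∈ (Finset.univ : Finset (Fin N)),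
      {p | ¬ X2.Reg p (c i)}) :=
    X2.thin_union (X2.thin_not_isUnitAt hi₀)
      (X2.thin_biUnion Finset.univ _ (fun i _ => X2.thin_not_reg (c i)))
  obtain ⟨p, -, hp⟩ := X2.exists_mem_not_mem_of_not_thin X2.not_thin_univ hthin
  have hreg : ∀ i, X2.Reg p (c i) := by
    intro i
    by_contra hr
    exact hp (Or.inr (Set.mem_biUnion (Finset.mem_univ i) hr))
  have hunit : X2.IsUnitAt p (c i₀) := by
    by_contra hu
    exact hp (Or.inl hu)
  -- apply the partial comorphism of the fibre through `p`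
  choose hm12 h12 using fun i => J_p12 p (c i) (hreg i)
  choose hm3 h3 using fun i => J_p3 p (h i)
  have hdom : (∑ i, (⟨P12 (c i), hm12 i⟩ : (J p).dom) * ⟨P3' (h i), hm3 i⟩) = 0 := by
    apply Subtype.ext
    rw [AddSubmonoidClass.coe_finsetSum]
    exact hsum
  have hρ := congrArg (J p).ρ hdom
  rw [map_sum, map_zero] at hρ
  have hρ' : ∑ i, X2.ev p (c i) • h i = 0 := by
    rw [← hρ]
    refine Finset.sum_congr rfl (fun i _ => ?_)
    rw [map_mul, h12 i, h3 i, Algebra.smul_def]
  have hzero := (Fintype.linearIndependent_iff.1 hli) (fun i => X2.ev p (c i)) hρ' i₀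
  exact X2.ev_ne_zero_of_isUnitAt hunit hzero

end Fermat.Agent.S26lib.Para
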